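import Mathlib.Algebra.Polynomial.Derivative
import Mathlib.Algebra.Polynomial.FieldDivision

/-!
# Certificates for endomorphisms

For `E : y² = x³ + A x + B` polynomials `N`, `V`, `h` with `f V² = N³ + A N h⁴ + B h⁶` and
`α V = N' h - 2 N h'` make `(x, y) ↦ (N / h², y V / h³)` a map of `E` that multiplies the invariant
differential by `α`.
-/

set_option autoImplicit false

open Polynomial

namespace FA.CM.ClassOne

universe u

/-- A certificate for an endomorphism of `y² = x³ + A x + B` multiplying `dx / y` by `α`. -/
structure Cert {k : Type u} [Field k] (A B α : k) where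
  /-- The numerator of the abscissa. -/
  N : k[X]
  /-- The numerator of the ordinate, without `y`. -/
  V : k[X]
  /-- The root of the denominator of the abscissa. -/
  h : k[X]
  V_ne : V ≠ 0
  h_ne : h ≠ 0
  curve_eq : (X ^ 3 + C A * X + C B) * V ^ 2 = N ^ 3 + C A * N * h ^ 4 + C B * h ^ 6
  deriv_eq : C α * V = derivative N * h - 2 * N * derivative h

namespace Cert

variable {k K : Type*} [Field k] [Field K] {A B α : k}

/-- The image of a certificate under a ring map. -/
noncomputable def map (c : Cert A B α) (σ : k →+* K) : Cert (σ A) (σ B) (σ α) where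
  N := c.N.map σ
  V := c.V.map σ
  h := c.h.map σ
  V_ne := (Polynomial.map_ne_zero_iff σ.injective).mpr c.V_ne
  h_ne := (Polynomial.map_ne_zero_iff σ.injective).mpr c.h_ne
  curve_eq := by simpa using congrArg (Polynomial.map σ) c.curve_eq
  deriv_eq := by simpa [derivative_map] using congrArg (Polynomial.map σ) c.deriv_eq

end Cert

end FA.CM.ClassOne
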