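import Fermat.Agent.CM.ClassOne.Certificate
import Mathlib.Algebra.Polynomial.Derivative
import Mathlib.Algebra.Polynomial.Coeff
import Mathlib.Tactic.LinearCombination
import Mathlib.Tactic.Ring
import Mathlib.Tactic.Linarith

/-!
# Checking polynomial identities over `ℤ[ω]`, `ω² = ω - n`, by lists of coefficients

A polynomial is the list of its coefficients from the constant one up, each a pair `(u, v)` standing
for `u + v ω`. The operations are structural recursions, so that `decide +kernel` evaluates them.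
-/

set_option autoImplicit false

noncomputable section

open Polynomial

namespace FA.CM.ClassOne.Check

/-- Sum of two coefficients. -/
def cAdd (a b : ℤ × ℤ) : ℤ × ℤ := (a.1 + b.1, a.2 + b.2)

/-- Product of two coefficients, `ω² = ω - n`. -/
def cMul (n : ℤ) (a b : ℤ × ℤ) : ℤ × ℤ :=
  (a.1 * b.1 - n * (a.2 * b.2), a.1 * b.2 + a.2 * b.1 + a.2 * b.2)

/-- Sum of two lists. -/
def lAdd : List (ℤ × ℤ) → List (ℤ × ℤ) → List (ℤ × ℤ)
  | [], m => m
  | a :: l, [] => a :: l
  | a :: l, b :: m => cAdd a b :: lAdd l m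

/-- A list times a coefficient. -/
def lSmul (n : ℤ) (a : ℤ × ℤ) : List (ℤ × ℤ) → List (ℤ × ℤ)
  | [] => []
  | b :: m => cMul n a b :: lSmul n a m

/-- Product of two lists. -/
def lMul (n : ℤ) : List (ℤ × ℤ) → List (ℤ × ℤ) → List (ℤ × ℤ)
  | [], _ => []
  | a :: l, m => lAdd (lSmul n a m) ((0, 0) :: lMul n l m)

/-- Derivative of a list. -/
def lDer : List (ℤ × ℤ) → List (ℤ × ℤ)
  | [] => []
  | _ :: l => lAdd l ((0, 0) :: lDer l)

/-- All coefficients vanish. -/
def lIsZero : List (ℤ × ℤ) → Bool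
  | [] => true
  | a :: l => decide (a.1 = 0) && decide (a.2 = 0) && lIsZero l

/-- Size of a coefficient. -/
def cSize (a : ℤ × ℤ) : ℕ := a.1.natAbs + a.2.natAbs

/-- Sum of the sizes of the coefficients. -/
def lSize : List (ℤ × ℤ) → ℕ
  | [] => 0
  | a :: l => cSize a + lSize l

/-- First component of the value at `M`. -/
def lRe (M : ℤ) : List (ℤ × ℤ) → ℤ
  | [] => 0
  | a :: l => a.1 + M * lRe M l

/-- Second component of the value at `M`. -/
def lIm (M : ℤ) : List (ℤ × ℤ) → ℤ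
  | [] => 0
  | a :: l => a.2 + M * lIm M l

/-- The value at `M`. -/
def lEv (M : ℤ) (l : List (ℤ × ℤ)) : ℤ × ℤ := (lRe M l, lIm M l)

theorem cSize_cAdd (a b : ℤ × ℤ) : cSize (cAdd a b) ≤ cSize a + cSize b := by
  have h1 := Int.natAbs_add_le a.1 b.1
  have h2 := Int.natAbs_add_le a.2 b.2
  simp only [cSize, cAdd]; omega

theorem cSize_cMul (n : ℤ) (a b : ℤ × ℤ) :
    cSize (cMul n a b) ≤ (n.natAbs + 2) * (cSize a * cSize b) := by
  have h1 := Int.natAbs_sub_le (a.1 * b.1) (n * (a.2 * b.2))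
  have h2 := Int.natAbs_add_le (a.1 * b.2 + a.2 * b.1) (a.2 * b.2)
  have h3 := Int.natAbs_add_le (a.1 * b.2) (a.2 * b.1)
  simp only [Int.natAbs_mul] at h1 h2 h3
  simp only [cSize, cMul]
  nlinarith [Nat.zero_le (a.1.natAbs * b.1.natAbs), Nat.zero_le (a.1.natAbs * b.2.natAbs),
    Nat.zero_le (a.2.natAbs * b.1.natAbs), Nat.zero_le (a.2.natAbs * b.2.natAbs),
    Nat.zero_le (n.natAbs * (a.1.natAbs * b.1.natAbs)),
    Nat.zero_le (n.natAbs * (a.1.natAbs * b.2.natAbs)),
    Nat.zero_le (n.natAbs * (a.2.natAbs * b.1.natAbs))]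

theorem lSize_lAdd : ∀ l m : List (ℤ × ℤ), lSize (lAdd l m) ≤ lSize l + lSize m
  | [], m => by simp [lAdd, lSize]
  | a :: l, [] => by simp [lAdd, lSize]
  | a :: l, b :: m => by
    have := cSize_cAdd a b
    have := lSize_lAdd l m
    simp only [lAdd, lSize]; omega

theorem lSize_lSmul (n : ℤ) (a : ℤ × ℤ) : ∀ l : List (ℤ × ℤ),
    lSize (lSmul n a l) ≤ (n.natAbs + 2) * (cSize a * lSize l)
  | [] => by simp [lSmul, lSize]
  | b :: m => by
    simp only [lSmul, lSize]
    calc _ ≤ (n.natAbs + 2) * (cSize a * cSize b) + (n.natAbs + 2) * (cSize a * lSize m) :=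
          add_le_add (cSize_cMul n a b) (lSize_lSmul n a m)
      _ = _ := by ring

theorem lSize_lMul (n : ℤ) : ∀ l m : List (ℤ × ℤ),
    lSize (lMul n l m) ≤ (n.natAbs + 2) * (lSize l * lSize m)
  | [], m => by simp [lMul, lSize]
  | a :: l, m => by
    simp only [lMul]
    refine (lSize_lAdd _ _).trans ?_
    simp only [lSize, cSize, Int.natAbs_zero, zero_add]
    calc _ ≤ (n.natAbs + 2) * (cSize a * lSize m) + (n.natAbs + 2) * (lSize l * lSize m) :=
          add_le_add (lSize_lSmul n a m) (lSize_lMul n l m)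
      _ = _ := by simp only [cSize]; ring

theorem lEv_lAdd (M : ℤ) : ∀ l m : List (ℤ × ℤ), lEv M (lAdd l m) = cAdd (lEv M l) (lEv M m)
  | [], m => by simp [lAdd, lEv, lRe, lIm, cAdd]
  | a :: l, [] => by simp [lAdd, lEv, lRe, lIm, cAdd]
  | a :: l, b :: m => by
    have e := lEv_lAdd M l m
    simp only [lEv, cAdd, Prod.mk.injEq] at e
    simp only [lAdd, lEv, lRe, lIm, cAdd, Prod.mk.injEq, e.1, e.2]
    constructor <;> ring

theorem lEv_lSmul (n M : ℤ) (a : ℤ × ℤ) : ∀ l : List (ℤ × ℤ),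
    lEv M (lSmul n a l) = cMul n a (lEv M l)
  | [] => by simp [lSmul, lEv, lRe, lIm, cMul]
  | b :: m => by
    have e := lEv_lSmul n M a m
    simp only [lEv, cMul, Prod.mk.injEq] at e
    simp only [lSmul, lEv, lRe, lIm, cMul, Prod.mk.injEq, e.1, e.2]
    constructor <;> ring

theorem lEv_lMul (n M : ℤ) : ∀ l m : List (ℤ × ℤ),
    lEv M (lMul n l m) = cMul n (lEv M l) (lEv M m)
  | [], m => by simp [lMul, lEv, lRe, lIm, cMul]
  | a :: l, m => by
    have e := lEv_lMul n M l m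
    simp only [lMul, lEv_lAdd, lEv_lSmul]
    simp only [lEv, cMul, Prod.mk.injEq] at e
    simp only [lEv, lRe, lIm, cAdd, cMul, Prod.mk.injEq, e.1, e.2]
    constructor <;> ring

/-- Coefficients smaller than `M` are determined by the value at `M`. -/
theorem lIsZero_of_lEv {M : ℤ} : ∀ l : List (ℤ × ℤ), (lSize l : ℤ) < M → lEv M l = (0, 0) →
    lIsZero l = true
  | [], _, _ => rfl
  | a :: l, hb, e => by
    simp only [lEv, lRe, lIm, Prod.mk.injEq] at e
    simp only [lSize, cSize, Nat.cast_add, Int.natCast_natAbs] at hb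
    have hs : (0 : ℤ) ≤ (lSize l : ℤ) := Int.natCast_nonneg _
    have small : ∀ x r : ℤ, |x| < M → x + M * r = 0 → x = 0 ∧ r = 0 := fun x r hx h => by
      have hx0 : x = 0 := Int.eq_zero_of_abs_lt_dvd (m := M) ⟨-r, by linear_combination h⟩ hx
      refine ⟨hx0, ?_⟩
      rw [hx0, zero_add, mul_eq_zero] at h
      exact h.resolve_left (by have := abs_nonneg x; omega)
    obtain ⟨h1, r1⟩ := small _ _ (by have := abs_nonneg a.2; omega) e.1
    obtain ⟨h2, r2⟩ := small _ _ (by have := abs_nonneg a.1; omega) e.2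
    simp only [lIsZero, h1, h2, decide_true, Bool.true_and]
    exact lIsZero_of_lEv (M := M) l (by have := abs_nonneg a.1; have := abs_nonneg a.2; omega)
      (by rw [lEv, r1, r2])

/-- `l` has value `e` at `M` and size at most `b`. -/
def Rep (M : ℤ) (l : List (ℤ × ℤ)) (e : ℤ × ℤ) (b : ℕ) : Prop := lEv M l = e ∧ lSize l ≤ b

theorem Rep.base (M : ℤ) (l : List (ℤ × ℤ)) : Rep M l (lEv M l) (lSize l) := ⟨rfl, le_rfl⟩

theorem Rep.add {M : ℤ} {l m : List (ℤ × ℤ)} {e e' : ℤ × ℤ} {b b' : ℕ} (h : Rep M l e b)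
    (h' : Rep M m e' b') : Rep M (lAdd l m) (cAdd e e') (b + b') :=
  ⟨by rw [lEv_lAdd, h.1, h'.1], (lSize_lAdd l m).trans (add_le_add h.2 h'.2)⟩

theorem Rep.mul (n : ℤ) {M : ℤ} {l m : List (ℤ × ℤ)} {e e' : ℤ × ℤ} {b b' : ℕ} (h : Rep M l e b)
    (h' : Rep M m e' b') :
    Rep M (lMul n l m) (cMul n e e') ((n.natAbs + 2) * (b * b')) :=
  ⟨by rw [lEv_lMul, h.1, h'.1],
    (lSize_lMul n l m).trans (Nat.mul_le_mul_left _ (Nat.mul_le_mul h.2 h'.2))⟩

theorem Rep.smul (n : ℤ) (a : ℤ × ℤ) {M : ℤ} {l : List (ℤ × ℤ)} {e : ℤ × ℤ} {b : ℕ}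
    (h : Rep M l e b) : Rep M (lSmul n a l) (cMul n a e) ((n.natAbs + 2) * (cSize a * b)) :=
  ⟨by rw [lEv_lSmul, h.1],
    (lSize_lSmul n a l).trans (Nat.mul_le_mul_left _ (Nat.mul_le_mul_left _ h.2))⟩

theorem Rep.isZero {M : ℤ} {l : List (ℤ × ℤ)} {e : ℤ × ℤ} {b : ℕ} (h : Rep M l e b)
    (hb : (b : ℤ) < M) (he : e = (0, 0)) : lIsZero l = true :=
  lIsZero_of_lEv l ((Int.ofNat_le.mpr h.2).trans_lt hb) (h.1.trans he)

variable {k : Type*} [CommRing k] (w : k)

/-- The value of a coefficient at a root `w`. -/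
def cVal (a : ℤ × ℤ) : k := (a.1 : k) + (a.2 : k) * w

/-- The polynomial of a list. -/
def lPoly : List (ℤ × ℤ) → k[X]
  | [] => 0
  | a :: l => C (cVal w a) + X * lPoly l

@[simp] theorem lPoly_nil : lPoly w [] = 0 := rfl

@[simp] theorem lPoly_cons (a : ℤ × ℤ) (l : List (ℤ × ℤ)) :
    lPoly w (a :: l) = C (cVal w a) + X * lPoly w l := rfl

theorem cVal_zero : cVal w (0, 0) = 0 := by simp [cVal]

theorem cVal_cAdd (a b : ℤ × ℤ) : cVal w (cAdd a b) = cVal w a + cVal w b := by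
  simp only [cVal, cAdd, Int.cast_add]; ring

theorem lPoly_lAdd : ∀ l m : List (ℤ × ℤ), lPoly w (lAdd l m) = lPoly w l + lPoly w m
  | [], m => by simp [lAdd]
  | a :: l, [] => by simp [lAdd]
  | a :: l, b :: m => by
    simp only [lAdd, lPoly_cons, cVal_cAdd, map_add, lPoly_lAdd l m]; ring

theorem lPoly_lDer : ∀ l : List (ℤ × ℤ), lPoly w (lDer l) = derivative (lPoly w l)
  | [] => by simp [lDer]
  | a :: l => by
    simp only [lDer, lPoly_cons, lPoly_lAdd, cVal_zero, map_zero, zero_add, lPoly_lDer l,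
      map_add, derivative_C, derivative_mul, derivative_X, one_mul]

theorem lPoly_eq_zero : ∀ l : List (ℤ × ℤ), lIsZero l = true → lPoly w l = 0
  | [], _ => rfl
  | a :: l, h => by
    simp only [lIsZero, Bool.and_eq_true, decide_eq_true_eq] at h
    simp [cVal, h.1.1, h.1.2, lPoly_eq_zero l h.2]

/-- The constant coefficient of the `i`-th shift. -/
theorem coeff_lPoly : ∀ (l : List (ℤ × ℤ)) (i : ℕ),
    (lPoly w l).coeff i = cVal w (l.getD i (0, 0))
  | [], i => by simp [cVal]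
  | a :: l, 0 => by simp
  | a :: l, i + 1 => by
    simp [coeff_X_mul, coeff_lPoly l i]

variable {w} {n : ℤ} (hw : w ^ 2 - w + (n : k) = 0)
include hw

theorem cVal_cMul (a b : ℤ × ℤ) : cVal w (cMul n a b) = cVal w a * cVal w b := by
  simp only [cVal, cMul, Int.cast_add, Int.cast_sub, Int.cast_mul]
  linear_combination -((a.2 : k) * b.2) * hw

theorem lPoly_lSmul (a : ℤ × ℤ) : ∀ l : List (ℤ × ℤ),
    lPoly w (lSmul n a l) = C (cVal w a) * lPoly w l
  | [] => by simp [lSmul]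
  | b :: m => by
    simp only [lSmul, lPoly_cons, cVal_cMul hw, map_mul, lPoly_lSmul a m]; ring

theorem lPoly_lMul : ∀ l m : List (ℤ × ℤ), lPoly w (lMul n l m) = lPoly w l * lPoly w m
  | [], m => by simp [lMul]
  | a :: l, m => by
    simp only [lMul, lPoly_lAdd, lPoly_cons, cVal_zero, map_zero, lPoly_lSmul hw,
      lPoly_lMul l m]
    ring

omit hw

/-- The curve identity `f V² = N³ + A N h⁴ + B h⁶` as a list. -/
def curveDefect (n A B : ℤ) (N V h : List (ℤ × ℤ)) : List (ℤ × ℤ) :=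
  lAdd (lMul n [(B, 0), (A, 0), (0, 0), (1, 0)] (lMul n V V))
    (lSmul n (-1, 0) (lAdd (lMul n N (lMul n N N))
      (lAdd (lMul n [(A, 0)] (lMul n N (lMul n (lMul n h h) (lMul n h h))))
        (lMul n [(B, 0)] (lMul n (lMul n h h) (lMul n (lMul n h h) (lMul n h h)))))))

/-- The differential identity `ω V = N' h - 2 N h'` as a list. -/
def diffDefect (n : ℤ) (N V h : List (ℤ × ℤ)) : List (ℤ × ℤ) :=
  lAdd (lSmul n (0, 1) V)
    (lSmul n (-1, 0) (lAdd (lMul n (lDer N) h) (lSmul n (-2, 0) (lMul n N (lDer h)))))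

include hw

theorem curve_of_defect {A B : ℤ} {N V h : List (ℤ × ℤ)}
    (e : lIsZero (curveDefect n A B N V h) = true) :
    (X ^ 3 + C (A : k) * X + C (B : k)) * lPoly w V ^ 2 =
      lPoly w N ^ 3 + C (A : k) * lPoly w N * lPoly w h ^ 4 + C (B : k) * lPoly w h ^ 6 := by
  have := lPoly_eq_zero w _ e
  simp only [curveDefect, lPoly_lAdd, lPoly_lSmul hw, lPoly_lMul hw, lPoly_cons, lPoly_nil,
    cVal, Int.cast_zero, Int.cast_one, Int.cast_neg, zero_mul, add_zero, map_zero, map_one,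
    map_neg, mul_zero] at this
  linear_combination this

theorem diff_of_defect {N V h : List (ℤ × ℤ)} (e : lIsZero (diffDefect n N V h) = true) :
    C w * lPoly w V =
      derivative (lPoly w N) * lPoly w h - 2 * lPoly w N * derivative (lPoly w h) := by
  have := lPoly_eq_zero w _ e
  simp only [diffDefect, lPoly_lAdd, lPoly_lSmul hw, lPoly_lMul hw, lPoly_lDer,
    cVal, Int.cast_zero, Int.cast_one, Int.cast_neg, Int.cast_ofNat, zero_mul, add_zero, zero_add,
    one_mul, map_one, map_neg, map_ofNat] at this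
  linear_combination this

omit hw

/-- The check of `curveDefect` at `2 ^ K`. -/
def curveTest (n A B : ℤ) (K : ℕ) (N V h : List (ℤ × ℤ)) : Bool :=
  let M : ℤ := ((2 ^ K : ℕ) : ℤ)
  let s := n.natAbs + 2
  let a := lEv M N
  let v := lEv M V
  let c := lEv M h
  let c2 := cMul n c c
  let l := lSize h
  let l2 := s * (l * l)
  decide (((s * (lSize [(B, 0), (A, 0), (0, 0), (1, 0)] * (s * (lSize V * lSize V))) +
      s * (cSize (-1, 0) * (s * (lSize N * (s * (lSize N * lSize N))) +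
        (s * (lSize [(A, 0)] * (s * (lSize N * (s * (l2 * l2))))) +
          s * (lSize [(B, 0)] * (s * (l2 * (s * (l2 * l2))))))))) : ℕ) < M) &&
    decide (cAdd (cMul n (lEv M [(B, 0), (A, 0), (0, 0), (1, 0)]) (cMul n v v))
      (cMul n (-1, 0) (cAdd (cMul n a (cMul n a a))
        (cAdd (cMul n (lEv M [(A, 0)]) (cMul n a (cMul n c2 c2)))
          (cMul n (lEv M [(B, 0)]) (cMul n c2 (cMul n c2 c2)))))) = (0, 0))

theorem curveDefect_of_test {n A B : ℤ} {K : ℕ} {N V h : List (ℤ × ℤ)}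
    (e : curveTest n A B K N V h = true) : lIsZero (curveDefect n A B N V h) = true := by
  simp only [curveTest, Bool.and_eq_true, decide_eq_true_eq] at e
  set M : ℤ := ((2 ^ K : ℕ) : ℤ)
  have rh := (Rep.base M h).mul n (Rep.base M h)
  have rN := Rep.base M N
  exact (((Rep.base M _).mul n ((Rep.base M V).mul n (Rep.base M V))).add
    ((((rN.mul n (rN.mul n rN)).add (((Rep.base M _).mul n (rN.mul n (rh.mul n rh))).add
      ((Rep.base M _).mul n (rh.mul n (rh.mul n rh)))))).smul n (-1, 0))).isZero e.1 e.2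

end FA.CM.ClassOne.Check

namespace FA.CM.ClassOne

open Check

/-- **A certificate from lists**: the two kernel checks and the leading coefficients `1` of `V`
and `ω` of `h`. -/
theorem nonempty_cert_of_test {k : Type*} [Field k] {n A B : ℤ} {K : ℕ} {N V h : List (ℤ × ℤ)}
    (hn : (n : k) ≠ 0) (e₁ : curveTest n A B K N V h = true)
    (e₂ : lIsZero (diffDefect n N V h) = true) {i j : ℕ} (hV : V.getD i (0, 0) = (1, 0))
    (hh : h.getD j (0, 0) = (0, 1)) {α : k} (hα : α ^ 2 - α + (n : k) = 0) :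
    Nonempty (Cert (A : k) (B : k) α) := by
  refine ⟨⟨lPoly α N, lPoly α V, lPoly α h, fun e => ?_, fun e => ?_,
    curve_of_defect hα (curveDefect_of_test e₁), diff_of_defect hα e₂⟩⟩
  · have h1 := coeff_lPoly α V i
    rw [e, Polynomial.coeff_zero, hV] at h1
    simp [cVal] at h1
  · have h1 := coeff_lPoly α h j
    rw [e, Polynomial.coeff_zero, hh] at h1
    simp only [cVal, Int.cast_zero, Int.cast_one, one_mul, zero_add] at h1
    exact hn (by rw [← h1] at hα; simpa using hα)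

end FA.CM.ClassOne

end
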