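import Fermat.Agent.CM.ClassOne.Certificate
import Mathlib.AlgebraicGeometry.EllipticCurve.Affine.Point
import Mathlib.Algebra.Polynomial.Derivation
import Mathlib.FieldTheory.IsAlgClosed.Basic
import Mathlib.RingTheory.Derivation.Basic

/-!
# The endomorphism of a certificate

Let `E : y² = x³ + a x + b` over `K₀`, `k` an algebraically closed extension and `F / k` the
function field of `E`, with generic point `G` and the additive invariant `δ (x, y) = dx / y`. A
certificate gives a map `φ` with `δ (φ P) = α δ P`. So `φ (G + R) - φ G` is a point `g R` over `k`,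
the same for every nonconstant point in the place of `G`: `g` is additive, satisfies the equation
of `α`, and Galois acts on it through `α`.
-/

set_option autoImplicit false
set_option linter.unusedSectionVars false

noncomputable section

open Polynomial WeierstrassCurve
open scoped WeierstrassCurve.Affine

namespace FA.CM.ClassOne

universe u v w

/-- `y² = x³ + a x + b`. -/
abbrev shortCurve {K₀ : Type*} [Field K₀] (a b : K₀) : WeierstrassCurve K₀ := ⟨0, 0, 0, a, b⟩

variable {K₀ : Type u} [Field K₀] {k : Type v} [Field k] [DecidableEq k] [Algebra K₀ k]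

/-- What is used of the function field of the curve. -/
structure GenericSetting (a b : K₀) (k : Type v) [Field k] [DecidableEq k] [Algebra K₀ k]
    (F : Type w) [Field F] [DecidableEq F] [Algebra k F] [Algebra K₀ F]
    [IsScalarTower K₀ k F] where
  /-- The derivation `d / dX`. -/
  d : Derivation k F F
  /-- The invariant `(x, y) ↦ dx / y`. -/
  δ : ((shortCurve a b).toAffine⁄F).Point →+ F
  δ_some : ∀ x y h, δ (Affine.Point.some x y h) = d x / y
  exists_const : ∀ P, δ P = 0 → ∃ R : ((shortCurve a b).toAffine⁄k).Point,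
    Affine.Point.map (IsScalarTower.toAlgHom K₀ k F) R = P
  /-- The generic point. -/
  G : ((shortCurve a b).toAffine⁄F).Point
  δ_G : δ G ≠ 0
  exists_embed : ∀ P, δ P ≠ 0 →
    ∃ τ : F →ₐ[k] F, Affine.Point.map (τ.restrictScalars K₀) G = P
  exists_lift : ∀ σ : k ≃ₐ[K₀] k, ∃ σt : F →ₐ[K₀] F,
    (∀ c : k, σt (algebraMap k F c) = algebraMap k F (σ c)) ∧ Affine.Point.map σt G = G

variable {a b : K₀} [(shortCurve a b).IsElliptic] {F : Type w} [Field F] [DecidableEq F]
  [Algebra k F] [Algebra K₀ F] [IsScalarTower K₀ k F]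

instance isElliptic_shortCurve_baseChange (L : Type*) [Field L] [Algebra K₀ L] :
    ((shortCurve a b).toAffine⁄L).IsElliptic :=
  inferInstanceAs ((shortCurve a b).map (algebraMap K₀ L)).IsElliptic

/-- The constant points. -/
abbrev constPt (a b : K₀) (k : Type v) [Field k] [DecidableEq k] [Algebra K₀ k]
    (F : Type w) [Field F] [DecidableEq F] [Algebra k F] [Algebra K₀ F] [IsScalarTower K₀ k F] :
    ((shortCurve a b).toAffine⁄k).Point →+ ((shortCurve a b).toAffine⁄F).Point :=
  Affine.Point.map (IsScalarTower.toAlgHom K₀ k F)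

/-- A certificate for the curve over `k`. -/
abbrev CertOver (a b : K₀) {k : Type v} [Field k] [Algebra K₀ k] (α : k) :=
  Cert (algebraMap K₀ k a) (algebraMap K₀ k b) α

/-- The conjugate certificate. -/
def Cert.conj {α : k} (c : CertOver a b α) (σ : k ≃ₐ[K₀] k) : CertOver a b (σ α) where
  N := c.N.map (σ : k →+* k)
  V := c.V.map (σ : k →+* k)
  h := c.h.map (σ : k →+* k)
  V_ne := (c.map (σ : k →+* k)).V_ne
  h_ne := (c.map (σ : k →+* k)).h_ne
  curve_eq := by simpa [Cert.map] using (c.map (σ : k →+* k)).curve_eq
  deriv_eq := by simpa [Cert.map] using (c.map (σ : k →+* k)).deriv_eq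

variable {α : k} (c : CertOver a b α)

theorem equation_phiPt {x y : F} (h : ((shortCurve a b).toAffine⁄F).Equation x y)
    (hh : aeval x c.h ≠ 0) :
    ((shortCurve a b).toAffine⁄F).Equation (aeval x c.N / aeval x c.h ^ 2)
      (y * aeval x c.V / aeval x c.h ^ 3) := by
  rw [Affine.equation_iff] at h ⊢
  have e := congrArg (aeval x) c.curve_eq
  simp only [map_add, map_mul, map_pow, aeval_X, aeval_C,
    ← IsScalarTower.algebraMap_apply K₀ k F] at e
  simp [WeierstrassCurve.baseChange] at h ⊢
  field_simp
  linear_combination (aeval x c.V) ^ 2 * h + e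

/-- The map of a certificate. -/
def phiPt : ((shortCurve a b).toAffine⁄F).Point → ((shortCurve a b).toAffine⁄F).Point
  | .zero => 0
  | .some x _ h =>
    if hh : aeval x c.h = 0 then 0
    else .some _ _ (Affine.equation_iff_nonsingular.mp (equation_phiPt c h.1 hh))

theorem phiPt_some {x y : F} (h : ((shortCurve a b).toAffine⁄F).Nonsingular x y)
    (hh : aeval x c.h ≠ 0) :
    phiPt c (.some x y h) =
      .some _ _ (Affine.equation_iff_nonsingular.mp (equation_phiPt c h.1 hh)) :=
  dif_neg hh

/-- The map commutes with embeddings over `k`. -/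
theorem phiPt_embed (τ : F →ₐ[k] F) (P : ((shortCurve a b).toAffine⁄F).Point) :
    Affine.Point.map (τ.restrictScalars K₀) (phiPt c P) =
      phiPt c (Affine.Point.map (τ.restrictScalars K₀) P) := by
  match P with
  | .zero => rfl
  | .some x y h =>
    rw [Affine.Point.map_some]
    by_cases hh : aeval x c.h = 0
    · have hh' : aeval (τ.restrictScalars K₀ x) c.h = 0 := by
        rw [AlgHom.restrictScalars_apply, aeval_algHom_apply, hh, map_zero]
      simp only [phiPt, dif_pos hh, dif_pos hh', Affine.Point.map_zero]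
    · have hh' : aeval (τ.restrictScalars K₀ x) c.h ≠ 0 := by
        rwa [AlgHom.restrictScalars_apply, aeval_algHom_apply, _root_.map_ne_zero]
      rw [phiPt_some c _ hh, phiPt_some c _ hh', Affine.Point.map_some]
      simp only [Affine.Point.some.injEq]
      simp [AlgHom.restrictScalars_apply, aeval_algHom_apply]

/-- A semilinear map carries the map of a certificate to that of the conjugate one. -/
theorem phiPt_lift {σ : k ≃ₐ[K₀] k} {σt : F →ₐ[K₀] F}
    (hσ : ∀ c : k, σt (algebraMap k F c) = algebraMap k F (σ c))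
    (P : ((shortCurve a b).toAffine⁄F).Point) :
    Affine.Point.map σt (phiPt c P) = phiPt (c.conj σ) (Affine.Point.map σt P) := by
  have hev : ∀ (p : k[X]) (x : F), σt (aeval x p) = aeval (σt x) (p.map (σ : k →+* k)) := by
    intro p x
    induction p using Polynomial.induction_on' with
    | add p q hp hq => simp [hp, hq]
    | monomial n r => simp [aeval_monomial, hσ]
  match P with
  | .zero => rfl
  | .some x y h =>
    rw [Affine.Point.map_some]
    by_cases hh : aeval x c.h = 0
    · have hh' : aeval (σt x) (c.conj σ).h = 0 := by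
        rw [Cert.conj, ← hev, hh, map_zero]
      simp only [phiPt, dif_pos hh, dif_pos hh', Affine.Point.map_zero]
    · have hh' : aeval (σt x) (c.conj σ).h ≠ 0 := by
        rwa [Cert.conj, ← hev, _root_.map_ne_zero]
      rw [phiPt_some c _ hh, phiPt_some (c.conj σ) _ hh', Affine.Point.map_some]
      simp only [Affine.Point.some.injEq, Cert.conj]
      simp [hev]

variable [IsAlgClosed k] (S : GenericSetting a b k F)

theorem δ_constPt (R : ((shortCurve a b).toAffine⁄k).Point) : S.δ (constPt a b k F R) = 0 := by
  match R with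
  | .zero => exact map_zero S.δ
  | .some x y h =>
    rw [constPt, Affine.Point.map_some, S.δ_some,
      show (IsScalarTower.toAlgHom K₀ k F) x = algebraMap k F x from rfl,
      Derivation.map_algebraMap, zero_div]

theorem aeval_ne_zero {x : F} (hx : S.d x ≠ 0) {p : k[X]} (hp : p ≠ 0) : aeval x p ≠ 0 := by
  intro h
  obtain ⟨r, hr⟩ := (IsAlgClosed.splits (minpoly k x)).exists_eval_eq_zero
    (minpoly.degree_pos (isAlgebraic_iff_isIntegral.mp ⟨p, hp, h⟩)).ne'
  have hx' : IsIntegral k x := isAlgebraic_iff_isIntegral.mp ⟨p, hp, h⟩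
  have he := eq_X_add_C_of_degree_eq_one
    (IsAlgClosed.degree_eq_one_of_irreducible k (minpoly.irreducible hx'))
  rw [(minpoly.monic hx').leadingCoeff, C_1, one_mul] at he
  have h0 := minpoly.aeval k x
  rw [he, map_add, aeval_X, aeval_C, add_eq_zero_iff_eq_neg, ← map_neg] at h0
  exact hx (by rw [h0, Derivation.map_algebraMap])

theorem δ_phiPt {P : ((shortCurve a b).toAffine⁄F).Point} (hP : S.δ P ≠ 0) :
    S.δ (phiPt c P) = algebraMap k F α * S.δ P := by
  match P with
  | .zero => exact absurd (map_zero S.δ) hP
  | .some x y h =>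
    rw [S.δ_some, div_ne_zero_iff] at hP
    obtain ⟨hdx, hy⟩ := hP
    have hh := aeval_ne_zero S hdx c.h_ne
    have hV := aeval_ne_zero S hdx c.V_ne
    rw [phiPt_some c _ hh, S.δ_some, S.δ_some, Derivation.leibniz_div, pow_two (aeval x c.h),
      Derivation.leibniz, Derivation.comp_aeval_eq, Derivation.comp_aeval_eq]
    have e := congrArg (aeval x) c.deriv_eq
    simp only [map_mul, map_sub, aeval_C, map_ofNat] at e
    simp only [smul_eq_mul]
    field_simp
    linear_combination -e

theorem exists_hom (P : ((shortCurve a b).toAffine⁄k).Point) :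
    ∃ R, constPt a b k F R = phiPt c (S.G + constPt a b k F P) - phiPt c S.G := by
  refine S.exists_const _ ?_
  have h : S.δ (S.G + constPt a b k F P) = S.δ S.G := by rw [map_add, δ_constPt, add_zero]
  rw [map_sub, δ_phiPt c S (h ▸ S.δ_G), δ_phiPt c S S.δ_G, h, sub_self]

/-- The value at a point. -/
def homFun (P : ((shortCurve a b).toAffine⁄k).Point) : ((shortCurve a b).toAffine⁄k).Point :=
  (exists_hom c S P).choose

theorem constPt_injective : Function.Injective (constPt a b k F) :=
  Affine.Point.map_injective _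

theorem map_embed_constPt (τ : F →ₐ[k] F) (R : ((shortCurve a b).toAffine⁄k).Point) :
    Affine.Point.map (τ.restrictScalars K₀) (constPt a b k F R) = constPt a b k F R := by
  rw [constPt, Affine.Point.map_map]
  exact congrArg (fun f => Affine.Point.map f R) (AlgHom.ext fun x => τ.commutes x)

/-- The same value with any nonconstant point in the place of the generic one. -/
theorem phiPt_add_constPt {P : ((shortCurve a b).toAffine⁄F).Point} (hP : S.δ P ≠ 0)
    (R : ((shortCurve a b).toAffine⁄k).Point) :
    phiPt c (P + constPt a b k F R) = phiPt c P + constPt a b k F (homFun c S R) := by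
  obtain ⟨τ, rfl⟩ := S.exists_embed P hP
  have h := congrArg (Affine.Point.map (τ.restrictScalars K₀))
    ((exists_hom c S R).choose_spec)
  rw [map_sub, phiPt_embed, phiPt_embed, map_add, map_embed_constPt, map_embed_constPt] at h
  rw [homFun, h, add_sub_cancel]

/-- **The endomorphism of a certificate.** -/
def certHom : ((shortCurve a b).toAffine⁄k).Point →+ ((shortCurve a b).toAffine⁄k).Point :=
  AddMonoidHom.mk' (homFun c S) fun R R' => by
    refine constPt_injective (a := a) (b := b) (F := F) ?_
    have hG : S.δ (S.G + constPt a b k F R) ≠ 0 := by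
      rw [map_add, δ_constPt, add_zero]; exact S.δ_G
    have h := phiPt_add_constPt c S S.δ_G (R + R')
    rw [map_add, ← add_assoc, phiPt_add_constPt c S hG, phiPt_add_constPt c S S.δ_G,
      add_assoc] at h
    rw [map_add]
    exact (add_left_cancel h).symm

theorem phiPt_add_certHom {P : ((shortCurve a b).toAffine⁄F).Point} (hP : S.δ P ≠ 0)
    (R : ((shortCurve a b).toAffine⁄k).Point) :
    phiPt c (P + constPt a b k F R) = phiPt c P + constPt a b k F (certHom c S R) :=
  phiPt_add_constPt c S hP R

/-- A combination killed by `δ` at the generic point is constant, so killed by translations. -/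
theorem eq_of_translate
    (Ψ : ((shortCurve a b).toAffine⁄F).Point → ((shortCurve a b).toAffine⁄F).Point)
    (hτ : ∀ (τ : F →ₐ[k] F) P, Affine.Point.map (τ.restrictScalars K₀) (Ψ P) =
      Ψ (Affine.Point.map (τ.restrictScalars K₀) P))
    (h0 : S.δ (Ψ S.G) = 0) (R : ((shortCurve a b).toAffine⁄k).Point) :
    Ψ (S.G + constPt a b k F R) = Ψ S.G := by
  obtain ⟨τ, hτG⟩ := S.exists_embed (S.G + constPt a b k F R)
    (by rw [map_add, δ_constPt, add_zero]; exact S.δ_G)
  obtain ⟨C, hC⟩ := S.exists_const _ h0
  rw [← hτG, ← hτ, ← hC]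
  exact map_embed_constPt τ C

/-- **The relation** `g² - t g + n = 0`. -/
theorem certHom_sq {t n : ℤ} (hn : α * α - (t : k) * α + (n : k) = 0) (hα : α ≠ 0)
    (R : ((shortCurve a b).toAffine⁄k).Point) :
    certHom c S (certHom c S R) - t • certHom c S R + n • R = 0 := by
  have hG := δ_phiPt c S S.δ_G
  have hφ : S.δ (phiPt c S.G) ≠ 0 := by
    rw [hG]; exact mul_ne_zero ((map_ne_zero_iff _ (algebraMap k F).injective).mpr hα) S.δ_G
  have h := eq_of_translate S (fun P => phiPt c (phiPt c P) - t • phiPt c P + n • P)
    (fun τ P => by simp only [map_add, map_sub, map_zsmul, phiPt_embed])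
    (by
      rw [map_add, map_sub, map_zsmul, map_zsmul, δ_phiPt c S hφ, hG, zsmul_eq_mul, zsmul_eq_mul,
        show ((n : ℤ) : F) = algebraMap k F (n : k) from (map_intCast _ n).symm,
        show ((t : ℤ) : F) = algebraMap k F (t : k) from (map_intCast _ t).symm]
      linear_combination S.δ S.G * (by simpa using congrArg (algebraMap k F) hn :
        algebraMap k F α * algebraMap k F α - algebraMap k F (t : k) * algebraMap k F α +
          algebraMap k F (n : k) = 0)) R
  simp only [phiPt_add_certHom c S S.δ_G, phiPt_add_certHom c S hφ] at h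
  refine constPt_injective (a := a) (b := b) (F := F) ?_
  simp only [map_add, map_sub, map_zsmul, map_zero]
  rw [← sub_eq_zero] at h
  rw [← h]
  simp only [smul_add]
  abel

/-- Certificates for `α` and `t - α` give endomorphisms adding up to `t`. -/
theorem certHom_add {α' : k} (c' : CertOver a b α') {t : ℤ} (h : α + α' = t)
    (R : ((shortCurve a b).toAffine⁄k).Point) : certHom c S R + certHom c' S R = t • R := by
  have h' := eq_of_translate S (fun P => phiPt c P + phiPt c' P - t • P)
    (fun τ P => by simp only [map_add, map_sub, map_zsmul, phiPt_embed])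
    (by
      rw [map_sub, map_add, map_zsmul, δ_phiPt c S S.δ_G, δ_phiPt c' S S.δ_G, ← add_mul,
        ← map_add, h, map_intCast, zsmul_eq_mul, sub_self]) R
  simp only [phiPt_add_certHom c S S.δ_G, phiPt_add_certHom c' S S.δ_G] at h'
  refine constPt_injective (a := a) (b := b) (F := F) ?_
  rw [map_add, map_zsmul, ← sub_eq_zero, ← sub_eq_zero.mpr h', smul_add]
  abel

/-- The endomorphism depends on `α` only. -/
theorem certHom_congr {α' : k} (c' : CertOver a b α') (h : α = α')
    (R : ((shortCurve a b).toAffine⁄k).Point) : certHom c S R = certHom c' S R := by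
  have h' := eq_of_translate S (fun P => phiPt c P - phiPt c' P)
    (fun τ P => by simp only [map_sub, phiPt_embed])
    (by rw [map_sub, δ_phiPt c S S.δ_G, δ_phiPt c' S S.δ_G, h, sub_self]) R
  simp only [phiPt_add_certHom c S S.δ_G, phiPt_add_certHom c' S S.δ_G] at h'
  refine constPt_injective (a := a) (b := b) (F := F) ?_
  rw [← sub_eq_zero, ← sub_eq_zero.mpr h']
  abel

/-- **Galois acts through `α`.** -/
theorem certHom_conj (σ : k ≃ₐ[K₀] k) (R : ((shortCurve a b).toAffine⁄k).Point) :
    Affine.Point.map σ.toAlgHom (certHom c S R) =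
      certHom (c.conj σ) S (Affine.Point.map σ.toAlgHom R) := by
  obtain ⟨σt, hσ, hG⟩ := S.exists_lift σ
  have hc : ∀ Q, Affine.Point.map σt (constPt a b k F Q) =
      constPt a b k F (Affine.Point.map σ.toAlgHom Q) := fun Q => by
    rw [constPt, Affine.Point.map_map, Affine.Point.map_map]
    exact congrArg (fun f => Affine.Point.map f Q) (AlgHom.ext hσ)
  have h := congrArg (Affine.Point.map σt) (phiPt_add_certHom c S S.δ_G R)
  rw [map_add, phiPt_lift c hσ, phiPt_lift c hσ, map_add, hG, hc, hc,
    phiPt_add_certHom (c.conj σ) S S.δ_G] at h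
  exact constPt_injective (a := a) (b := b) (F := F) (add_left_cancel h).symm

include S in
/-- **The square root of `-q`** among the endomorphisms, with the action of Galois on it. -/
theorem exists_sqrt_endo {q n : ℤ} (hq : q + 1 = 4 * n) (hn : (n : k) ≠ 0) {s : k}
    (hs : s ^ 2 = -(q : k)) (h2 : (2 : k) ≠ 0) (c : CertOver a b ((1 + s) / 2)) :
    ∃ M : ((shortCurve a b).toAffine⁄k).Point →+ ((shortCurve a b).toAffine⁄k).Point,
      (∀ P, M (M P) = -q • P) ∧ ∀ σ : k ≃ₐ[K₀] k,
        (σ s = s → ∀ P, Affine.Point.map σ.toAlgHom (M P) = M (Affine.Point.map σ.toAlgHom P)) ∧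
        (σ s = -s → ∀ P,
          Affine.Point.map σ.toAlgHom (M P) = -M (Affine.Point.map σ.toAlgHom P)) := by
  set α := (1 + s) / 2 with hα
  have hqk : (q : k) + 1 = 4 * (n : k) := by exact_mod_cast congrArg (fun z : ℤ => (z : k)) hq
  have hα2 : α * α - α + (n : k) = 0 := by
    rw [hα]; field_simp; linear_combination hs - hqk
  have hα0 : α ≠ 0 := fun e => hn (by rw [e] at hα2; linear_combination hα2)
  set g := certHom c S
  refine ⟨(2 : ℤ) • g - AddMonoidHom.id _, fun P => ?_, fun σ => ⟨fun h P => ?_, fun h P => ?_⟩⟩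
  · have e := congrArg (fun Q => (4 : ℤ) • Q)
      (certHom_sq c S (t := 1) (n := n) (by rw [Int.cast_one, one_mul]; exact hα2) hα0 P)
    simp only [AddMonoidHom.sub_apply, AddMonoidHom.smul_apply, AddMonoidHom.id_apply, map_sub,
      map_zsmul]
    rw [show -q = 1 - 4 * n by omega, sub_smul, one_smul, mul_smul, ← sub_eq_zero]
    simp only [one_smul, smul_add, smul_sub, smul_zero] at e
    rw [← e]
    simp only [smul_sub, smul_smul]
    abel
  · have hσ : σ α = α := by rw [hα, map_div₀, map_add, map_one, map_ofNat, h]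
    simp only [AddMonoidHom.sub_apply, AddMonoidHom.smul_apply, AddMonoidHom.id_apply, map_sub,
      map_zsmul]
    rw [certHom_conj c S σ, certHom_congr (c.conj σ) S c hσ]
  · have hσ : α + σ α = 1 := by
      rw [hα, map_div₀, map_add, map_one, map_ofNat, h]; field_simp; ring
    simp only [AddMonoidHom.sub_apply, AddMonoidHom.smul_apply, AddMonoidHom.id_apply, map_sub,
      map_zsmul]
    have e := certHom_add c S (c.conj σ) (t := 1) (by rw [Int.cast_one]; exact hσ)
      (Affine.Point.map σ.toAlgHom P)
    rw [one_smul] at e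
    rw [certHom_conj c S σ, ← sub_eq_of_eq_add' e.symm]
    rw [smul_sub]
    abel

include S in
/-- The same from a certificate for `√-q` itself. -/
theorem exists_sqrt_endo_of_root {q : ℤ} {s : k} (hq : (q : k) ≠ 0) (hs : s ^ 2 = -(q : k))
    (c : CertOver a b s) :
    ∃ M : ((shortCurve a b).toAffine⁄k).Point →+ ((shortCurve a b).toAffine⁄k).Point,
      (∀ P, M (M P) = -q • P) ∧ ∀ σ : k ≃ₐ[K₀] k,
        (σ s = s → ∀ P, Affine.Point.map σ.toAlgHom (M P) = M (Affine.Point.map σ.toAlgHom P)) ∧
        (σ s = -s → ∀ P,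
          Affine.Point.map σ.toAlgHom (M P) = -M (Affine.Point.map σ.toAlgHom P)) := by
  have hs0 : s ≠ 0 := fun e => hq (by rw [e] at hs; linear_combination hs)
  refine ⟨certHom c S, fun P => ?_, fun σ => ⟨fun h P => ?_, fun h P => ?_⟩⟩
  · have e := certHom_sq c S (t := 0) (n := q) (by push_cast; linear_combination hs) hs0 P
    rw [zero_smul, sub_zero] at e
    rw [neg_smul, eq_neg_iff_add_eq_zero, e]
  · rw [certHom_conj c S σ, certHom_congr (c.conj σ) S c h]
  · have e := certHom_add c S (c.conj σ) (t := 0) (by rw [h, Int.cast_zero, add_neg_cancel])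
      (Affine.Point.map σ.toAlgHom P)
    rw [zero_smul] at e
    rw [certHom_conj c S σ, eq_neg_iff_add_eq_zero, add_comm, e]

end FA.CM.ClassOne

end
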