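import Fermat.Agent.CM.ClassOne.Check
import Fermat.Agent.CM.ClassOne.Hom
import Mathlib.FieldTheory.IsAlgClosed.AlgebraicClosure

/-!
# The endomorphism `ω`, `ω² = ω - 3`, of `y² = x³ - 9504 x + 365904`

The coefficients, from the constant one up, of polynomials `N`, `V`, `h` with
`f V² = N³ + A N h⁴ + B h⁶` and `ω V = N' h - 2 N h'`; `(u, v)` stands for `u + v ω`. They come from
the expansion of `℘ (ω z)` in `℘ (z)` and are checked by the kernel.
-/

set_option autoImplicit false

noncomputable section

namespace FA.CM.ClassOne

/-- The numerator of the abscissa for `-11`. -/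
def numNEleven : List (ℤ × ℤ) := [
    (-475200, 532224),
    (14256, -11088),
    (-144, 24),
    (1, 0)]

/-- The numerator of the ordinate for `-11`. -/
def numVEleven : List (ℤ × ℤ) := [
    (323136, -228096),
    (4752, 4752),
    (-216, 36),
    (1, 0)]

/-- The root of the denominator for `-11`. -/
def denHEleven : List (ℤ × ℤ) := [
    (-36, -60),
    (0, 1)]

theorem curveTest_eleven :
    Check.curveTest 3 (-9504) 365904 4000 numNEleven numVEleven denHEleven = true := by
  decide +kernel

theorem diffTest_eleven :
    Check.lIsZero (Check.diffDefect 3 numNEleven numVEleven denHEleven) = true := by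
  decide +kernel

/-- **The certificate for `-11`**, one for each root of `α² - α + 3`. -/
theorem certificates_eleven (α : AlgebraicClosure ℚ)
    (hα : α ^ 2 - α + ((3 : ℕ) : AlgebraicClosure ℚ) = 0) :
    Nonempty (CertOver (-9504 : ℚ) (365904 : ℚ) α) := by
  obtain ⟨c⟩ := nonempty_cert_of_test (k := AlgebraicClosure ℚ) (n := 3) (i := 3)
    (j := 1) (by norm_num) curveTest_eleven diffTest_eleven (by decide +kernel)
    (by decide +kernel) (α := α) (by exact_mod_cast hα)
  exact ⟨by simpa [CertOver] using c⟩

end FA.CM.ClassOne

end
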