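import Fermat.Agent.CM.ClassOne.Check
import Fermat.Agent.CM.ClassOne.Hom
import Mathlib.FieldTheory.IsAlgClosed.AlgebraicClosure

/-!
# The endomorphism `ω`, `ω² = ω - 11`, of `y² = x³ + (-13760) x + 621264`

The coefficients, from the constant one up, of polynomials `N`, `V`, `h` with
`f V² = N³ + A N h⁴ + B h⁶` and `ω V = N' h - 2 N h'`; `(u, v)` stands for `u + v ω`. They come from
the expansion of `℘ (ω z)` in `℘ (z)` and are checked by the kernel.
-/

set_option autoImplicit false

noncomputable section

namespace FA.CM.ClassOne

/-- The numerator of the abscissa for `-43`. -/
def numNFortyThree : List (ℤ × ℤ) := [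
    (-15373129280157397286912, 8721869538419739197440),
    (2011512876635978203136, -1017139147552429441024),
    (-116379021600956612608, 52431616465275191296),
    (3914950501309022208, -1568071928919949312),
    (-84613528354848768, 29997715652132864),
    (1223913894883328, -381166276935680),
    (-11950444019712, 3227297259520),
    (77424878080, -17700698880),
    (-318310080, 58430464),
    (771936, -97696),
    (-1056, 48),
    (1, 0)]

/-- The numerator of the ordinate for `-43`. -/
def numVFortyThree : List (ℤ × ℤ) := [
    (-15312941079754198468918247424, 2427016056659647723785420800),
    (2123200744299991240494022656, -542055791898096757683257344),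
    (-109477732386799374978514944, 48808048600636857130156032),
    (1561060708111958421798912, -2387873833090092109922304),
    (97383766420892422242304, 69151875294420493402112),
    (-6202046752882622988288, -1127925486364174319616),
    (174122263252664582144, 5505819531802574848),
    (-2856404367933505536, 179051619126018048),
    (25835523459219456, -4603293059923968),
    (-37151369461760, 51879047692288),
    (-2221049330688, -292600433664),
    (30968057856, 278326272),
    (-212468160, 6736896),
    (816656, -39216),
    (-1584, 72),
    (1, 0)]

/-- The root of the denominator for `-43`. -/
def denHFortyThree : List (ℤ × ℤ) := [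
    (-9374104576, -5350680576),
    (494644480, 330867456),
    (-9687040, -7961536),
    (83248, 92192),
    (-264, -504),
    (0, 1)]

theorem curveTest_fortyThree :
    Check.curveTest 11 (-13760) 621264 4000 numNFortyThree numVFortyThree denHFortyThree = true := by
  decide +kernel

theorem diffTest_fortyThree :
    Check.lIsZero (Check.diffDefect 11 numNFortyThree numVFortyThree denHFortyThree) = true := by
  decide +kernel

/-- **The certificate for `-43`**, one for each root of `α² - α + 11`. -/
theorem certificates_fortyThree (α : AlgebraicClosure ℚ)
    (hα : α ^ 2 - α + ((11 : ℕ) : AlgebraicClosure ℚ) = 0) :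
    Nonempty (CertOver (-13760 : ℚ) (621264 : ℚ) α) := by
  obtain ⟨c⟩ := nonempty_cert_of_test (k := AlgebraicClosure ℚ) (n := 11) (i := 15)
    (j := 5) (by norm_num) curveTest_fortyThree diffTest_fortyThree (by decide +kernel)
    (by decide +kernel) (α := α) (by exact_mod_cast hα)
  exact ⟨by simpa [CertOver] using c⟩

end FA.CM.ClassOne

end
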