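import Fermat.Agent.CM.ClassOne.Check
import Fermat.Agent.CM.ClassOne.Hom
import Mathlib.FieldTheory.IsAlgClosed.AlgebraicClosure

/-!
# The endomorphism `ω`, `ω² = ω - 5`, of `y² = x³ - 608 x + 5776`

The coefficients, from the constant one up, of polynomials `N`, `V`, `h` with
`f V² = N³ + A N h⁴ + B h⁶` and `ω V = N' h - 2 N h'`; `(u, v)` stands for `u + v ω`. They come from
the expansion of `℘ (ω z)` in `℘ (z)` and are checked by the kernel.
-/

set_option autoImplicit false

noncomputable section

namespace FA.CM.ClassOne

/-- The numerator of the abscissa for `-19`. -/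
def numNNineteen : List (ℤ × ℤ) := [
    (-5544960, 4066304),
    (1386240, -831744),
    (-121600, 58368),
    (4560, -1520),
    (-80, 8),
    (1, 0)]

/-- The numerator of the ordinate for `-19`. -/
def numVNineteen : List (ℤ × ℤ) := [
    (-28094464, 0),
    (7762944, -1478656),
    (-554496, 277248),
    (-15808, -14592),
    (3344, 0),
    (-120, 12),
    (1, 0)]

/-- The root of the denominator for `-19`. -/
def denHNineteen : List (ℤ × ℤ) := [
    (304, 304),
    (-20, -36),
    (0, 1)]

theorem curveTest_nineteen :
    Check.curveTest 5 (-608) 5776 4000 numNNineteen numVNineteen denHNineteen = true := by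
  decide +kernel

theorem diffTest_nineteen :
    Check.lIsZero (Check.diffDefect 5 numNNineteen numVNineteen denHNineteen) = true := by
  decide +kernel

/-- **The certificate for `-19`**, one for each root of `α² - α + 5`. -/
theorem certificates_nineteen (α : AlgebraicClosure ℚ)
    (hα : α ^ 2 - α + ((5 : ℕ) : AlgebraicClosure ℚ) = 0) :
    Nonempty (CertOver (-608 : ℚ) (5776 : ℚ) α) := by
  obtain ⟨c⟩ := nonempty_cert_of_test (k := AlgebraicClosure ℚ) (n := 5) (i := 6)
    (j := 2) (by norm_num) curveTest_nineteen diffTest_nineteen (by decide +kernel)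
    (by decide +kernel) (α := α) (by exact_mod_cast hα)
  exact ⟨by simpa [CertOver] using c⟩

end FA.CM.ClassOne

end
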