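import Fermat.Prelude.Def_FLTPrelim_Modularity
import Mathlib.NumberTheory.LegendreSymbol.QuadraticChar.Basic

/-!
# The traces of a curve with multiplication by the integers of `ℚ(√-q)`

For a prime `q ≡ 3 (mod 8)` of class number one the trace at a good prime `l ≠ q` of an equation
with complex multiplication by the integers of `ℚ(√-q)` and bad reduction at `q` alone is `0` at
the inert primes, `2` among them, and is the `a` of `4 l = a² + q b²` with the quadratic character
of `2` modulo `q` at the split primes.
-/

set_option autoImplicit false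

noncomputable section

namespace FA.CM.ClassOne

/-- The law of the traces `a = W.apOfModel l` at the primes `l ≠ q`. -/
def TraceLaw (q : ℕ) [Fact q.Prime] (W : WeierstrassCurve ℤ) : Prop :=
  ∀ l : ℕ, l.Prime → l ≠ q →
    (l = 2 ∨ ¬ IsSquare (-(q : ZMod l)) → W.apOfModel l = 0) ∧
      (l ≠ 2 → IsSquare (-(q : ZMod l)) →
        (∃ b : ℤ, 4 * (l : ℤ) = W.apOfModel l ^ 2 + (q : ℤ) * b ^ 2) ∧
          quadraticChar (ZMod q) (W.apOfModel l : ZMod q) = quadraticChar (ZMod q) 2)

end FA.CM.ClassOne

end
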