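import Fermat.Agent.Carayol.Hasse.RatDeriv
import Mathlib.AlgebraicGeometry.EllipticCurve.Affine.Point
import Mathlib.Algebra.QuadraticAlgebra.Basic
import Mathlib.FieldTheory.RatFunc.Degree
import Mathlib.FieldTheory.IsAlgClosed.Basic
import Mathlib.RingTheory.Derivation.Basic
import Mathlib.Tactic.LinearCombination

/-!
# The function field of `y² = x³ + a x + b` with its derivation

`FunField A B` is `k(X)[Y] / (Y² - f)`, `deriv` extends `d/dX` and kills only constants. On points
with values in a field with a derivation killing the coefficients `delta : (x, y) ↦ dx / y` is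
additive; on the generic point `gen` it is nonzero, and a point where it is nonzero is the image
of the generic point under an embedding.
-/

set_option autoImplicit false
set_option linter.unusedSectionVars false
set_option quotPrecheck false

noncomputable section

open Polynomial WeierstrassCurve
open scoped WeierstrassCurve.Affine
open scoped QuadraticAlgebra

namespace FA.CM.ClassOne

/-! ### The differential `dx / y` -/

section Delta

variable {K₀ k F : Type*} [Field K₀] [Field k] [Field F] [CharZero F] [DecidableEq F]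
  [Algebra K₀ k] [Algebra k F] [Algebra K₀ F] [IsScalarTower K₀ k F] {a b : K₀}
  (d : Derivation k F F)

local notation "EP" => ((⟨0, 0, 0, a, b⟩ : WeierstrassCurve K₀).toAffine⁄F).Point
local notation "a'" => algebraMap K₀ F a
local notation "b'" => algebraMap K₀ F b

omit [CharZero F] [DecidableEq F] in
theorem coeffs : ((⟨0, 0, 0, a, b⟩ : WeierstrassCurve K₀).toAffine⁄F).a₁ = 0 ∧
    ((⟨0, 0, 0, a, b⟩ : WeierstrassCurve K₀).toAffine⁄F).a₂ = 0 ∧
    ((⟨0, 0, 0, a, b⟩ : WeierstrassCurve K₀).toAffine⁄F).a₃ = 0 ∧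
    ((⟨0, 0, 0, a, b⟩ : WeierstrassCurve K₀).toAffine⁄F).a₄ = a' ∧
    ((⟨0, 0, 0, a, b⟩ : WeierstrassCurve K₀).toAffine⁄F).a₆ = b' :=
  ⟨map_zero _, map_zero _, map_zero _, rfl, rfl⟩

/-- The value of `dx / y` at a point. -/
def deltaFun : EP → F
  | .zero => 0
  | .some x y _ => d x / y

theorem deriv_base (c : K₀) : d (algebraMap K₀ F c) = 0 := by
  rw [IsScalarTower.algebraMap_apply K₀ k F, d.map_algebraMap]

theorem eq_cubic {x y : F}
    (h : Affine.Nonsingular ((⟨0, 0, 0, a, b⟩ : WeierstrassCurve K₀).toAffine⁄F) x y) :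
    y ^ 2 = x ^ 3 + a' * x + b' := by
  have := (Affine.equation_iff _ _).mp h.left
  simpa using this

/-- Both differentials are multiples of `u = dx / y`. -/
theorem differentials {x y : F}
    (h : Affine.Nonsingular ((⟨0, 0, 0, a, b⟩ : WeierstrassCurve K₀).toAffine⁄F) x y) :
    d x = d x / y * y ∧ 2 * d y = d x / y * (3 * x ^ 2 + a') := by
  have e := congrArg d (eq_cubic h)
  simp only [pow_succ, pow_zero, one_mul, map_add, d.leibniz, deriv_base, smul_eq_mul, mul_zero,
    add_zero] at e
  rcases eq_or_ne y 0 with rfl | hy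
  · have hne : 3 * x ^ 2 + a' ≠ 0 := by
      have := ((Affine.nonsingular_iff _ _).mp h).2
      simpa [eq_comm] using this
    have hdx : d x = 0 := (mul_eq_zero.mp (show (3 * x ^ 2 + a') * d x = 0 by
      simp only [zero_mul, add_zero] at e; linear_combination -e)).resolve_left hne
    simp [hdx]
  · refine ⟨(div_mul_cancel₀ _ hy).symm, ?_⟩
    field_simp
    linear_combination e

/-- The key case of additivity. -/
theorem deltaFun_add_some {x₁ y₁ x₂ y₂ x₃ y₃ : F}
    {h₁ : Affine.Nonsingular ((⟨0, 0, 0, a, b⟩ : WeierstrassCurve K₀).toAffine⁄F) x₁ y₁}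
    {h₂ : Affine.Nonsingular ((⟨0, 0, 0, a, b⟩ : WeierstrassCurve K₀).toAffine⁄F) x₂ y₂}
    {h₃ : Affine.Nonsingular ((⟨0, 0, 0, a, b⟩ : WeierstrassCurve K₀).toAffine⁄F) x₃ y₃}
    (hs : (Affine.Point.some x₁ y₁ h₁ : EP) + .some x₂ y₂ h₂ = .some x₃ y₃ h₃) (hy₃ : y₃ ≠ 0) :
    deltaFun d (Affine.Point.some x₁ y₁ h₁ : EP) + deltaFun d (.some x₂ y₂ h₂ : EP) =
      deltaFun d (.some x₃ y₃ h₃ : EP) := by
  by_cases hopp : x₁ = x₂ ∧
      y₁ = Affine.negY ((⟨0, 0, 0, a, b⟩ : WeierstrassCurve K₀).toAffine⁄F) x₂ y₂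
  · rw [Affine.Point.add_of_Y_eq hopp.1 hopp.2] at hs
    exact absurd hs (by simp)
  rw [Affine.Point.add_some hopp] at hs
  simp only [Affine.Point.some.injEq] at hs
  obtain ⟨hx₃, hy₃'⟩ := hs
  show d x₁ / y₁ + d x₂ / y₂ = d x₃ / y₃
  obtain ⟨e₁, f₁⟩ := differentials d h₁
  obtain ⟨e₂, f₂⟩ := differentials d h₂
  obtain ⟨u₁, hu₁⟩ : ∃ u, d x₁ / y₁ = u := ⟨_, rfl⟩
  obtain ⟨u₂, hu₂⟩ : ∃ u, d x₂ / y₂ = u := ⟨_, rfl⟩
  rw [hu₁] at e₁ f₁ ⊢
  rw [hu₂] at e₂ f₂ ⊢
  rw [eq_div_iff hy₃]
  simp only [Affine.addX, Affine.addY, Affine.negAddY, Affine.negY, coeffs (a := a) (b := b),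
    zero_mul, add_zero, sub_zero] at hx₃ hy₃' hopp
  by_cases hx : x₁ = x₂
  · subst hx
    have hy : y₁ = y₂ := (Affine.Y_eq_of_X_eq h₁.left h₂.left rfl).resolve_right fun e =>
      hopp ⟨rfl, by simpa [Affine.negY] using e⟩
    subst hy
    obtain rfl : u₂ = u₁ := by rw [← hu₁, ← hu₂]
    have hy1 : y₁ ≠ 0 := fun e => hopp ⟨rfl, by simp [e]⟩
    rw [Affine.slope_of_Y_ne rfl (by simpa [Affine.negY] using fun e => hopp ⟨rfl, e⟩)] at hx₃ hy₃'
    simp only [Affine.negY, coeffs (a := a) (b := b), zero_mul, mul_zero,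
      add_zero, sub_zero, sub_neg_eq_add, ← two_mul] at hx₃ hy₃'
    obtain ⟨l, hl⟩ : ∃ l, (3 * x₁ ^ 2 + a') / (2 * y₁) = l := ⟨_, rfl⟩
    rw [hl] at hx₃ hy₃'
    have hs : l * (2 * y₁) = 3 * x₁ ^ 2 + a' := by
      rw [← hl, div_mul_cancel₀ _ (mul_ne_zero two_ne_zero hy1)]
    have h2 : d (2 : F) = 0 := by exact_mod_cast d.map_natCast 2
    have h3 : d (3 : F) = 0 := by exact_mod_cast d.map_natCast 3
    have hd := congrArg d hs
    simp only [map_add, pow_succ, pow_zero, one_mul, d.leibniz, smul_eq_mul, deriv_base,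
      h2, h3, mul_zero, add_zero] at hd
    rw [← hx₃, ← hy₃']
    simp only [map_sub, pow_succ, pow_zero, one_mul, d.leibniz, smul_eq_mul]
    refine mul_right_cancel₀ hy1 ?_
    linear_combination -l * hd - u₂ * l ^ 2 * hs + l ^ 2 * f₁ - (6 * x₁ * l - 2 * y₁) * e₁
  · rw [Affine.slope_of_X_ne hx] at hx₃ hy₃'
    obtain ⟨l, hl⟩ : ∃ l, (y₁ - y₂) / (x₁ - x₂) = l := ⟨_, rfl⟩
    rw [hl] at hx₃ hy₃'
    have hD : x₁ - x₂ ≠ 0 := sub_ne_zero.mpr hx
    have hs : l * (x₁ - x₂) = y₁ - y₂ := by rw [← hl, div_mul_cancel₀ _ hD]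
    have hQ : l * (y₁ + y₂) = x₁ ^ 2 + x₁ * x₂ + x₂ ^ 2 + a' := mul_right_cancel₀ hD (by
      linear_combination (y₁ + y₂) * hs + eq_cubic h₁ - eq_cubic h₂)
    have hd := congrArg d hs
    simp only [map_sub, d.leibniz, smul_eq_mul] at hd
    rw [← hx₃, ← hy₃']
    simp only [map_sub, pow_succ, pow_zero, one_mul, d.leibniz, smul_eq_mul]
    refine mul_right_cancel₀ hD ?_
    linear_combination -2 * l * hd - u₁ * (l ^ 2 * hs - l * hQ) -
      u₂ * ((l ^ 2 - (x₁ - x₂)) * hs + l * hQ) + (2 * l ^ 2 + (x₁ - x₂)) * e₁ -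
      (2 * l ^ 2 - (x₁ - x₂)) * e₂ - l * f₁ + l * f₂

theorem deltaFun_neg (P : EP) : deltaFun d (-P) = -deltaFun d P := by
  rcases P with _ | ⟨x, y, h⟩
  · show deltaFun d (0 : EP) = -0
    rw [neg_zero]; rfl
  · rw [Affine.Point.neg_some]
    show d x / _ = -(d x / y)
    simp [Affine.negY, div_neg]

/-- A point of order two has value zero, and so has a sum with such a point. -/
theorem deltaFun_add (P Q : EP) : deltaFun d (P + Q) = deltaFun d P + deltaFun d Q := by
  have hzero : deltaFun d (0 : EP) = 0 := rfl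
  rcases hP : P with _ | ⟨x₁, y₁, h₁⟩
  · rw [show (Affine.Point.zero : EP) = 0 from rfl, zero_add, hzero, zero_add]
  rcases hQ : Q with _ | ⟨x₂, y₂, h₂⟩
  · rw [show (Affine.Point.zero : EP) = 0 from rfl, add_zero, hzero, add_zero]
  rw [← hP, ← hQ]
  rcases hS : P + Q with _ | ⟨x₃, y₃, h₃⟩
  · rw [eq_neg_of_add_eq_zero_right (show P + Q = 0 from hS), deltaFun_neg, add_neg_cancel]
    rfl
  by_cases hy₃ : y₃ = 0
  swap
  · subst hP hQ; exact (deltaFun_add_some d hS hy₃).symm
  -- the sum has order two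
  have h3 : deltaFun d (Affine.Point.some x₃ y₃ h₃ : EP) = 0 := by
    show d x₃ / y₃ = 0
    rw [hy₃, div_zero]
  have hT : -(Affine.Point.some x₃ y₃ h₃ : EP) = .some x₃ y₃ h₃ := by
    rw [Affine.Point.neg_some]
    simp [Affine.negY, hy₃]
  by_cases hy₁ : y₁ = 0
  · have hPn : -P = P := by rw [hP, Affine.Point.neg_some]; simp [Affine.negY, hy₁]
    have hQn : -Q = Q := by
      have e : Q = -P + .some x₃ y₃ h₃ := by rw [← hS, neg_add_cancel_left]
      rw [e, neg_add, neg_neg, hT, hPn]
    have hy₂ : y₂ = 0 := by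
      rw [hQ, Affine.Point.neg_some] at hQn
      simp only [Affine.Point.some.injEq, Affine.negY, coeffs (a := a) (b := b), zero_mul,
        sub_zero, true_and] at hQn
      linear_combination -(1 / 2 : F) * hQn
    rw [h3, hP, hQ]
    show 0 = d x₁ / y₁ + d x₂ / y₂
    rw [hy₁, hy₂, div_zero, div_zero, add_zero]
  · subst hP hQ
    have key := deltaFun_add_some d (h₁ := h₃) (h₂ := (Affine.nonsingular_neg _ _).mpr h₂)
      (h₃ := h₁)
      (by rw [← Affine.Point.neg_some h₂, ← hS, add_neg_cancel_right]) hy₁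
    rw [h3, zero_add, ← Affine.Point.neg_some h₂, deltaFun_neg] at key
    rw [h3, ← key, neg_add_cancel]

/-- The additive map `(x, y) ↦ dx / y`. -/
def delta : EP →+ F where
  toFun := deltaFun d
  map_zero' := rfl
  map_add' := deltaFun_add d

theorem delta_some {x y : F}
    (h : Affine.Nonsingular ((⟨0, 0, 0, a, b⟩ : WeierstrassCurve K₀).toAffine⁄F) x y) :
    delta d (Affine.Point.some x y h : EP) = d x / y := rfl

end Delta

/-! ### The function field -/

section Field

variable {k : Type*} [Field k]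

/-- The cubic `X³ + A X + B`. -/
def cubic (A B : k) : k[X] := X ^ 3 + Polynomial.C A * X + Polynomial.C B

theorem natDegree_cubic (A B : k) : (cubic A B).natDegree = 3 := by
  rw [cubic]; compute_degree!

theorem cubic_ne_zero (A B : k) : cubic A B ≠ 0 := fun h => by
  simpa [h] using natDegree_cubic A B

local notation "ι" => algebraMap (Polynomial k) (RatFunc k)

theorem sq_ne_cubic (A B : k) (r : RatFunc k) : r ^ 2 ≠ ι (cubic A B) := by
  intro h
  have hr : r ≠ 0 := fun e => RatFunc.algebraMap_ne_zero (cubic_ne_zero A B) (by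
    rw [← h, e, zero_pow two_ne_zero])
  have := congrArg RatFunc.intDegree h
  rw [sq, RatFunc.intDegree_mul hr hr, RatFunc.intDegree_polynomial, natDegree_cubic] at this
  omega

instance (A B : k) : Fact (∀ r : RatFunc k, r ^ 2 ≠ ι (cubic A B) + 0 * r) :=
  ⟨fun r => by rw [zero_mul, add_zero]; exact sq_ne_cubic A B r⟩

/-- The function field of `y² = x³ + A x + B`. -/
abbrev FunField (A B : k) : Type _ := QuadraticAlgebra (RatFunc k) (ι (cubic A B)) 0

variable [CharZero k] {A B : k}

instance : CharZero (FunField A B) :=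
  charZero_of_injective_algebraMap (algebraMap k (FunField A B)).injective

instance : DecidableEq (FunField A B) := Classical.decEq _

theorem rDer_eq_zero {r : RatFunc k} (h : FA.Carayol.rDer r = 0) : ∃ c : k, r = RatFunc.C c := by
  rw [FA.Carayol.rDer, div_eq_zero_iff, or_iff_left (pow_ne_zero 2
    (RatFunc.algebraMap_ne_zero r.denom_ne_zero)), sub_eq_zero, ← map_mul, ← map_mul] at h
  replace h := RatFunc.algebraMap_injective k h
  have hdvd : r.denom ∣ derivative r.denom :=
    (RatFunc.isCoprime_num_denom r).symm.dvd_of_dvd_mul_left ⟨derivative r.num, by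
      rw [← h]; ring⟩
  have hden : derivative r.denom = 0 := by
    by_contra hne
    exact absurd (Polynomial.natDegree_le_of_dvd hdvd hne)
      (not_le.mpr (Polynomial.natDegree_derivative_lt fun e =>
        hne (Polynomial.derivative_of_natDegree_zero e)))
  have h1 : r.denom = 1 :=
    (RatFunc.monic_denom r).natDegree_eq_zero.mp (derivative_eq_zero.mp hden)
  rw [hden, mul_zero, mul_eq_zero, or_iff_left r.denom_ne_zero] at h
  obtain ⟨c, hc⟩ := natDegree_eq_zero.mp (derivative_eq_zero.mp h)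
  refine ⟨c, ?_⟩
  conv_lhs => rw [← RatFunc.num_div_denom r, h1, map_one, div_one, ← hc]
  rw [RatFunc.algebraMap_C]

theorem rDer_smul (c : k) (r : RatFunc k) :
    FA.Carayol.rDer (c • r) = c • FA.Carayol.rDer r := by
  rw [Algebra.smul_def, Algebra.smul_def, RatFunc.algebraMap_eq_C, FA.Carayol.rDer_mul,
    FA.Carayol.rDer_C, zero_mul, zero_add]

variable (A B) in
/-- The logarithmic derivative of `Y`. -/
def logDerY : RatFunc k := ι (derivative (cubic A B)) / (2 * ι (cubic A B))

theorem two_mul_cubic_mul_logDerY :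
    2 * ι (cubic A B) * logDerY A B = FA.Carayol.rDer (ι (cubic A B)) := by
  rw [logDerY, FA.Carayol.rDer_poly, mul_div_cancel₀ _ (mul_ne_zero two_ne_zero
    (RatFunc.algebraMap_ne_zero (cubic_ne_zero A B)))]

variable (A B) in
/-- The derivation extending `d/dX`. -/
def deriv : Derivation k (FunField A B) (FunField A B) :=
  Derivation.mk'
    { toFun := fun z => ⟨FA.Carayol.rDer z.re, FA.Carayol.rDer z.im + z.im * logDerY A B⟩
      map_add' := fun z w => by
        ext <;> simp [FA.Carayol.rDer_add]; ring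
      map_smul' := fun c z => by
        ext <;> simp [rDer_smul] }
    fun z w => by
      ext <;> simp [FA.Carayol.rDer_add, FA.Carayol.rDer_mul]
      · linear_combination -(z.im * w.im) * two_mul_cubic_mul_logDerY (A := A) (B := B)
      · ring

theorem deriv_apply (z : FunField A B) : deriv A B z =
    ⟨FA.Carayol.rDer z.re, FA.Carayol.rDer z.im + z.im * logDerY A B⟩ := rfl

/-- Only constants are killed. -/
theorem deriv_eq_zero [IsAlgClosed k] {z : FunField A B} (h : deriv A B z = 0) :
    ∃ c : k, algebraMap k (FunField A B) c = z := by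
  rw [deriv_apply, QuadraticAlgebra.ext_iff] at h
  obtain ⟨hre, him⟩ := h
  simp only [QuadraticAlgebra.re_zero, QuadraticAlgebra.im_zero] at hre him
  obtain ⟨c, hc⟩ := rDer_eq_zero hre
  refine ⟨c, QuadraticAlgebra.ext ?_ ?_⟩
  · rw [hc, ← RatFunc.algebraMap_eq_C]; rfl
  show 0 = z.im
  -- `im² f` is constant
  obtain ⟨e, he⟩ := rDer_eq_zero (r := z.im * z.im * ι (cubic A B)) (by
    rw [FA.Carayol.rDer_mul, FA.Carayol.rDer_mul, ← two_mul_cubic_mul_logDerY]
    linear_combination (2 * z.im * ι (cubic A B)) * him)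
  by_contra hne
  obtain ⟨s, hs⟩ := IsAlgClosed.exists_pow_nat_eq e (n := 2) two_pos
  refine sq_ne_cubic A B (RatFunc.C s / z.im) ?_
  rw [div_pow, ← map_pow, hs, ← he, sq,
    mul_div_cancel_left₀ _ (mul_ne_zero (Ne.symm hne) (Ne.symm hne))]

variable (A B) in
/-- The abscissa of the generic point. -/
def genX : FunField A B := algebraMap (RatFunc k) (FunField A B) RatFunc.X

variable (A B) in
/-- The ordinate of the generic point. -/
def genY : FunField A B := QuadraticAlgebra.omega

theorem genY_sq : genY A B ^ 2 =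
    genX A B ^ 3 + algebraMap k (FunField A B) A * genX A B + algebraMap k (FunField A B) B := by
  have e : ι (cubic A B) =
      RatFunc.X ^ 3 + algebraMap k (RatFunc k) A * RatFunc.X + algebraMap k (RatFunc k) B := by
    simp [cubic, RatFunc.algebraMap_eq_C, RatFunc.algebraMap_C]
  rw [sq, genY, QuadraticAlgebra.omega_mul_omega_eq_algebraMap, map_zero, zero_mul, add_zero,
    IsScalarTower.algebraMap_apply k (RatFunc k) (FunField A B),
    IsScalarTower.algebraMap_apply k (RatFunc k) (FunField A B), genX, ← map_pow, ← map_mul,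
    ← map_add, ← map_add]
  exact congrArg _ e

theorem genY_ne_zero : genY A B ≠ 0 := fun h => by
  simpa [genY] using congrArg QuadraticAlgebra.im h

theorem deriv_genX : deriv A B (genX A B) = 1 := by
  rw [deriv_apply, genX, QuadraticAlgebra.algebraMap_eq]
  ext <;> simp [FA.Carayol.rDer_X, FA.Carayol.rDer_zero]

/-- An embedding sending the generic coordinates to those of a point with nonconstant abscissa. -/
theorem exists_algHom_of_coord [IsAlgClosed k] {F : Type*} [Field F] [Algebra k F] {x y : F}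
    (hx : ∀ c : k, algebraMap k F c ≠ x)
    (hy : y ^ 2 = x ^ 3 + algebraMap k F A * x + algebraMap k F B) :
    ∃ τ : FunField A B →ₐ[k] F, τ (genX A B) = x ∧ τ (genY A B) = y := by
  have hinj : Function.Injective (aeval (R := k) x) := by
    refine (injective_iff_map_eq_zero _).mpr fun p hp => by_contra fun hp0 => ?_
    have halg : IsIntegral k x := IsAlgebraic.isIntegral ⟨p, hp0, hp⟩
    obtain ⟨c, hc⟩ := minpoly.mem_range_of_degree_eq_one k x
      (IsAlgClosed.degree_eq_one_of_irreducible k (minpoly.irreducible halg))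
    exact hx c hc
  let φ : RatFunc k →ₐ[k] F := RatFunc.liftAlgHom (aeval x)
    (nonZeroDivisors_le_comap_nonZeroDivisors_of_injective _ hinj)
  have hφ : ∀ p : k[X], φ (ι p) = aeval x p := fun p => by
    simpa using RatFunc.liftAlgHom_apply_div (aeval (R := k) x)
      (nonZeroDivisors_le_comap_nonZeroDivisors_of_injective _ hinj) p 1
  have hf : φ (ι (cubic A B)) = y ^ 2 := by rw [hφ, hy]; simp [cubic]
  refine ⟨{ toFun := fun z => φ z.re + φ z.im * y
            map_one' := by simp
            map_mul' := fun z w => by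
              simp only [QuadraticAlgebra.re_mul, QuadraticAlgebra.im_mul, zero_mul, add_zero,
                map_add, map_mul, hf]
              ring
            map_zero' := by simp
            map_add' := fun z w => by
              simp only [QuadraticAlgebra.re_add, QuadraticAlgebra.im_add, map_add]
              ring
            commutes' := fun c => by
              show φ (algebraMap k (RatFunc k) c) + φ 0 * y = _
              rw [map_zero, zero_mul, add_zero, φ.commutes] }, ?_, ?_⟩
  · show φ RatFunc.X + φ 0 * y = x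
    rw [map_zero, zero_mul, add_zero, ← RatFunc.algebraMap_X, hφ, aeval_X]
  · show φ 0 + φ 1 * y = y
    rw [map_zero, map_one, zero_add, one_mul]

end Field

/-! ### The generic point -/

section Generic

variable {K₀ k : Type*} [Field K₀] [Field k] [CharZero k] [Algebra K₀ k] (a b : K₀)

local notation "A'" => algebraMap K₀ k a
local notation "B'" => algebraMap K₀ k b
local notation "FF" => FunField (algebraMap K₀ k a) (algebraMap K₀ k b)
local notation "EF" => ((⟨0, 0, 0, a, b⟩ : WeierstrassCurve K₀).toAffine⁄FF).Point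
local notation "Ek" => ((⟨0, 0, 0, a, b⟩ : WeierstrassCurve K₀).toAffine⁄k).Point

theorem gen_nonsingular : Affine.Nonsingular ((⟨0, 0, 0, a, b⟩ : WeierstrassCurve K₀).toAffine⁄FF)
    (genX A' B') (genY A' B') := by
  rw [Affine.nonsingular_iff, Affine.equation_iff]
  refine ⟨?_, Or.inr ?_⟩
  · simp only [coeffs (a := a) (b := b), zero_mul, add_zero,
      IsScalarTower.algebraMap_apply K₀ k FF]
    exact genY_sq
  · simp only [coeffs (a := a) (b := b), zero_mul, sub_zero]
    exact fun h => genY_ne_zero (self_eq_neg.mp h)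

/-- The generic point. -/
def gen : EF := .some (genX A' B') (genY A' B') (gen_nonsingular a b)

variable {a b}

theorem delta_gen_ne_zero : delta (deriv A' B') (gen a b : EF) ≠ 0 := by
  rw [gen, delta_some, deriv_genX]
  exact one_div_ne_zero genY_ne_zero

variable [IsAlgClosed k] [DecidableEq k]

/-- The kernel of `delta` consists of the constant points. -/
theorem exists_map_eq_of_delta_eq_zero {P : EF} (h : delta (deriv A' B') P = 0) :
    ∃ R : Ek, Affine.Point.map (W' := (⟨0, 0, 0, a, b⟩ : WeierstrassCurve K₀).toAffine)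
      (IsScalarTower.toAlgHom K₀ k FF) R = P := by
  rcases P with _ | ⟨x, y, hxy⟩
  · exact ⟨0, map_zero _⟩
  have hdx : deriv A' B' x = 0 := by
    rw [(differentials (deriv A' B') hxy).1]
    rw [delta_some] at h
    rw [h, zero_mul]
  obtain ⟨x₀, rfl⟩ := deriv_eq_zero hdx
  obtain ⟨y₀, hy₀⟩ := IsAlgClosed.exists_pow_nat_eq
    (x₀ ^ 3 + A' * x₀ + B') (n := 2) two_pos
  have hy : algebraMap k FF y₀ ^ 2 = y ^ 2 := by
    rw [eq_cubic hxy, ← map_pow, hy₀, IsScalarTower.algebraMap_apply K₀ k FF,
      IsScalarTower.algebraMap_apply K₀ k FF, map_add, map_add, map_mul, map_pow]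
  obtain ⟨y₁, rfl⟩ : ∃ y₁, algebraMap k FF y₁ = y := by
    rcases sq_eq_sq_iff_eq_or_eq_neg.mp hy with e | e
    · exact ⟨y₀, e⟩
    · exact ⟨-y₀, by rw [map_neg, e, neg_neg]⟩
  refine ⟨.some x₀ y₁ ((Affine.baseChange_nonsingular _
    (f := IsScalarTower.toAlgHom K₀ k FF) (algebraMap k FF).injective x₀ y₁).mp hxy), ?_⟩
  rw [Affine.Point.map_some]
  rfl

/-- A point where `delta` is nonzero is the image of the generic point. -/
theorem exists_algHom_of_delta_ne_zero {P : EF} (h : delta (deriv A' B') P ≠ 0) :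
    ∃ τ : FF →ₐ[k] FF, Affine.Point.map (W' := (⟨0, 0, 0, a, b⟩ : WeierstrassCurve K₀).toAffine)
      (τ.restrictScalars K₀) (gen a b) = P := by
  rcases P with _ | ⟨x, y, hxy⟩
  · exact absurd (map_zero _) h
  obtain ⟨τ, hτx, hτy⟩ := exists_algHom_of_coord (A := A') (B := B') (x := x) (y := y)
    (fun c hc => h (by rw [delta_some, ← hc, (deriv A' B').map_algebraMap, zero_div]))
    (by rw [eq_cubic hxy, IsScalarTower.algebraMap_apply K₀ k FF,
      IsScalarTower.algebraMap_apply K₀ k FF])
  refine ⟨τ, ?_⟩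
  rw [gen, Affine.Point.map_some]
  simp only [Affine.Point.some.injEq]
  exact ⟨hτx, hτy⟩

/-- Automorphisms of the constants extend, fixing the generic point. -/
theorem exists_algHom_of_aut (σ : k ≃ₐ[K₀] k) :
    ∃ σt : FF →ₐ[K₀] FF, (∀ c : k, σt (algebraMap k FF c) = algebraMap k FF (σ c)) ∧
      Affine.Point.map (W' := (⟨0, 0, 0, a, b⟩ : WeierstrassCurve K₀).toAffine) σt (gen a b) =
        gen a b := by
  let φ : k[X] →+* k[X] := Polynomial.mapRingHom (σ : k →+* k)
  have hinj : Function.Injective φ := Polynomial.map_injective _ σ.injective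
  let m : RatFunc k →+* RatFunc k := RatFunc.mapRingHom φ
    (nonZeroDivisors_le_comap_nonZeroDivisors_of_injective _ hinj)
  have hm : ∀ p : k[X], m (algebraMap k[X] (RatFunc k) p) = algebraMap k[X] (RatFunc k) (φ p) :=
    fun p => by
      simpa [m, RatFunc.coe_mapRingHom_eq_coe_map] using RatFunc.map_apply_div φ
        (nonZeroDivisors_le_comap_nonZeroDivisors_of_injective _ hinj) p 1
  have hC : ∀ c : k, m (algebraMap k (RatFunc k) c) = algebraMap k (RatFunc k) (σ c) := fun c => by
    rw [RatFunc.algebraMap_eq_C, ← RatFunc.algebraMap_C, hm, ← RatFunc.algebraMap_C]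
    simp [φ]
  have hf : m (algebraMap k[X] (RatFunc k) (cubic A' B')) =
      algebraMap k[X] (RatFunc k) (cubic A' B') := by
    rw [hm]
    simp [φ, cubic, Polynomial.map_add, Polynomial.map_mul, Polynomial.map_pow]
  let σt : FF →+* FF :=
    { toFun := fun z => ⟨m z.re, m z.im⟩
      map_one' := by ext <;> simp
      map_mul' := fun z w => by ext <;> simp [hf]
      map_zero' := by ext <;> simp
      map_add' := fun z w => by ext <;> simp }
  refine ⟨⟨σt, fun c => ?_⟩, fun c => ?_, ?_⟩
  · show σt (algebraMap K₀ FF c) = algebraMap K₀ FF c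
    rw [IsScalarTower.algebraMap_apply K₀ k FF]
    refine QuadraticAlgebra.ext ?_ (map_zero m)
    show m (algebraMap k (RatFunc k) _) = _
    rw [hC, σ.commutes]
    rfl
  · exact QuadraticAlgebra.ext (hC c) (map_zero m)
  · rw [gen, Affine.Point.map_some]
    simp only [Affine.Point.some.injEq]
    refine ⟨?_, ?_⟩
    · refine QuadraticAlgebra.ext ?_ (map_zero m)
      show m RatFunc.X = RatFunc.X
      rw [← RatFunc.algebraMap_X, hm]
      simp [φ]
    · exact QuadraticAlgebra.ext (map_zero m) (map_one m)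

end Generic

end FA.CM.ClassOne

end
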