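import Fermat.Agent.CM.ClassOne.GaussSign
import Fermat.Agent.CM.OddOrder.Weight
import Fermat.Agent.Period.Forms

/-!
# The theta series of `ℚ(√-q)` under the Fricke involution of level `q²`

For a prime `q ≡ 3 (mod 8)` the weight of `x + y √-q` is `-(x / q)` on `x ≡ y (mod 2)`. Split by
`x` modulo `2 q`, the series is a sum of shifted lattice series; Poisson summation and the Gauss
sum return it at `-1 / (q² τ)`, with the eigenvalue `1`.
-/

set_option autoImplicit false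
set_option linter.unusedSectionVars false

noncomputable section

open UpperHalfPlane hiding I
open Complex Finset CongruenceSubgroup
open FA.CM FA.CM.OddOrder FA.Theta
open scoped Real MatrixGroups

local notation "𝕢" => Function.Periodic.qParam

namespace FA.CM.ClassOne

variable (q : ℕ) [hqf : Fact q.Prime]

/-- The weight of `x + y √-q`. -/
def frickeWeight (v : ℤ × ℤ) : ℂ :=
  if (v.1 + v.2) % 2 = 0 then -(quadraticChar (ZMod q) (v.1 : ZMod q) : ℂ) else 0

/-- The term of the series. -/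
def frickeTerm (τ : ℂ) (v : ℤ × ℤ) : ℂ :=
  frickeWeight q v * (latLam q ((v.1 : ℂ), (v.2 : ℂ)) * ex (τ * (latQ q v : ℤ) / 4))

variable {q} (hq8 : q % 8 = 3)
include hq8

theorem quadraticChar_two_eq : quadraticChar (ZMod q) 2 = -1 := by
  have h2 : ringChar (ZMod q) ≠ 2 := by rw [ZMod.ringChar_zmod_n]; omega
  rw [quadraticChar_two h2, ZMod.card, ZMod.χ₈_nat_eq_if_mod_eight, if_neg (by omega),
    if_neg (by omega)]

theorem oddWeight_one_eq {n : ℕ} [Fact (q + 1 = 4 * n)] (v : ℤ × ℤ) :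
    oddWeight q n (1 : DirichletCharacter ℂ 1) v.1 v.2 = frickeWeight q v := by
  rw [oddWeight, frickeWeight]
  by_cases h : (v.1 + v.2) % 2 = 0
  · rw [if_pos h, if_pos h, MulChar.one_apply (isUnit_of_subsingleton _), mul_one, oddChar,
      red_apply]
    have he : 2 * ((v.1 - v.2) / 2) + v.2 = v.1 := by omega
    set u : ℤ := (v.1 - v.2) / 2
    have e := four_mul_zmod (m := n) q
    have e2 : (v.1 : ZMod q) = 2 * ((u : ZMod q) + 2 * (n : ZMod q) * (v.2 : ZMod q)) := by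
      rw [← he]; push_cast; linear_combination -(v.2 : ZMod q) * e
    rw [e2, map_mul, quadraticChar_two_eq hq8]
    simp [u]
  · rw [if_neg h, if_neg h]

/-- The sum over a residue system modulo `2 q`. -/
theorem charSum (k : ℤ) :
    ∑ i ∈ range (2 * q), (quadraticChar (ZMod q) (i : ZMod q) : ℂ) *
        ex ((i : ℂ) * k / (2 * q)) =
      if 2 ∣ k then 2 * (quadraticChar (ZMod q) ((k / 2 : ℤ) : ZMod q) : ℂ) *
        (I * (Real.sqrt q : ℝ)) else 0 := by
  have hq0 : (q : ℂ) ≠ 0 := Nat.cast_ne_zero.mpr hqf.out.ne_zero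
  rw [two_mul q, Finset.sum_range_add]
  have hshift : ∀ i : ℕ, (quadraticChar (ZMod q) ((q + i : ℕ) : ZMod q) : ℂ) *
      ex (((q + i : ℕ) : ℂ) * k / (2 * q)) =
      ex ((k : ℂ) / 2) *
        ((quadraticChar (ZMod q) (i : ZMod q) : ℂ) * ex ((i : ℂ) * k / (2 * q))) := by
    intro i
    rw [Nat.cast_add, ZMod.natCast_self, zero_add,
      show ((q + i : ℕ) : ℂ) * k / (2 * q) = (k : ℂ) / 2 + (i : ℂ) * k / (2 * q) by
        push_cast; field_simp,
      ex_add]
    ring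
  rw [Finset.sum_congr rfl fun i _ => hshift i, ← Finset.mul_sum, ← one_add_mul]
  by_cases hk : 2 ∣ k
  · obtain ⟨j, rfl⟩ := hk
    rw [if_pos ⟨j, rfl⟩, Int.mul_ediv_cancel_left _ two_ne_zero,
      show ((2 * j : ℤ) : ℂ) / 2 = (j : ℂ) by push_cast; ring, ex_intCast]
    have hsum : ∑ i ∈ range q, (quadraticChar (ZMod q) (i : ZMod q) : ℂ) *
        ex ((i : ℂ) * ((2 * j : ℤ) : ℂ) / (2 * q)) =
        ∑ x : ZMod q, (quadraticChar (ZMod q) x : ℂ) * ZMod.stdAddChar ((j : ZMod q) * x) := by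
      refine Finset.sum_nbij' (fun i : ℕ => (i : ZMod q)) (fun x : ZMod q => x.val)
        (fun i _ => Finset.mem_univ _) (fun x _ => Finset.mem_range.mpr x.val_lt)
        (fun i hi => ZMod.val_natCast_of_lt (Finset.mem_range.mp hi))
        (fun x _ => ZMod.natCast_zmod_val x) fun i _ => ?_
      rw [show (j : ZMod q) * (i : ZMod q) = ((j * i : ℤ) : ZMod q) by push_cast; ring,
        ZMod.stdAddChar_coe, ex]
      congr 2
      push_cast
      field_simp
    rw [hsum]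
    set χ : MulChar (ZMod q) ℂ := (quadraticChar (ZMod q)).ringHomComp (Int.castRingHom ℂ) with hχ
    have hG : gaussSum χ ZMod.stdAddChar = I * (Real.sqrt q : ℝ) := by
      rw [← GaussSign.quadratic_gauss_sum hq8]; rfl
    by_cases hj : (j : ZMod q) = 0
    · have h0 : ∑ x : ZMod q, (quadraticChar (ZMod q) x : ℂ) = 0 := by
        rw [← Int.cast_sum, quadraticChar_sum_zero (by rw [ZMod.ringChar_zmod_n]; omega),
          Int.cast_zero]
      simp only [hj, zero_mul, AddChar.map_zero_eq_one, mul_one, h0, quadraticChar_zero,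
        Int.cast_zero, mul_zero]
    · have h := gaussSum_mulShift χ ZMod.stdAddChar (Units.mk0 (j : ZMod q) hj)
      rw [hG, Units.val_mk0] at h
      have hsq : χ (j : ZMod q) * χ (j : ZMod q) = 1 := by
        rw [hχ, MulChar.ringHomComp_apply, eq_intCast, ← Int.cast_mul, ← sq,
          quadraticChar_sq_one hj, Int.cast_one]
      have hgs : gaussSum χ (AddChar.mulShift ZMod.stdAddChar (j : ZMod q)) =
          ∑ x : ZMod q, (quadraticChar (ZMod q) x : ℂ) * ZMod.stdAddChar ((j : ZMod q) * x) := rfl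
      rw [← hgs]
      have hχj : χ (j : ZMod q) = (quadraticChar (ZMod q) (j : ZMod q) : ℂ) := rfl
      rw [← hχj]
      linear_combination (2 * χ (j : ZMod q)) * h -
        (2 * gaussSum χ (AddChar.mulShift ZMod.stdAddChar (j : ZMod q))) * hsq
  · rw [if_neg hk]
    obtain ⟨j, rfl⟩ : ∃ j, k = 2 * j + 1 := ⟨k / 2, by omega⟩
    rw [show ((2 * j + 1 : ℤ) : ℂ) / 2 = (j : ℂ) + 1 / 2 by push_cast; ring, ex_add, ex_intCast,
      one_mul, ex, show 2 * (π : ℂ) * I * (1 / 2) = π * I by ring, Complex.exp_pi_mul_I,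
      add_neg_cancel, zero_mul]

/-- The weight is periodic modulo `4 q`. -/
theorem frickeWeight_val [NeZero (4 * q)] (v : ℤ × ℤ) :
    frickeWeight q (((v.1 : ZMod (4 * q)).val : ℤ), ((v.2 : ZMod (4 * q)).val : ℤ)) =
      frickeWeight q v := by
  simp only [frickeWeight, ZMod.val_intCast]
  have h1 : ((v.1 % ((4 * q : ℕ) : ℤ) : ℤ) : ZMod q) = (v.1 : ZMod q) := by
    rw [ZMod.intCast_eq_intCast_iff_dvd_sub, Int.emod_def]
    exact ⟨4 * (v.1 / ((4 * q : ℕ) : ℤ)), by push_cast; ring⟩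
  have h2 : (v.1 % ((4 * q : ℕ) : ℤ) + v.2 % ((4 * q : ℕ) : ℤ)) % 2 = (v.1 + v.2) % 2 := by
    have d1 := Int.emod_emod_of_dvd v.1 (show (2 : ℤ) ∣ ((4 * q : ℕ) : ℤ) from
      ⟨2 * q, by push_cast; ring⟩)
    have d2 := Int.emod_emod_of_dvd v.2 (show (2 : ℤ) ∣ ((4 * q : ℕ) : ℤ) from
      ⟨2 * q, by push_cast; ring⟩)
    omega
  rw [h1, h2]

theorem summable_frickeTerm {τ : ℂ} (hτ : 0 < τ.im) : Summable (frickeTerm q τ) := by
  have : NeZero (4 * q) := ⟨mul_ne_zero (by norm_num) hqf.out.ne_zero⟩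
  have : NeZero q := ⟨hqf.out.ne_zero⟩
  set wt : ZMod (4 * q) × ZMod (4 * q) → ℂ := fun r => frickeWeight q (r.1.val, r.2.val)
  refine (summable_latTerm (D := q) (e := 4) wt hτ).congr fun v => ?_
  rw [latTerm, frickeTerm, Nat.cast_ofNat, ← frickeWeight_val hq8 v]

/-- **The Fricke involution on the series.** -/
theorem tsum_frickeTerm_inversion {τ σ : ℂ} (hτ : 0 < τ.im) (hσ : 0 < σ.im)
    (e : σ = -1 / ((q : ℂ) ^ 2 * τ)) :
    ∑' v, frickeTerm q σ v = (q : ℂ) ^ 2 * τ ^ 2 * ∑' v, frickeTerm q τ v := by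
  have hq := hqf.out
  have : NeZero q := ⟨hq.ne_zero⟩
  have hqC : (q : ℂ) ≠ 0 := Nat.cast_ne_zero.mpr hq.ne_zero
  have hτ0 : τ ≠ 0 := fun h => by simp [h] at hτ
  set r : ℂ := ((Real.sqrt q : ℝ) : ℂ) with hr
  have hr2 : r ^ 2 = (q : ℂ) := by
    rw [hr, ← Complex.ofReal_pow, Real.sq_sqrt (Nat.cast_nonneg q), Complex.ofReal_natCast]
  have hz : 0 < ((q : ℂ) * τ).im := by simpa using mul_pos (Nat.cast_pos.mpr hq.pos) hτ
  choose S hS hT using fun i : Fin (2 * q) => lat_poisson (D := q) hz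
    (((i : ℕ) : ℝ) / 2, -(((i : ℕ) : ℝ) / (2 * q)))
  -- the parts
  let ι : Fin (2 * q) × (ℤ × ℤ) → ℤ × ℤ := fun p =>
    ((p.1 : ℕ) + 2 * (q : ℤ) * p.2.1, (p.1 : ℕ) + 2 * p.2.2)
  have hι : Function.Injective ι := by
    rintro ⟨a, u, v⟩ ⟨b, u', v'⟩ h
    simp only [ι, Prod.mk.injEq] at h
    have ha : ((a : ℕ) : ℤ) < 2 * q := by exact_mod_cast a.2
    have hb : ((b : ℕ) : ℤ) < 2 * q := by exact_mod_cast b.2
    have hqp : (0 : ℤ) < q := Int.natCast_pos.mpr hq.pos
    have hu : u = u' := by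
      rcases lt_trichotomy u u' with hlt | heq | hgt
      · nlinarith [show u + 1 ≤ u' by omega, Int.natCast_nonneg (b : ℕ), h.1]
      · exact heq
      · nlinarith [show u' + 1 ≤ u by omega, Int.natCast_nonneg (a : ℕ), h.1]
    subst hu
    obtain rfl : a = b := Fin.ext (by have := h.1; omega)
    have := h.2
    simp only [Prod.mk.injEq, true_and]
    omega
  have hsupp : Function.support (frickeTerm q τ) ⊆ Set.range ι := by
    intro v hv
    have hp : (v.1 + v.2) % 2 = 0 := by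
      by_contra h
      exact hv (by rw [frickeTerm, frickeWeight, if_neg h, zero_mul])
    have hqp : (0 : ℤ) < 2 * q := by have := hq.pos; omega
    have h0 := Int.emod_nonneg v.1 hqp.ne'
    have h1 := Int.emod_lt_of_pos v.1 hqp
    refine ⟨(⟨(v.1 % (2 * q : ℤ)).toNat, by omega⟩,
      (v.1 / (2 * q : ℤ), (v.2 - v.1 % (2 * q : ℤ)) / 2)), ?_⟩
    have h3 := Int.emod_emod_of_dvd v.1 (show (2 : ℤ) ∣ 2 * (q : ℤ) from dvd_mul_right 2 _)
    simp only [ι, Int.toNat_of_nonneg h0]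
    refine Prod.ext (Int.emod_add_mul_ediv v.1 (2 * q)) ?_
    show v.1 % (2 * q : ℤ) + 2 * ((v.2 - v.1 % (2 * q : ℤ)) / 2) = v.2
    omega
  set c : Fin (2 * q) → ℂ := fun i =>
    -(quadraticChar (ZMod q) ((i : ℕ) : ZMod q) : ℂ) * (2 * I * r) with hc
  have hpart : ∀ i : Fin (2 * q),
      HasSum (fun p : ℤ × ℤ => frickeTerm q τ (ι (i, p))) (c i * S i) := by
    intro i
    refine ((((Equiv.prodComm ℤ ℤ).trans
      (Equiv.prodCongr (Equiv.refl ℤ) (Equiv.neg ℤ))).hasSum_iff).mpr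
        ((hS i).mul_left (c i))).congr_fun fun p => ?_
    simp only [Function.comp_apply, Equiv.trans_apply, Equiv.prodComm_apply, Prod.swap,
      Equiv.prodCongr_apply, Prod.map, Equiv.refl_apply, Equiv.neg_apply, ι, frickeTerm,
      frickeWeight, hc]
    rw [if_pos (Int.emod_eq_zero_of_dvd ⟨(i : ℕ) + (q : ℤ) * p.1 + p.2, by ring⟩)]
    simp only [Int.cast_add, Int.cast_mul, Int.cast_natCast, Int.cast_ofNat, Int.cast_neg,
      ZMod.natCast_self, mul_zero, zero_mul, add_zero, latLam, latQ, ← hr]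
    simp only [neg_mul, neg_inj]
    rw [mul_assoc _ (2 * I * r), ← mul_assoc (2 * I * r)]
    congr 1
    congr 1
    · push_cast
      have key : ((i : ℕ) : ℂ) / (2 * q) * (2 * r ^ 2) = (i : ℕ) := by
        rw [hr2]; field_simp
      linear_combination (2 * r ^ 2 * ((p.1 : ℂ) + (i : ℕ) / (2 * q))) * I_sq -
        2 * (p.1 : ℂ) * hr2 - key
    · congr 1
      push_cast
      field_simp
      ring
  have htot : ∑' v, frickeTerm q τ v = ∑ i, c i * S i := by
    rw [← hι.tsum_eq hsupp, Summable.tsum_prod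
      (f := fun p => frickeTerm q τ (ι p)) ((summable_frickeTerm hq8 hτ).comp_injective hι),
      tsum_fintype]
    exact Finset.sum_congr rfl fun i _ => (hpart i).tsum_eq
  -- the dual side
  have hdual : HasSum (fun w : ℤ × ℤ => frickeTerm q σ (w.2, -w.1) / ((q : ℂ) ^ 2 * τ ^ 2))
      (∑ i, c i * S i) := by
    refine (hasSum_sum fun i (_ : i ∈ Finset.univ) => (hT i).mul_left (c i)).congr_fun fun w => ?_
    set K : ℂ := I / (4 * (q : ℂ) * ((q : ℂ) * τ) ^ 2) * ((r * (w.1 : ℂ) + I * w.2) *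
      ex (-((q : ℂ) * w.1 ^ 2 + (w.2 : ℂ) ^ 2) / (4 * q * ((q : ℂ) * τ)))) with hK
    have hs : ∀ i : Fin (2 * q), c i * (I / (4 * (q : ℂ) * ((q : ℂ) * τ) ^ 2) *
        ((r * (w.1 : ℂ) + I * w.2) * ex (-((q : ℂ) * w.1 ^ 2 + (w.2 : ℂ) ^ 2) /
          (4 * q * ((q : ℂ) * τ)) + ((w.1 : ℂ) * ((((i : ℕ) : ℝ) / 2 : ℝ) : ℂ) +
            (w.2 : ℂ) * ((-(((i : ℕ) : ℝ) / (2 * q)) : ℝ) : ℂ))))) =
        -(2 * I * r) * K * ((quadraticChar (ZMod q) ((i : ℕ) : ZMod q) : ℂ) *
          ex (((i : ℕ) : ℂ) * ((q * w.1 - w.2 : ℤ) : ℂ) / (2 * q))) := by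
      intro i
      rw [ex_add, show ((w.1 : ℂ) * ((((i : ℕ) : ℝ) / 2 : ℝ) : ℂ) +
          (w.2 : ℂ) * ((-(((i : ℕ) : ℝ) / (2 * q)) : ℝ) : ℂ)) =
          ((i : ℕ) : ℂ) * ((q * w.1 - w.2 : ℤ) : ℂ) / (2 * q) by push_cast; field_simp; ring,
        hc, hK]
      ring
    rw [Finset.sum_congr rfl fun i _ => hs i, ← Finset.mul_sum,
      Fin.sum_univ_eq_sum_range (fun i : ℕ => (quadraticChar (ZMod q) (i : ZMod q) : ℂ) *
        ex ((i : ℂ) * ((q * w.1 - w.2 : ℤ) : ℂ) / (2 * q))), charSum hq8]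
    simp only [frickeTerm, frickeWeight]
    have hqo : (q : ℤ) % 2 = 1 := by omega
    have hpar : (2 : ℤ) ∣ q * w.1 - w.2 ↔ (w.2 + -w.1) % 2 = 0 := by
      rw [Int.dvd_iff_emod_eq_zero, Int.sub_emod, Int.mul_emod, hqo]
      omega
    by_cases hp : (w.2 + -w.1) % 2 = 0
    · rw [if_pos hp, if_pos (hpar.mpr hp)]
      obtain ⟨j, hj⟩ := hpar.mpr hp
      rw [hj, Int.mul_ediv_cancel_left _ two_ne_zero]
      have hchar : quadraticChar (ZMod q) (j : ZMod q) =
          quadraticChar (ZMod q) (w.2 : ZMod q) := by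
        have h := congrArg (Int.cast : ℤ → ZMod q) hj
        push_cast at h
        rw [ZMod.natCast_self, zero_mul, zero_sub] at h
        have h2 := congrArg (quadraticChar (ZMod q)) h
        rw [map_mul, quadraticChar_two_eq hq8, neg_one_mul, show -(w.2 : ZMod q) = -1 * w.2 by
          ring, map_mul] at h2
        have hm1 : quadraticChar (ZMod q) (-1) = -1 := by
          rw [quadraticChar_neg_one_iff_not_isSquare, ZMod.exists_sq_eq_neg_one_iff]
          omega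
        rw [hm1] at h2
        linarith
      rw [hchar, hK, e]
      simp only [latLam, latQ, Int.cast_neg, ← hr]
      push_cast
      rw [show -((q : ℂ) * (w.1 : ℂ) ^ 2 + (w.2 : ℂ) ^ 2) / (4 * q * ((q : ℂ) * τ)) =
        -1 / ((q : ℂ) ^ 2 * τ) * ((w.2 : ℂ) ^ 2 + (q : ℂ) * (-(w.1 : ℂ)) ^ 2) / 4 by
          field_simp; ring]
      have hr3 : r ^ 3 = (q : ℂ) * r := by rw [pow_succ, hr2]
      field_simp
      ring_nf
      simp only [Complex.I_pow_four, Complex.I_pow_three, hr2, hr3]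
      ring
    · rw [if_neg hp, if_neg (mt hpar.mp hp)]
      simp
  have heq := (((Equiv.prodComm ℤ ℤ).trans
    (Equiv.prodCongr (Equiv.refl ℤ) (Equiv.neg ℤ))).hasSum_iff).mpr
      (summable_frickeTerm hq8 hσ).hasSum
  have hsum : HasSum (fun w : ℤ × ℤ => frickeTerm q σ (w.2, -w.1) / ((q : ℂ) ^ 2 * τ ^ 2))
      ((∑' v, frickeTerm q σ v) / ((q : ℂ) ^ 2 * τ ^ 2)) :=
    (heq.div_const _).congr_fun fun w => rfl
  rw [htot, hdual.unique hsum, mul_div_cancel₀]
  exact mul_ne_zero (pow_ne_zero 2 hqC) (pow_ne_zero 2 hτ0)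

/-- **A cusp form with the coefficients of the series, and its Fricke involution.** -/
theorem exists_form_fricke {n : ℕ} [Fact (q + 1 = 4 * n)] [NeZero n] :
    ∃ (L : ℕ) (f : CuspForm (Gamma0 L) 2), 0 < L ∧
      (∀ k : ℕ, ModularFormClass.qCoeff f k = oddCoeff q n k) ∧
      ∀ τ w : ℍ, (w : ℂ) = -1 / (((q ^ 2 : ℕ) : ℂ) * (τ : ℂ)) →
        f w = 1 * (((q ^ 2 : ℕ) : ℂ) * (τ : ℂ) ^ 2) * f τ := by
  have : NeZero (1 : ℕ) := ⟨one_ne_zero⟩
  have : NeZero q := ⟨hqf.out.ne_zero⟩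
  obtain ⟨L, f, hL, hf⟩ := exists_oddForm q (m := n) (q := 1) (1 : DirichletCharacter ℂ 1)
    fun u => by simp
  have hone : ∀ k : ℕ, (1 : DirichletCharacter ℂ 1) (k : ZMod 1) = 1 := fun k =>
    MulChar.one_apply (isUnit_of_subsingleton _)
  have : NeZero L := ⟨hL.ne'⟩
  have hval : ∀ τ : ℍ, f τ = 4⁻¹ * ∑' v, frickeTerm q (τ : ℂ) v := by
    intro τ
    have : NeZero (4 * q) := ⟨mul_ne_zero (by norm_num) hqf.out.ne_zero⟩
    have hQ := FA.Period.isQFun_of_mem (FA.Period.coe_mem_cuspForms f).1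
    have h1 := hasSum_qExpansion one_pos hQ.periodic hQ.mdiff hQ.bdd τ
    set wt : ZMod (4 * q) × ZMod (4 * q) → ℂ := fun r => frickeWeight q (r.1.val, r.2.val)
    have hwt : ∀ v : ℤ × ℤ, wt ((v.1 : ZMod (4 * q)), (v.2 : ZMod (4 * q))) = frickeWeight q v :=
      frickeWeight_val hq8
    have h2 := hasQ_latSum (D := q) (e := 4) wt (fun v hv => ?_) τ
    · have hcoeff : ∀ k, latCoeff q 4 wt k = 4 * oddCoeff q n k := by
        intro k
        rw [latCoeff, show (4 : ℂ) * oddCoeff q n k =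
            4 * ((1 : DirichletCharacter ℂ 1) (k : ZMod 1) * oddCoeff q n k) by rw [hone, one_mul],
          ← sum_oddWeight q (1 : DirichletCharacter ℂ 1) k (fun v => mem_latSet (v := v))]
        exact Finset.sum_congr rfl fun v _ => by rw [hwt, oddWeight_one_eq hq8]
      have h3 : HasSum (fun k => (UpperHalfPlane.qExpansion 1 f).coeff k • 𝕢 1 (τ : ℂ) ^ k)
          (4⁻¹ * latSum q 4 wt τ) := (h2.mul_left 4⁻¹).congr_fun fun k => by
        rw [show (UpperHalfPlane.qExpansion 1 f).coeff k = oddCoeff q n k by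
          rw [← one_mul (oddCoeff q n k), ← hone k]; exact hf k, PowerSeries.coeff_mk, hcoeff,
          smul_eq_mul]
        ring
      rw [h1.unique h3, latSum]
      congr 1
      exact tsum_congr fun v => by rw [latTerm, hwt, frickeTerm, Nat.cast_ofNat]
    · rw [hwt, frickeWeight] at hv
      have he : (v.1 + v.2) % 2 = 0 := by by_contra h; exact hv (if_neg h)
      obtain ⟨u, hu⟩ := Int.dvd_of_emod_eq_zero he
      refine ⟨u ^ 2 - u * v.2 + (n : ℤ) * v.2 ^ 2, ?_⟩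
      rw [latQ, show v.1 = 2 * u - v.2 by omega, show ((q : ℕ) : ℤ) = 4 * (n : ℤ) - 1 by
        have := (Fact.out : q + 1 = 4 * n); omega]
      push_cast
      ring
  refine ⟨L, f, hL, fun k => by rw [hf, hone, one_mul], fun τ w hw => ?_⟩
  rw [hval, hval, tsum_frickeTerm_inversion hq8 τ.im_pos w.im_pos (by rw [hw]; push_cast; rfl)]
  push_cast
  ring

end FA.CM.ClassOne

end
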