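import Fermat.Agent.Frob.Trace
import Mathlib.LinearAlgebra.Trace
import Mathlib.LinearAlgebra.FiniteDimensional.Basic

/-!
# Endomorphisms of a plane commuting or anticommuting with a given one
-/

set_option autoImplicit false
set_option linter.unusedSectionVars false

noncomputable section

namespace FA.CM.ClassOne

open Polynomial

variable {K V : Type*} [Field K] [AddCommGroup V] [Module K V] [FiniteDimensional K V]

/-- Trace and Cayley–Hamilton for a monic quadratic characteristic polynomial. -/
theorem trace_and_relation (hV : Module.finrank K V = 2) {F : Module.End K V} {a b : K}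
    (h : F.charpoly = X ^ 2 - C a * X + C b) :
    LinearMap.trace K V F = a ∧ ∀ v : V, F (F v) - a • F v + b • v = 0 := by
  refine ⟨?_, fun v => ?_⟩
  · let e := Module.finBasisOfFinrankEq K V hV
    have hd : (X ^ 2 - C a * X + C b : K[X]).natDegree = 2 := by compute_degree!
    rw [LinearMap.trace_eq_matrix_trace _ e, Matrix.trace_eq_neg_charpoly_nextCoeff,
      LinearMap.charpoly_toMatrix, h, nextCoeff, if_neg (by omega), hd]
    simp [coeff_C]
  · have h0 := LinearMap.congr_fun (LinearMap.aeval_self_charpoly F) v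
    simpa [h, sq, aeval_X, aeval_C, Module.algebraMap_end_apply] using h0

/-- Anticommuting with a square root of an invertible scalar kills the trace. -/
theorem trace_eq_zero_of_anticommute (h2 : (2 : K) ≠ 0) {F M : Module.End K V} {c : K} (hc : c ≠ 0)
    (hMM : ∀ v, M (M v) = c • v) (hFM : ∀ v, F (M v) = -M (F v)) :
    LinearMap.trace K V F = 0 := by
  have e1 : M * M * F = c • F := LinearMap.ext fun v => by simp [hMM]
  have e2 : M * F * M = -(c • F) := LinearMap.ext fun v => by simp [hFM, hMM]
  have h : LinearMap.trace K V (M * F * M) = LinearMap.trace K V (M * M * F) :=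
    LinearMap.trace_mul_cycle K M F M
  rw [e1, e2, map_neg, map_smul, smul_eq_mul] at h
  have h0 : (2 * c) * LinearMap.trace K V F = 0 := by linear_combination -h
  exact (mul_eq_zero.mp h0).resolve_left (mul_ne_zero h2 hc)

/-- An endomorphism without eigenvectors commutes with no semisimple non-scalar map with rational
eigenvalues: the discriminant is no nonzero square. -/
theorem disc_eq_zero_of_noEigen (hV : Module.finrank K V = 2) (h2 : (2 : K) ≠ 0)
    {F M : Module.End K V} {a b : K} (h : F.charpoly = X ^ 2 - C a * X + C b)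
    (hFM : ∀ v, F (M v) = M (F v)) (hno : ∀ v : V, v ≠ 0 → ∀ c : K, M v ≠ c • v)
    (hsq : IsSquare (a ^ 2 - 4 * b)) : a ^ 2 - 4 * b = 0 := by
  obtain ⟨r, hr⟩ := hsq
  obtain ⟨htr, hrel⟩ := trace_and_relation hV h
  set G : Module.End K V := (2 : K) • F - a • LinearMap.id with hG
  have hGv : ∀ v, G v = (2 : K) • F v - a • v := fun v => rfl
  have hGM : ∀ v, G (M v) = M (G v) := fun v => by simp [hGv, hFM]
  have hGG : ∀ v, G (G v) = (r * r) • v := fun v => by
    rw [← hr, hGv, hGv, map_sub, map_smul, map_smul]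
    linear_combination (norm := module) (4 : K) • hrel v
  -- a subspace stable under `M` is zero or everything
  have hinv : ∀ U : Submodule K V, (∀ v ∈ U, M v ∈ U) → U = ⊥ ∨ U = ⊤ := by
    intro U hU
    have hle : Module.finrank K U ≤ 2 := hV ▸ Submodule.finrank_le U
    interval_cases hd : Module.finrank K U
    · exact Or.inl (Submodule.finrank_eq_zero.mp hd)
    · exfalso
      obtain ⟨⟨v, hv⟩, hv0, hspan⟩ := finrank_eq_one_iff'.mp hd
      obtain ⟨c, hc⟩ := hspan ⟨M v, hU v hv⟩
      exact hno v (fun e => hv0 (Subtype.ext e)) c (congrArg Subtype.val hc).symm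
    · exact Or.inr (Submodule.eq_top_of_finrank_eq (by rw [hd, hV]))
  obtain ⟨ρ, hρ, hGρ⟩ : ∃ ρ : K, ρ * ρ = r * r ∧ ∀ v, G v = ρ • v := by
    rcases hinv (LinearMap.ker (G - r • LinearMap.id)) (fun v hv => by
      simp only [LinearMap.mem_ker, LinearMap.sub_apply, LinearMap.smul_apply, LinearMap.id_apply,
        sub_eq_zero] at hv ⊢
      rw [hGM, hv, map_smul]) with hU | hU
    · refine ⟨-r, neg_mul_neg r r, fun v => ?_⟩
      have hv : G v + r • v ∈ LinearMap.ker (G - r • LinearMap.id) := by
        simp only [LinearMap.mem_ker, LinearMap.sub_apply, LinearMap.smul_apply, LinearMap.id_apply,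
          map_add, map_smul, hGG]
        module
      rw [hU, Submodule.mem_bot] at hv
      rw [neg_smul]; exact eq_neg_of_add_eq_zero_left hv
    · refine ⟨r, rfl, fun v => sub_eq_zero.mp ?_⟩
      have hv : v ∈ LinearMap.ker (G - r • LinearMap.id) := hU ▸ Submodule.mem_top
      simpa using hv
  have hGid : G = ρ • LinearMap.id := LinearMap.ext hGρ
  have ht := congrArg (LinearMap.trace K V) hGid
  rw [hG, map_sub, map_smul, map_smul, map_smul, htr, LinearMap.trace_id, hV] at ht
  simp only [smul_eq_mul, Nat.cast_ofNat] at ht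
  have hρ0 : ρ = 0 := by
    have h0 : ρ * 2 = 0 := by linear_combination -ht
    exact (mul_eq_zero.mp h0).resolve_right h2
  rw [hr, ← hρ, hρ0, mul_zero]

/-- The kernel of a nonzero nilpotent map is a line. -/
theorem exists_kernel_generator (hV : Module.finrank K V = 2) {N : Module.End K V} (hN : N ≠ 0)
    (hNN : ∀ v, N (N v) = 0) :
    ∃ v : V, v ≠ 0 ∧ N v = 0 ∧ ∀ w, N w = 0 → ∃ c : K, c • v = w := by
  have hsum := N.finrank_range_add_finrank_ker
  have hle : Module.finrank K (LinearMap.range N) ≤ Module.finrank K (LinearMap.ker N) :=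
    Submodule.finrank_mono fun x ⟨y, hy⟩ => by
      rw [← hy]; exact hNN y
  have hpos : Module.finrank K (LinearMap.range N) ≠ 0 := fun e =>
    hN (LinearMap.range_eq_bot.mp (Submodule.finrank_eq_zero.mp e))
  have h1 : Module.finrank K (LinearMap.ker N) = 1 := by
    rw [hV] at hsum; omega
  obtain ⟨⟨v, hv⟩, hv0, hspan⟩ := finrank_eq_one_iff'.mp h1
  refine ⟨v, fun e => hv0 (Subtype.ext e), hv, fun w hw => ?_⟩
  obtain ⟨c, hc⟩ := hspan ⟨w, hw⟩
  exact ⟨c, congrArg Subtype.val hc⟩

/-- A map commuting with a nonzero nilpotent one acts on the plane by one eigenvalue. -/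
theorem eq_of_commute_nilpotent (hV : Module.finrank K V = 2) {F N : Module.End K V} {a b : K}
    (h : F.charpoly = X ^ 2 - C a * X + C b) (hFN : ∀ v, F (N v) = N (F v))
    {v : V} (hv : v ≠ 0) (hspan : ∀ w, N w = 0 → ∃ c : K, c • v = w) (hNN : ∀ v, N (N v) = 0)
    {c : K} (hFv : F v = c • v) : a = 2 * c ∧ b = c ^ 2 := by
  obtain ⟨htr, hrel⟩ := trace_and_relation hV h
  have hnil : IsNilpotent (F - c • LinearMap.id) := ⟨2, LinearMap.ext fun w => by
    obtain ⟨t, ht⟩ := hspan (N w) (hNN w)
    have hw : N (F w - c • w) = 0 := by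
      rw [map_sub, map_smul, ← hFN, ← ht, map_smul, hFv, smul_comm, sub_self]
    obtain ⟨t', ht'⟩ := hspan _ hw
    simp only [sq, Module.End.mul_apply]
    show F (F w - c • w) - c • (F w - c • w) = 0
    rw [← ht', map_smul, hFv, smul_comm, sub_self]⟩
  have h0 := (LinearMap.isNilpotent_trace_of_isNilpotent hnil).eq_zero
  rw [map_sub, map_smul, htr, LinearMap.trace_id, hV, smul_eq_mul, Nat.cast_ofNat,
    sub_eq_zero] at h0
  have hb := hrel v
  rw [hFv, map_smul, hFv, smul_smul, smul_smul, ← sub_smul, ← add_smul, smul_eq_zero] at hb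
  have hb' := hb.resolve_right hv
  exact ⟨by linear_combination h0, by linear_combination hb' + c * h0⟩

end FA.CM.ClassOne

end
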