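import Fermat.Agent.Two.QuadField

/-!
# The quadratic character of `ℚ` unramified outside a prime `q ≡ 3 (mod 4)`

Such a character cuts out the field of a square root of a squarefree integer supported at `q`; an
inertia group at `2` moves the square roots of the integers congruent to `3` modulo `4`, so the only
nontrivial one is the sign on `√-q`.
-/

set_option autoImplicit false

noncomputable section

open FA.LocalDef FA.Deform

namespace FA.CM.ClassOne

local notation "Qb" => AlgebraicClosure ℚ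
local notation "GQ" => AlgebraicClosure ℚ ≃ₐ[ℚ] AlgebraicClosure ℚ

/-- Inertia at `2` moves a square root of an integer congruent to `3` modulo `4`. -/
theorem exists_inertia_moves {d : ℤ} (hd : d % 4 = 3) {y : Qb} (hy : y ^ 2 = (d : Qb))
    {A : ValuationSubring Qb} (hA : A.LiesOverPrime 2) :
    ∃ σ ∈ A.inertiaSubgroupIn ℚ, σ y ≠ y := by
  by_contra hcon
  push Not at hcon
  have hlt := valuation_p_lt_one hA
  have hvd : A.valuation (d : Qb) = 1 :=
    FA.Local.natCast_eq_one_of_not_dvd Nat.prime_two hlt (by omega)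
  have hvy : A.valuation y = 1 :=
    (pow_eq_one_iff_of_nonneg zero_le two_ne_zero).mp (by rw [← map_pow, hy, hvd])
  obtain ⟨m, hm⟩ : ∃ m : ℤ, 1 + d = 4 * m := ⟨(1 + d) / 4, by omega⟩
  have hmle : A.valuation (m : Qb) ≤ 1 :=
    (A.valuation_le_one_iff _).mpr (intCast_mem A m)
  have hsum : A.valuation (y + 2 * (m : Qb)) = 1 := by
    have h2 : A.valuation (2 * (m : Qb)) < 1 := by
      rw [map_mul]
      exact lt_of_le_of_lt (mul_le_of_le_one_right' hmle) (by simpa using hlt)
    rw [A.valuation.map_add_eq_of_lt_left (by rw [hvy]; exact h2), hvy]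
  have hsq : (1 + y) ^ 2 = (2 : ℕ) * (y + 2 * (m : Qb)) := by
    have hm' : (1 : Qb) + (d : Qb) = 4 * (m : Qb) := by
      exact_mod_cast congrArg (Int.cast (R := Qb)) hm
    push_cast
    linear_combination hy + hm'
  have h0 : (1 + y) ≠ 0 := fun h => by
    rw [h, zero_pow two_ne_zero] at hsq
    have h' := congrArg A.valuation hsq
    rw [map_zero, map_mul, hsum, mul_one] at h'
    exact (valuation_p_pos Nat.prime_two).ne h'
  obtain ⟨k, hk⟩ := exists_zpow_of_mem_kur Nat.prime_two hA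
    (mem_kur.mpr fun σ hσ => by rw [map_add, map_one, hcon σ hσ]) h0
  have h := congrArg A.valuation hsq
  rw [map_pow, hk, map_mul, hsum, mul_one, ← zpow_natCast, ← zpow_mul] at h
  have := FA.Two.zpow_val_injective Nat.prime_two hA (j := 1) (by rw [h, zpow_one])
  omega

/-- Kummer theory: a sign character with open kernel is the sign on a square root of a rational. -/
theorem exists_sqrt_rat (η : GQ →* ℤˣ) (hopen : IsOpen (η.ker : Set GQ)) {t : GQ} (ht : η t = -1) :
    ∃ (c : ℚ) (y : Qb), c ≠ 0 ∧ y ^ 2 = (c : Qb) ∧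
      ∀ σ : GQ, σ y = (((η σ : ℤˣ) : ℤ) : Qb) * y := by
  obtain ⟨z, hzf, hzt⟩ : ∃ z : Qb, (∀ σ ∈ η.ker, σ z = z) ∧ t z ≠ z := by
    by_contra h
    push Not at h
    have hfix : (IntermediateField.fixedField η.ker).fixingSubgroup = η.ker :=
      InfiniteGalois.fixingSubgroup_fixedField ⟨η.ker, Subgroup.isClosed_of_isOpen _ hopen⟩
    have hmem : t ∈ η.ker := by
      rw [← hfix]
      exact (IntermediateField.mem_fixingSubgroup_iff _ _).mpr fun z hz =>
        h z fun σ hσ => hz ⟨σ, hσ⟩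
    rw [MonoidHom.mem_ker, ht] at hmem
    exact absurd hmem (by decide)
  set x := z - t z with hx
  have hx0 : x ≠ 0 := fun h => hzt (sub_eq_zero.mp h).symm
  have hfix : ∀ σ : GQ, η σ = 1 → σ x = x := fun σ hσ => by
    have e : σ (t z) = t ((t⁻¹ * σ * t) z) := by simp [AlgEquiv.mul_apply, AlgEquiv.aut_inv]
    rw [hx, map_sub, e, hzf σ (MonoidHom.mem_ker.mpr hσ), hzf _ (MonoidHom.mem_ker.mpr (by
      rw [map_mul, map_mul, hσ, mul_one, map_inv, inv_mul_cancel]))]
  have htx : t x = -x := by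
    have e : t (t z) = z := hzf (t * t) (MonoidHom.mem_ker.mpr (by rw [map_mul, ht]; decide))
    rw [hx, map_sub, e, neg_sub]
  have hact : ∀ σ : GQ, σ x = (((η σ : ℤˣ) : ℤ) : Qb) * x := fun σ => by
    rcases Int.units_eq_one_or (η σ) with h | h
    · rw [hfix σ h, h]; simp
    · have e := hfix (t⁻¹ * σ) (by rw [map_mul, map_inv, ht, h, inv_mul_cancel])
      have e' : σ x = t ((t⁻¹ * σ) x) := by simp [AlgEquiv.mul_apply, AlgEquiv.aut_inv]
      rw [e', e, htx, h]; simp
  obtain ⟨c, hc⟩ := FA.Local.exists_ratCast_of_fixed (x ^ 2) fun σ => by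
    show σ (x ^ 2) = x ^ 2
    rw [map_pow, show σ x = _ from hact σ]
    rcases Int.units_eq_one_or (η σ) with h | h <;> rw [h] <;> simp
  refine ⟨c, x, fun h => hx0 ?_, hc.symm, hact⟩
  rw [h, Rat.cast_zero] at hc
  exact eq_zero_of_pow_eq_zero hc.symm

/-- A natural number with even exponents away from `q` is a square or `q` times a square. -/
theorem exists_sq_of_even {q n : ℕ} (hq : q.Prime) (hn : n ≠ 0)
    (h : ∀ l : ℕ, l.Prime → l ≠ q → 2 ∣ padicValNat l n) :
    ∃ b : ℕ, b ≠ 0 ∧ (n = b ^ 2 ∨ n = b ^ 2 * q) := by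
  obtain ⟨a, b, hab, ha⟩ := Nat.sq_mul_squarefree n
  have hb : b ≠ 0 := fun e => hn (by rw [← hab, e]; simp)
  have ha0 : a ≠ 0 := ha.ne_zero
  have hsub : ∀ l : ℕ, l.Prime → l ∣ a → l = q := fun l hl hla => by
    by_contra hlq
    have := Fact.mk hl
    have h2 := h l hl hlq
    rw [← hab, padicValNat.mul (pow_ne_zero 2 hb) ha0, padicValNat.pow] at h2
    have h1 : padicValNat l a = 1 := by
      refine le_antisymm ?_ (one_le_padicValNat_of_dvd ha0 hla)
      rw [← Nat.factorization_def _ hl]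
      exact (Nat.squarefree_iff_factorization_le_one ha0).mp ha l
    omega
  refine ⟨b, hb, ?_⟩
  rcases eq_or_ne a 1 with rfl | ha1
  · exact Or.inl (by rw [← hab, mul_one])
  · obtain rfl : a = q := by
      obtain ⟨l, hl, hla⟩ := Nat.exists_prime_and_dvd ha1
      obtain rfl := hsub l hl hla
      obtain ⟨e, rfl⟩ := hla
      rcases eq_or_ne e 1 with rfl | he
      · rw [mul_one]
      · obtain ⟨m, hm, hme⟩ := Nat.exists_prime_and_dvd he
        obtain rfl := hsub m hm (hme.mul_left _)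
        exact absurd (Nat.isUnit_iff.mp (ha m (mul_dvd_mul_left m hme))) hm.ne_one
    exact Or.inr hab.symm

/-- **A sign character unramified outside `q ≡ 3 (mod 4)`** is trivial or the sign on `√-q`. -/
theorem quadChar_cases {q : ℕ} (hq : q.Prime) (hq4 : q % 4 = 3) (η : GQ →* ℤˣ)
    (hopen : IsOpen (η.ker : Set GQ))
    (hunr : ∀ l : ℕ, l.Prime → l ≠ q → ∀ A : ValuationSubring Qb, A.LiesOverPrime l →
      ∀ σ ∈ A.inertiaSubgroupIn ℚ, η σ = 1)
    {s : Qb} (hs : s ^ 2 = -(q : Qb)) :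
    η = 1 ∨ ∀ σ : GQ, σ s = (((η σ : ℤˣ) : ℤ) : Qb) * s := by
  by_cases h1 : η = 1
  · exact Or.inl h1
  refine Or.inr ?_
  obtain ⟨t, ht⟩ : ∃ t, η t = -1 := by
    by_contra h
    push Not at h
    exact h1 (MonoidHom.ext fun σ => (Int.units_eq_one_or (η σ)).resolve_right (h σ))
  obtain ⟨c, y, hc, hy, hact⟩ := exists_sqrt_rat η hopen ht
  have hy0 : y ≠ 0 := fun h => by
    rw [h, zero_pow two_ne_zero, eq_comm, Rat.cast_eq_zero] at hy; exact hc hy
  have hfix : ∀ l : ℕ, l.Prime → l ≠ q → ∀ A : ValuationSubring Qb, A.LiesOverPrime l →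
      ∀ σ ∈ A.inertiaSubgroupIn ℚ, σ y = y := fun l hl hlq A hA σ hσ => by
    rw [hact, hunr l hl hlq A hA σ hσ]; simp
  -- clear the denominator
  set y' := y * (c.den : Qb) with hy'
  have hy2 : y' ^ 2 = ((c.num * c.den : ℤ) : Qb) := by
    rw [hy', mul_pow, hy, show (c : Qb) = (c.num : Qb) / (c.den : Qb) from Rat.cast_def c]
    push_cast
    field_simp
  have hn0 : c.num * (c.den : ℤ) ≠ 0 :=
    mul_ne_zero (Rat.num_ne_zero.mpr hc) (Int.natCast_ne_zero.mpr c.den_nz)
  obtain ⟨b, hb, hbn⟩ := exists_sq_of_even hq (Int.natAbs_ne_zero.mpr hn0) fun l hl hlq => by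
    have := Fact.mk hl
    obtain ⟨A, hA⟩ := exists_liesOverPrime hl
    have h2 := FA.Two.even_of_sq hl hA (c := ((c.num * c.den : ℤ) : ℚ)) (y := y')
      (by exact_mod_cast hn0) (by rw [hy2, Rat.cast_intCast]) fun σ hσ => by
        rw [hy', map_mul, map_natCast, hfix l hl hlq A hA σ hσ]
    rw [padicValRat.of_int, padicValInt] at h2
    exact_mod_cast h2
  set w := y' / (b : Qb) with hw
  have hb' : (b : Qb) ≠ 0 := Nat.cast_ne_zero.mpr hb
  have hwact : ∀ σ : GQ, σ w = (((η σ : ℤˣ) : ℤ) : Qb) * w := fun σ => by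
    rw [hw, hy', map_div₀, map_mul, map_natCast, map_natCast, hact]; ring
  have hw0 : w ≠ 0 :=
    div_ne_zero (mul_ne_zero hy0 (Nat.cast_ne_zero.mpr c.den_nz)) hb'
  have hmoved : ∀ d : ℤ, d % 4 = 3 → w ^ 2 ≠ (d : Qb) := fun d hd hwd => by
    obtain ⟨A, hA⟩ := exists_liesOverPrime Nat.prime_two
    obtain ⟨σ, hσ, hne⟩ := exists_inertia_moves hd hwd hA
    exact hne (by rw [hwact, hunr 2 Nat.prime_two (fun e => by omega) A hA σ hσ]; simp)
  have hw2 : w ^ 2 = ((c.num * c.den : ℤ) : Qb) / ((b : Qb) ^ 2) := by rw [hw, div_pow, hy2]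
  rcases Int.natAbs_eq (c.num * c.den) with he | he <;> rcases hbn with hbn | hbn <;>
    rw [he, hbn] at hw2 <;> push_cast at hw2
  · -- a square: `η = 1`
    rw [div_self (pow_ne_zero 2 hb'), sq_eq_one_iff] at hw2
    have := hwact t
    rw [ht] at this
    rcases hw2 with e | e <;> rw [e] at this <;> simp at this <;> norm_num at this
  · exact absurd (by rw [hw2, mul_div_cancel_left₀ _ (pow_ne_zero 2 hb')]; norm_num)
      (hmoved (q : ℤ) (by omega))
  · exact absurd (by rw [hw2, neg_div, div_self (pow_ne_zero 2 hb')]; norm_num)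
      (hmoved (-1) (by omega))
  · rw [neg_div, mul_div_cancel_left₀ _ (pow_ne_zero 2 hb'), ← hs, sq_eq_sq_iff_eq_or_eq_neg] at hw2
    intro σ
    rcases hw2 with e | e
    · rw [← e]; exact hwact σ
    · have := hwact σ
      rw [e, map_neg, mul_neg, neg_inj] at this
      exact this

/-- A sign character unramified outside `q ≡ 3 (mod 4)` is trivial on the stabiliser of `√-q`. -/
theorem quadChar_eq_one {q : ℕ} (hq : q.Prime) (hq4 : q % 4 = 3) (η : GQ →* ℤˣ)
    (hopen : IsOpen (η.ker : Set GQ))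
    (hunr : ∀ l : ℕ, l.Prime → l ≠ q → ∀ A : ValuationSubring Qb, A.LiesOverPrime l →
      ∀ σ ∈ A.inertiaSubgroupIn ℚ, η σ = 1)
    {s : Qb} (hs : s ^ 2 = -(q : Qb)) {σ : GQ} (hσ : σ s = s) : η σ = 1 := by
  rcases quadChar_cases hq hq4 η hopen hunr hs with h | h
  · rw [h, MonoidHom.one_apply]
  rcases Int.units_eq_one_or (η σ) with e | e
  · exact e
  have h2 := h σ
  rw [hσ, e] at h2
  have hs0 : s ≠ 0 := fun h0 => hq.ne_zero (by
    rw [h0, zero_pow two_ne_zero, zero_eq_neg, Nat.cast_eq_zero] at hs; exact hs)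
  exact absurd (by simpa using h2.symm : -s = s) (FA.Two.neg_ne_self hs0)

end FA.CM.ClassOne

end
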