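import Fermat.Agent.CM.ClassOne.Defs
import Fermat.Agent.CM.ClassOne.Linear
import Fermat.Agent.CM.ClassOne.QuadChar
import Fermat.Agent.CM.EndoSquare
import Fermat.Agent.CM.PrimeSymbols
import Fermat.Agent.Frob.Semistable
import Fermat.Agent.Frob.Models
import Fermat.Agent.HasseBound.Main

/-!
# The traces from a square root of `-q` on the points

Let `M` be an additive map of the points over `ℚ̄` with `M ∘ M = -q`, commuting with the `σ` fixing
`√-q` and anticommuting with the others, on a curve with good reduction outside the prime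
`q ≡ 3 (mod 8)`. A Frobenius at an inert prime anticommutes with `M`, so its trace is zero. At a
split prime it commutes with `M`: modulo the inert primes this bounds the discriminant, and modulo
`q` it acts by one value `χ` of the character on the Galois stable line `ker M`; the quadratic
character of `χ` is unramified outside `q`, hence trivial there.
-/

set_option autoImplicit false
set_option linter.unusedSectionVars false
set_option linter.style.haveILetI false

noncomputable section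

open WeierstrassCurve Polynomial FA.Frob
open scoped WeierstrassCurve.Affine

namespace FA.CM.ClassOne

local notation "Qb" => AlgebraicClosure ℚ
local notation "GQ" => AlgebraicClosure ℚ ≃ₐ[ℚ] AlgebraicClosure ℚ

/-! ### Frobenius on `√-q` -/

section sqrt

variable {q l : ℕ} {A : ValuationSubring Qb} {σ : GQ}

/-- A Frobenius element acts on residues by the `l`th power. -/
theorem residue_frobenius (hσ : A.IsFrobeniusAt σ l) {x : Qb} (hx : x ∈ A) (hx' : σ x ∈ A) :
    IsLocalRing.residue A ⟨σ x, hx'⟩ = IsLocalRing.residue A ⟨x, hx⟩ ^ l := by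
  have h := hσ.smul_residue_eq (IsLocalRing.residue A ⟨x, hx⟩)
  rw [← IsLocalRing.ResidueField.residue_smul] at h
  rw [← h]
  rfl

theorem mem_of_sq_mem {x : Qb} (h : x ^ 2 ∈ A) : x ∈ A := by
  refine (A.valuation_le_one_iff x).mp ?_
  by_contra hc
  have h1 : 1 < A.valuation (x ^ 2) := by
    rw [map_pow]; exact one_lt_pow₀ (not_le.mp hc) two_ne_zero
  exact absurd ((A.valuation_le_one_iff _).mpr h) (not_le.mpr h1)

theorem apply_sqrt {s : Qb} (hs : s ^ 2 = -(q : Qb)) (σ : GQ) : σ s = s ∨ σ s = -s :=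
  sq_eq_sq_iff_eq_or_eq_neg.mp (by rw [← map_pow, hs, map_neg, map_natCast])

/-- At an odd prime `l` not dividing `d` Frobenius fixes `√d` exactly when `d` is a square. -/
theorem frobenius_fix_iff_int (hl : l.Prime) (hl2 : l ≠ 2) {d : ℤ} (hld : ¬ (l : ℤ) ∣ d)
    (hA : A.LiesOverPrime l) (hσ : A.IsFrobeniusAt σ l) {s : Qb} (hs : s ^ 2 = (d : Qb)) :
    σ s = s ↔ IsSquare ((d : ℤ) : ZMod l) := by
  have := Fact.mk hl
  have hch : CharP (Res A) l := residueField_charP A hl hA
  have h0 : ((d : ℤ) : ZMod l) ≠ 0 := by rwa [Ne, ZMod.intCast_zmod_eq_zero_iff_dvd]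
  have hmem : s ∈ A := mem_of_sq_mem (hs.symm ▸ intCast_mem A d)
  set t : Res A := IsLocalRing.residue A ⟨s, hmem⟩ with ht
  have ht2 : t ^ 2 = ((d : ℤ) : Res A) := by
    rw [ht, ← map_pow, ← map_intCast (IsLocalRing.residue A)]
    congr 1
    exact Subtype.ext (by push_cast; exact hs)
  have ht0 : t ≠ 0 := fun e => h0 ((ZMod.castHom dvd_rfl (Res A)).injective (by
    rw [map_intCast, map_zero, ← ht2, e, zero_pow two_ne_zero]))
  have h2 : (2 : Res A) ≠ 0 := by
    intro e
    have e' : ((2 : ℕ) : Res A) = 0 := by exact_mod_cast e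
    exact hl2 ((Nat.prime_dvd_prime_iff_eq hl Nat.prime_two).mp
      ((CharP.cast_eq_zero_iff (Res A) l 2).mp e'))
  have hne : -t ≠ t := fun e => ht0 ((mul_eq_zero.mp
    (show (2 : Res A) * t = 0 by linear_combination -e)).resolve_left h2)
  have key : ∀ x, σ s = x → ∀ hx : x ∈ A, IsLocalRing.residue A ⟨x, hx⟩ = t ^ l := by
    rintro x rfl hx
    exact residue_frobenius hσ hmem hx
  obtain ⟨hyes, hno⟩ := FA.CM.EndoSquare.frobenius_sqrt (k := Res A) hl2 h0 ht2
  simp only [frobenius_def] at hyes hno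
  have hneg : IsLocalRing.residue A ⟨-s, neg_mem hmem⟩ = -t := by
    rw [ht, ← map_neg]; rfl
  constructor
  · intro e
    by_contra hns
    exact hne ((hno hns).symm.trans (key s e hmem).symm)
  · intro hsq
    refine (sq_eq_sq_iff_eq_or_eq_neg.mp
      (by rw [← map_pow, hs, map_intCast])).resolve_right fun e => hne ?_
    rw [← hneg, key _ e, hyes hsq]

/-- At an odd prime `l ≠ q` Frobenius fixes `√-q` exactly when `-q` is a square. -/
theorem frobenius_fix_iff (hq : q.Prime) (hl : l.Prime) (hl2 : l ≠ 2) (hlq : l ≠ q)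
    (hA : A.LiesOverPrime l) (hσ : A.IsFrobeniusAt σ l) {s : Qb} (hs : s ^ 2 = -(q : Qb)) :
    σ s = s ↔ IsSquare (-(q : ZMod l)) := by
  rw [frobenius_fix_iff_int hl hl2 (d := -(q : ℤ)) (fun h => hlq ((Nat.prime_dvd_prime_iff_eq
    hl hq).mp (Int.natCast_dvd_natCast.mp (Int.dvd_neg.mp h)))) hA hσ (by push_cast; exact hs)]
  push_cast
  rfl

/-- `2` is inert for `q ≡ 3 (mod 8)`. -/
theorem frobenius_two_neg (hq8 : q % 8 = 3) (hA : A.LiesOverPrime 2) (hσ : A.IsFrobeniusAt σ 2)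
    {s : Qb} (hs : s ^ 2 = -(q : Qb)) : σ s = -s := by
  refine (apply_sqrt hs σ).resolve_left fun e => ?_
  have hch : CharP (Res A) 2 := residueField_charP A Nat.prime_two hA
  obtain ⟨n, hn⟩ : ∃ n : ℕ, q + 1 = 4 * (2 * n + 1) := ⟨(q + 1) / 8, by omega⟩
  have hn' : (q : Qb) + 1 = 4 * (2 * (n : Qb) + 1) := by exact_mod_cast hn
  set u : Qb := (1 + s) / 2 with hu
  have hu2 : u ^ 2 - u + (2 * (n : Qb) + 1) = 0 := by
    rw [hu]; field_simp; linear_combination hs - hn'
  have hmem : u ∈ A := by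
    refine (A.valuation_le_one_iff u).mp ?_
    by_contra hc
    rw [not_le] at hc
    have h1 : A.valuation u < A.valuation (u ^ 2) := by
      rw [map_pow, sq]
      exact lt_mul_of_one_lt_left (zero_lt_one.trans hc) hc
    have h2 : A.valuation (2 * (n : Qb) + 1) < A.valuation (u ^ 2) :=
      lt_of_le_of_lt ((A.valuation_le_one_iff _).mpr
        (add_mem (mul_mem (ofNat_mem A 2) (natCast_mem A n)) (one_mem A))) (hc.trans h1)
    have h3 := A.valuation.map_sub_lt h1 h2
    rw [show u - (2 * (n : Qb) + 1) = u ^ 2 by linear_combination -hu2] at h3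
    exact lt_irrefl _ h3
  have hσu : σ u = u := by
    rw [hu, map_div₀, map_add, map_one, map_ofNat, e]
  have h := residue_frobenius hσ hmem (hσu.symm ▸ hmem)
  simp only [hσu] at h
  set t := IsLocalRing.residue A ⟨u, hmem⟩ with ht
  have hpol : t ^ 2 - t + (2 * (n : Res A) + 1) = 0 := by
    rw [ht, ← map_pow, ← map_natCast (IsLocalRing.residue A) n, ← map_ofNat (IsLocalRing.residue A),
      ← map_one (IsLocalRing.residue A), ← map_mul, ← map_sub, ← map_add, ← map_add,
      ← map_zero (IsLocalRing.residue A)]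
    congr 1
    exact Subtype.ext (by push_cast; exact hu2)
  have h20 : (2 : Res A) = 0 := by exact_mod_cast CharP.cast_eq_zero (Res A) 2
  rw [← h, h20] at hpol
  simp at hpol

end sqrt

/-! ### The traces -/

section law

variable {q : ℕ} [hqf : Fact q.Prime] (E : WeierstrassCurve ℚ) [E.IsElliptic]
  (M : (E⁄Qb).Point →+ (E⁄Qb).Point)

/-- `M` on the `m`-torsion. -/
def torsEnd (m : ℕ) : Module.End (ZMod m) (Submodule.torsionBy ℤ (E⁄Qb).Point m) :=
  AddMonoidHom.toZModLinearMap m (AddMonoidHom.mk' (fun P => ⟨M P.1, by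
    rw [Submodule.mem_torsionBy_iff, ← map_zsmul, (Submodule.mem_torsionBy_iff _ _).mp P.2,
      map_zero]⟩) fun P Q => Subtype.ext (map_add M P.1 Q.1))

/-- The representation on the `m`-torsion. -/
abbrev torsRep (m : ℕ) : GQ →* Module.End (ZMod m) (Submodule.torsionBy ℤ (E⁄Qb).Point m) :=
  Affine.Point.galoisRepModuleEnd (K := Qb) ℚ E.toAffine m

variable {E M}

theorem torsEnd_torsEnd {m : ℕ} [NeZero m] (hMM : ∀ P, M (M P) = (-(q : ℤ)) • P)
    (P : Submodule.torsionBy ℤ (E⁄Qb).Point m) :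
    torsEnd E M m (torsEnd E M m P) = ((-(q : ℤ) : ℤ) : ZMod m) • P := by
  rw [Int.cast_smul_eq_zsmul]
  exact Subtype.ext (hMM P.1)

variable {W : WeierstrassCurve ℤ} (hW : W.IsIntegralModelOf E)

include hW

/-- At an inert prime the trace vanishes. -/
theorem apOfModel_eq_zero {l : ℕ} (hl : l.Prime) (hgood : ¬ (l : ℤ) ∣ W.Δ)
    {A : ValuationSubring Qb} (hA : A.LiesOverPrime l) {σ : GQ} (hσ : A.IsFrobeniusAt σ l)
    (hMM : ∀ P, M (M P) = (-(q : ℤ)) • P) (hneg : ∀ P, σ • M P = -M (σ • P)) :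
    W.apOfModel l = 0 := by
  obtain ⟨m, hm, hmp⟩ := Nat.exists_infinite_primes ((W.apOfModel l).natAbs + q + l + 3)
  have := Fact.mk hmp
  have h := charpoly_galoisRep_of_model hW hl hgood (p := m) (by omega) hA hσ
  obtain ⟨htr, -⟩ := trace_and_relation (FA.EC.finrank_torsion E m) h
  have h0 := trace_eq_zero_of_anticommute (F := torsRep E m σ) (M := torsEnd E M m)
    (c := ((-(q : ℤ) : ℤ) : ZMod m)) (fun e => ?_) (fun e => ?_) (torsEnd_torsEnd hMM)
    fun P => Subtype.ext (hneg P.1)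
  · rw [htr, ZMod.intCast_zmod_eq_zero_iff_dvd] at h0
    by_contra hne
    have := Nat.le_of_dvd (Int.natAbs_pos.mpr hne) (Int.natCast_dvd.mp h0)
    omega
  · rw [← Nat.cast_ofNat, ZMod.natCast_eq_zero_iff] at e
    have := Nat.le_of_dvd two_pos e
    omega
  · rw [ZMod.intCast_zmod_eq_zero_iff_dvd, Int.dvd_neg, Int.natCast_dvd_natCast] at e
    have := Nat.le_of_dvd hqf.out.pos e
    omega

/-- At a split prime the discriminant is no nonzero square modulo an inert prime. -/
theorem disc_dvd {l : ℕ} (hl : l.Prime) (hgood : ¬ (l : ℤ) ∣ W.Δ) {A : ValuationSubring Qb}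
    (hA : A.LiesOverPrime l) {σ : GQ} (hσ : A.IsFrobeniusAt σ l)
    (hMM : ∀ P, M (M P) = (-(q : ℤ)) • P) (hcomm : ∀ P, σ • M P = M (σ • P))
    {m : ℕ} [Fact m.Prime] (hml : m ≠ l) (hm2 : m ≠ 2)
    (hns : ¬ IsSquare ((-(q : ℤ) : ℤ) : ZMod m))
    (hsq : IsSquare ((W.apOfModel l ^ 2 - 4 * (l : ℤ) : ℤ) : ZMod m)) :
    (m : ℤ) ∣ W.apOfModel l ^ 2 - 4 * (l : ℤ) := by
  have h := charpoly_galoisRep_of_model hW hl hgood (p := m) hml hA hσ
  rw [← ZMod.intCast_zmod_eq_zero_iff_dvd]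
  push_cast at hsq ⊢
  refine disc_eq_zero_of_noEigen (FA.EC.finrank_torsion E m) ?_ h (M := torsEnd E M m)
    (fun P => Subtype.ext (hcomm P.1)) (fun v hv c hc => hns ⟨c, ?_⟩) hsq
  · intro e
    rw [← Nat.cast_ofNat, ZMod.natCast_eq_zero_iff] at e
    exact hm2 ((Nat.prime_dvd_prime_iff_eq Fact.out Nat.prime_two).mp e)
  · have e := torsEnd_torsEnd (m := m) hMM v
    rw [hc, map_smul, hc, smul_smul, ← sub_eq_zero, ← sub_smul, smul_eq_zero] at e
    exact (sub_eq_zero.mp (e.resolve_right hv)).symm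

omit hW in
/-- `M` does not vanish on the `q`-torsion. -/
theorem torsEnd_ne_zero (hMM : ∀ P, M (M P) = (-(q : ℤ)) • P) : torsEnd E M q ≠ 0 := fun h => by
  have hq := hqf.out
  have := FA.EC.finite_torsion E hq.ne_zero
  have hkill : ∀ P : (E⁄Qb).Point, (q : ℤ) • P = 0 → M P = 0 := fun P hP => by
    have := congrArg Subtype.val
      (LinearMap.congr_fun h ⟨P, (Submodule.mem_torsionBy_iff _ _).mpr hP⟩)
    exact this
  have hle : Nat.card (Submodule.torsionBy ℤ (E⁄Qb).Point (q ^ 2 : ℕ)) ≤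
      Nat.card (Submodule.torsionBy ℤ (E⁄Qb).Point q) := by
    refine Nat.card_le_card_of_injective (fun P => ⟨P.1, ?_⟩)
      fun P Q e => Subtype.ext (congrArg (fun R : Submodule.torsionBy ℤ (E⁄Qb).Point q => R.1) e)
    have hP := (Submodule.mem_torsionBy_iff _ _).mp P.2
    have hP' : (q : ℤ) • (q : ℤ) • P.1 = 0 := by
      rw [← mul_smul, show (q : ℤ) * q = ((q ^ 2 : ℕ) : ℤ) by push_cast; ring]
      exact hP
    have h1 : (q : ℤ) • M P.1 = 0 := by rw [← map_zsmul, hkill _ hP']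
    have h2 := hkill _ h1
    rw [hMM, neg_smul, neg_eq_zero] at h2
    exact (Submodule.mem_torsionBy_iff _ _).mpr h2
  rw [FA.EC.natCard_torsion E hq.ne_zero,
    FA.EC.natCard_torsion E (pow_ne_zero 2 hq.ne_zero)] at hle
  have : q ^ 2 < (q ^ 2) ^ 2 := by
    have := Nat.one_lt_pow two_ne_zero hq.one_lt
    nlinarith
  omega

/-- Inertia at a good prime `l ≠ q` is trivial on `E[q]`. -/
theorem rep_eq_one_of_inertia {l : ℕ} (hl : l.Prime) (hlq : l ≠ q) (hgood : ¬ (l : ℤ) ∣ W.Δ)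
    {A : ValuationSubring Qb} (hA : A.LiesOverPrime l) {σ : GQ} (hσ : σ ∈ A.inertiaSubgroupIn ℚ)
    (P : Submodule.torsionBy ℤ (E⁄Qb).Point q) : σ • P = P := by
  obtain ⟨C, hC⟩ := hW
  haveI := ratCurve_isElliptic W hgood
  obtain ⟨Q, rfl⟩ := (torsionEquiv C hC q).surjective P
  have hQ : σ • Q = Q := sub_eq_zero.mp (Subtype.ext (eq_zero_of_e1_of_ne hl hA (Ne.symm hlq)
    ((FA.Local.inert_of_mem_inertiaSubgroupIn A hσ).e1_smul_sub_of_good (ratCurve W)
      (intCoeff_ratCurve W A) (valuation_Δ_ratCurve W hl hA hgood) Q.1)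
    (nsmul_torsion (σ • Q - Q))))
  refine Subtype.ext ?_
  show σ • pointEquiv C hC Q.1 = pointEquiv C hC Q.1
  rw [← pointEquiv_smul]
  exact congrArg (pointEquiv C hC) (congrArg Subtype.val hQ)

/-- **The traces** from a square root of `-q` on the points, for a curve with good reduction outside
the prime `q ≡ 3 (mod 4)`. -/
theorem traces_of_endo (hq4 : q % 4 = 3)
    (hgood : ∀ l : ℕ, l.Prime → l ≠ q → ¬ (l : ℤ) ∣ W.Δ) {s : Qb} (hs : s ^ 2 = -(q : Qb))
    (hMM : ∀ P, M (M P) = (-(q : ℤ)) • P)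
    (hfix : ∀ σ : GQ, σ s = s → ∀ P, σ • M P = M (σ • P))
    (hflip : ∀ σ : GQ, σ s = -s → ∀ P, σ • M P = -M (σ • P)) :
    ∀ l : ℕ, l.Prime → l ≠ q → l ≠ 2 → (¬ IsSquare (-(q : ZMod l)) → W.apOfModel l = 0) ∧
      (IsSquare (-(q : ZMod l)) →
        (∃ b : ℤ, 4 * (l : ℤ) = W.apOfModel l ^ 2 + (q : ℤ) * b ^ 2) ∧
          quadraticChar (ZMod q) (W.apOfModel l : ZMod q) = quadraticChar (ZMod q) 2) := by
  have hq := hqf.out
  have hV := FA.EC.finrank_torsion E q
  set N := torsEnd E M q with hN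
  have hNN : ∀ v, N (N v) = 0 := fun v => by
    rw [torsEnd_torsEnd hMM]
    push_cast [ZMod.natCast_self]
    simp
  -- the stable line and its character
  obtain ⟨v, hv, hNv, hspan⟩ := exists_kernel_generator hV (torsEnd_ne_zero hMM) hNN
  have hline : ∀ σ : GQ, ∃ c : ZMod q, c • v = (torsRep E q σ) v := fun σ => by
    refine hspan _ (Subtype.ext ?_)
    show M (σ • v.1) = 0
    have h1 : σ • M v.1 = 0 := by
      rw [show M v.1 = 0 from congrArg Subtype.val hNv]
      exact DistribMulAction.smul_zero σ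
    rcases apply_sqrt hs σ with h | h
    · rw [← hfix σ h, h1]
    · rw [← neg_eq_zero, ← hflip σ h, h1]
  choose χ hχ using hline
  let f : GQ →* ZMod q :=
    { toFun := χ
      map_one' := smul_left_injective (ZMod q) hv (by simp only [hχ, map_one, one_smul]; rfl)
      map_mul' := fun σ τ => smul_left_injective (ZMod q) hv (by
        simp only [hχ, map_mul, Module.End.mul_apply]
        rw [← hχ τ, map_smul, ← hχ σ, smul_smul, mul_comm]) }
  let η : GQ →* ℤˣ := ((quadraticChar (ZMod q)).toMonoidHom.comp f).toHomUnits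
  have hη : ∀ σ, ((η σ : ℤˣ) : ℤ) = quadraticChar (ZMod q) (χ σ) := fun σ => rfl
  have hker : ∀ σ : GQ, torsRep E q σ = 1 → η σ = 1 := fun σ h => by
    refine Units.ext ?_
    rw [hη, Units.val_one, smul_left_injective (ZMod q) hv (a₁ := χ σ) (a₂ := 1)
      (by simp only [hχ, h, one_smul]; rfl), map_one]
  have hopen : IsOpen (η.ker : Set GQ) := by
    obtain ⟨L, hL, h⟩ := FA.EC.galoisFactorsThroughFiniteLevel E (n := q) hq.ne_zero
    exact Subgroup.isOpen_mono (H₁ := L.fixingSubgroup) (fun σ hσ => hker σ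
      (h σ ((IntermediateField.mem_fixingSubgroup_iff _ _).mp hσ)))
      (IntermediateField.fixingSubgroup_isOpen L)
  have heta : ∀ σ : GQ, σ s = s → η σ = 1 := fun σ hσ =>
    quadChar_eq_one hq hq4 η hopen (fun l hl hlq A hA τ hτ => hker τ
      (LinearMap.ext fun P => rep_eq_one_of_inertia hW hl hlq (hgood l hl hlq) hA hτ P)) hs hσ
  -- the primes
  intro l hl hlq hl2
  obtain ⟨A, hA⟩ := FA.Deform.exists_liesOverPrime hl
  obtain ⟨σ, hσ⟩ := FA.Deform.exists_isFrobeniusAt hl hA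
  have hg := hgood l hl hlq
  refine ⟨fun h => apOfModel_eq_zero hW hl hg hA hσ hMM (hflip σ ?_), fun hsq => ?_⟩
  · exact (apply_sqrt hs σ).resolve_left fun e =>
      h ((frobenius_fix_iff hq hl hl2 hlq hA hσ hs).mp e)
  have hfixs : σ s = s := (frobenius_fix_iff hq hl hl2 hlq hA hσ hs).mpr hsq
  obtain ⟨ha, hb⟩ := eq_of_commute_nilpotent hV
    (charpoly_galoisRep_of_model hW hl hg (p := q) (Ne.symm hlq) hA hσ) (N := N)
    (fun P => Subtype.ext (hfix σ hfixs P.1)) hv hspan hNN (hχ σ).symm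
  have := Fact.mk hl
  haveI : (W.reductionMod l).IsElliptic := ⟨by
    rw [reductionMod, WeierstrassCurve.map_Δ]
    exact (Ne.isUnit fun h => hg ((ZMod.intCast_zmod_eq_zero_iff_dvd _ l).mp h))⟩
  refine ⟨FA.CM.PrimeSymbols.exists_four_mul_eq (p := q) hq4
    (FA.HasseBound.traceOfFrobenius_sq_le (W.reductionMod l)) ?_
    fun m _ hml hm2 hns hsqm => disc_dvd hW hl hg hA hσ hMM (hfix σ hfixs) hml hm2 hns hsqm, ?_⟩
  · show (q : ℤ) ∣ 4 * (l : ℤ) - W.apOfModel l ^ 2
    rw [← ZMod.intCast_zmod_eq_zero_iff_dvd]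
    push_cast
    rw [ha, hb]
    ring
  · rw [ha, map_mul, ← hη σ, heta σ hfixs, Units.val_one, mul_one]

/-- **The law of the traces**: for `q ≡ 3 (mod 8)` the prime `2` is inert. -/
theorem traceLaw_of_endo (hq8 : q % 8 = 3)
    (hgood : ∀ l : ℕ, l.Prime → l ≠ q → ¬ (l : ℤ) ∣ W.Δ) {s : Qb} (hs : s ^ 2 = -(q : Qb))
    (hMM : ∀ P, M (M P) = (-(q : ℤ)) • P)
    (hfix : ∀ σ : GQ, σ s = s → ∀ P, σ • M P = M (σ • P))
    (hflip : ∀ σ : GQ, σ s = -s → ∀ P, σ • M P = -M (σ • P)) : TraceLaw q W := fun l hl hlq => by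
  refine ⟨fun h => ?_, fun hl2 hsq =>
    (traces_of_endo hW (by omega) hgood hs hMM hfix hflip l hl hlq hl2).2 hsq⟩
  rcases eq_or_ne l 2 with rfl | hl2
  · obtain ⟨A, hA⟩ := FA.Deform.exists_liesOverPrime hl
    obtain ⟨σ, hσ⟩ := FA.Deform.exists_isFrobeniusAt hl hA
    exact apOfModel_eq_zero hW hl (hgood 2 hl hlq) hA hσ hMM
      (hflip σ (frobenius_two_neg hq8 hA hσ hs))
  · exact (traces_of_endo hW (by omega) hgood hs hMM hfix hflip l hl hlq hl2).1
      (h.resolve_left hl2)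

end law

end FA.CM.ClassOne

end
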