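import Mathlib.NumberTheory.GaussSum
import Mathlib.NumberTheory.LegendreSymbol.QuadraticChar.GaussSum
import Mathlib.NumberTheory.Wilson
import Mathlib.NumberTheory.LegendreSymbol.Basic
import Mathlib.RingTheory.Polynomial.Cyclotomic.Roots
import Mathlib.RingTheory.Polynomial.Cyclotomic.Basic
import Mathlib.RingTheory.Polynomial.Pochhammer
import Mathlib.Algebra.Polynomial.Taylor
import Mathlib.Analysis.SpecialFunctions.Complex.CircleAddChar
import Mathlib.RingTheory.RootsOfUnity.Lemmas
import Mathlib.Data.Nat.Factorial.BigOperators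
import Mathlib.Analysis.SpecialFunctions.Trigonometric.Basic
import Mathlib.FieldTheory.Finite.Basic

/-!
# The sign of the quadratic Gauss sum

Kronecker's argument, for a prime `q = 2 m + 1`: the sum and `∏ (ζ^k - ζ^(-k))`, `1 ≤ k ≤ m`, have
the square `(-1)^m q`; their expansions at `ζ = 1` modulo `q` tell that their quotient is the symbol
of `-2`, and the product is `i^m` times a positive number.
-/

set_option autoImplicit false

noncomputable section

open Polynomial Complex Finset
open scoped Nat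

namespace FA.CM.ClassOne.GaussSign

variable (q : ℕ) [hqf : Fact q.Prime]

/-- The sum as a polynomial. -/
def sumPoly : ℤ[X] := ∑ j ∈ range q, C (quadraticChar (ZMod q) (j : ZMod q)) * X ^ j

/-- The product as a polynomial. -/
def prodPoly : ℤ[X] := ∏ k ∈ Icc 1 (q / 2), (X ^ k - X ^ (q - k))

/-- The product. -/
def halfProd : ℂ :=
  ∏ k ∈ Icc 1 (q / 2), (ZMod.stdAddChar (k : ZMod q) - ZMod.stdAddChar (-(k : ZMod q)))

variable {q}

theorem stdAddChar_natCast (j : ℕ) :
    ZMod.stdAddChar (j : ZMod q) = Complex.exp (2 * Real.pi * I / q) ^ j := by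
  rw [← Complex.exp_nat_mul, ← Int.cast_natCast (R := ZMod q) j, ZMod.stdAddChar_coe]
  congr 1
  push_cast
  ring

theorem aeval_prodPoly :
    aeval (Complex.exp (2 * Real.pi * I / q)) (prodPoly q) = halfProd q := by
  rw [prodPoly, map_prod, halfProd]
  refine Finset.prod_congr rfl fun k hk => ?_
  have hk' : k ≤ q := by
    have := (Finset.mem_Icc.mp hk).2; omega
  rw [map_sub, map_pow, map_pow, aeval_X, ← stdAddChar_natCast, ← stdAddChar_natCast,
    Nat.cast_sub hk', ZMod.natCast_self, zero_sub]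

theorem aeval_sumPoly :
    aeval (Complex.exp (2 * Real.pi * I / q)) (sumPoly q) =
      ∑ x : ZMod q, (quadraticChar (ZMod q) x : ℂ) * ZMod.stdAddChar x := by
  rw [sumPoly, map_sum]
  refine Finset.sum_nbij' (fun j => (j : ZMod q)) ZMod.val (fun j _ => Finset.mem_univ _)
    (fun x _ => Finset.mem_range.mpr x.val_lt)
    (fun j hj => ZMod.val_natCast_of_lt (Finset.mem_range.mp hj))
    (fun x _ => ZMod.natCast_zmod_val x) fun j _ => ?_
  rw [map_mul, map_pow, aeval_X, stdAddChar_natCast]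
  simp

/-- The product is `i ^ (q / 2)` times a positive number. -/
theorem halfProd_eq (hq2 : q % 2 = 1) :
    ∃ r : ℝ, 0 < r ∧ halfProd q = I ^ (q / 2) * r := by
  refine ⟨∏ k ∈ Icc 1 (q / 2), 2 * Real.sin (2 * Real.pi * k / q),
    Finset.prod_pos fun k hk => ?_, ?_⟩
  · obtain ⟨h1, h2⟩ := Finset.mem_Icc.mp hk
    have hq : (0 : ℝ) < q := Nat.cast_pos.mpr hqf.out.pos
    have hk1 : (1 : ℝ) ≤ k := by exact_mod_cast h1
    refine mul_pos two_pos (Real.sin_pos_of_pos_of_lt_pi (by positivity) ?_)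
    rw [div_lt_iff₀ hq]
    have : (2 : ℝ) * k < q := by exact_mod_cast (show 2 * k < q by omega)
    nlinarith [Real.pi_pos]
  have hterm : ∀ k ∈ Icc 1 (q / 2), ZMod.stdAddChar (k : ZMod q) -
      ZMod.stdAddChar (-(k : ZMod q)) = I * ((2 * Real.sin (2 * Real.pi * k / q) : ℝ) : ℂ) := by
    intro k _
    rw [AddChar.map_neg_eq_inv, ← Int.cast_natCast (R := ZMod q) k, ZMod.stdAddChar_coe,
      ← Complex.exp_neg]
    rw [show (2 * (Real.pi : ℂ) * I * ((k : ℤ) : ℂ) / q) =
        ((2 * Real.pi * k / q : ℝ) : ℂ) * I by push_cast; ring,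
      ← neg_mul, Complex.exp_mul_I, Complex.exp_mul_I, Complex.cos_neg, Complex.sin_neg]
    push_cast
    ring
  rw [halfProd, Finset.prod_congr rfl hterm, Finset.prod_mul_distrib, Finset.prod_const,
    Nat.card_Icc, Complex.ofReal_prod]
  congr 1

/-- The square of the product. -/
theorem halfProd_sq (hq2 : q % 2 = 1) : halfProd q ^ 2 = (-1) ^ (q / 2) * (q : ℂ) := by
  classical
  have hq := hqf.out
  have h3 : 3 ≤ q := by have := hq.two_le; omega
  set f : ZMod q → ℂ := fun x => 1 - ZMod.stdAddChar x with hf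
  have h2 : (2 : ZMod q) ≠ 0 := by
    intro e
    have e' : ((2 : ℕ) : ZMod q) = 0 := by exact_mod_cast e
    have := Nat.le_of_dvd two_pos ((ZMod.natCast_eq_zero_iff 2 q).mp e')
    omega
  have hne : ∀ a : ℕ, 0 < a → a < q → (a : ZMod q) ≠ 0 := fun a h1 h3 e => by
    have := Nat.le_of_dvd h1 ((ZMod.natCast_eq_zero_iff a q).mp e); omega
  set S := (Icc 1 (q / 2)).image fun k : ℕ => 2 * (k : ZMod q) with hS
  have hinj : Set.InjOn (fun k : ℕ => 2 * (k : ZMod q)) (Icc 1 (q / 2) : Finset ℕ) := by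
    intro a ha b hb e
    simp only [Finset.coe_Icc, Set.mem_Icc] at ha hb
    have e1 := mul_left_cancel₀ h2 e
    rw [ZMod.natCast_eq_natCast_iff', Nat.mod_eq_of_lt (by omega),
      Nat.mod_eq_of_lt (by omega)] at e1
    exact e1
  have hdisj : Disjoint S (S.image fun x => -x) := by
    rw [Finset.disjoint_left]
    intro x hx hx'
    simp only [hS, Finset.mem_image, Finset.mem_Icc] at hx hx'
    obtain ⟨a, ha, rfl⟩ := hx
    obtain ⟨y, ⟨b, hb, rfl⟩, e⟩ := hx'
    refine hne (a + b) (by omega) (by omega) (mul_left_cancel₀ h2 ?_)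
    push_cast
    linear_combination -e
  have hsub : S ∪ S.image (fun x => -x) ⊆ (Finset.univ : Finset (ZMod q)).erase 0 := by
    intro x hx
    refine Finset.mem_erase.mpr ⟨?_, Finset.mem_univ _⟩
    simp only [hS, Finset.mem_union, Finset.mem_image, Finset.mem_Icc] at hx
    rcases hx with ⟨a, ha, rfl⟩ | ⟨_, ⟨a, ha, rfl⟩, rfl⟩
    · exact mul_ne_zero h2 (hne a (by omega) (by omega))
    · exact neg_ne_zero.mpr (mul_ne_zero h2 (hne a (by omega) (by omega)))
  have hcard : S.card = q / 2 := by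
    rw [hS, Finset.card_image_of_injOn hinj, Nat.card_Icc]; omega
  have hU : S ∪ S.image (fun x => -x) = (Finset.univ : Finset (ZMod q)).erase 0 := by
    refine Finset.eq_of_subset_of_card_le hsub ?_
    rw [Finset.card_erase_of_mem (Finset.mem_univ _), Finset.card_univ, ZMod.card,
      Finset.card_union_of_disjoint hdisj, Finset.card_image_of_injective _ neg_injective, hcard]
    omega
  have hall : ∏ x ∈ (Finset.univ : Finset (ZMod q)).erase 0, f x = (q : ℂ) := by
    have hprim := Complex.isPrimitiveRoot_exp q hq.ne_zero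
    rw [show q = q - 1 + 1 by have := hq.pos; omega] at hprim
    rw [show (q : ℂ) = (((q - 1 : ℕ) : ℕ) : ℂ) + 1 by
      rw [← Nat.cast_add_one, Nat.sub_add_cancel hq.pos], ← hprim.prod_one_sub_pow_eq_order]
    refine Finset.prod_nbij' (fun x => x.val - 1) (fun k => ((k + 1 : ℕ) : ZMod q))
      (fun x hx => ?_) (fun k hk => ?_) (fun x hx => ?_) (fun k hk => ?_) (fun x hx => ?_)
    · have := x.val_lt
      have : x.val ≠ 0 := fun e => (Finset.mem_erase.mp hx).1 ((ZMod.val_eq_zero x).mp e)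
      exact Finset.mem_range.mpr (by omega)
    · exact Finset.mem_erase.mpr
        ⟨hne _ (Nat.succ_pos k) (by have := Finset.mem_range.mp hk; omega), Finset.mem_univ _⟩
    · have : x.val ≠ 0 := fun e => (Finset.mem_erase.mp hx).1 ((ZMod.val_eq_zero x).mp e)
      show ((x.val - 1 + 1 : ℕ) : ZMod q) = x
      rw [Nat.sub_add_cancel (by omega)]
      exact ZMod.natCast_zmod_val x
    · show ((k + 1 : ℕ) : ZMod q).val - 1 = k
      rw [ZMod.val_natCast_of_lt (by have := Finset.mem_range.mp hk; omega), Nat.add_sub_cancel]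
    · have : x.val ≠ 0 := fun e => (Finset.mem_erase.mp hx).1 ((ZMod.val_eq_zero x).mp e)
      simp only [hf]
      conv_lhs => rw [← ZMod.natCast_zmod_val x, stdAddChar_natCast]
      rw [show x.val - 1 + 1 = x.val by omega, Nat.sub_add_cancel hq.pos]
  have hterm : ∀ k : ℕ, (ZMod.stdAddChar (k : ZMod q) - ZMod.stdAddChar (-(k : ZMod q))) ^ 2 =
      -(f (2 * (k : ZMod q)) * f (-(2 * (k : ZMod q)))) := by
    intro k
    simp only [hf]
    rw [two_mul, neg_add, AddChar.map_add_eq_mul, AddChar.map_add_eq_mul,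
      AddChar.map_neg_eq_inv]
    have he : ZMod.stdAddChar (k : ZMod q) ≠ 0 := (AddChar.val_isUnit _ _).ne_zero
    field_simp
    ring
  rw [halfProd, ← Finset.prod_pow, Finset.prod_congr rfl fun k _ => hterm k, Finset.prod_neg,
    Nat.card_Icc, Finset.prod_mul_distrib, Nat.add_sub_cancel]
  congr 1
  rw [← hall, ← hU, Finset.prod_union hdisj, hS, Finset.prod_image hinj,
    Finset.prod_image fun x _ y _ e => neg_injective e, Finset.prod_image hinj]

omit hqf in
/-- The leading coefficient of a product of polynomials without constant term. -/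
theorem coeff_card_prod {R ι : Type*} [CommRing R] (s : Finset ι) (p : ι → R[X])
    (h : ∀ i ∈ s, (p i).coeff 0 = 0) :
    (∏ i ∈ s, p i).coeff s.card = ∏ i ∈ s, (p i).coeff 1 := by
  have e : ∀ i ∈ s, p i = (p i).divX * X := fun i hi => by
    conv_lhs => rw [← divX_mul_X_add (p i), h i hi, map_zero, add_zero]
  rw [Finset.prod_congr rfl e, Finset.prod_mul_distrib, Finset.prod_const, coeff_mul_X_pow',
    if_pos le_rfl, Nat.sub_self, coeff_zero_prod]
  exact Finset.prod_congr rfl fun i hi => by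
    rw [coeff_divX, zero_add]

/-- The expansion of the product at one modulo `q`. -/
theorem taylor_prodPoly (hq2 : q % 2 = 1) :
    (taylor 1 ((prodPoly q).map (Int.castRingHom (ZMod q)))).coeff (q / 2) =
      2 ^ (q / 2) * ((q / 2)! : ZMod q) := by
  have hc : (Icc 1 (q / 2)).card = q / 2 := by rw [Nat.card_Icc]; omega
  rw [prodPoly, Polynomial.map_prod, ← taylorAlgHom_apply, map_prod]
  conv_lhs => arg 2; rw [← hc]
  rw [coeff_card_prod _ _ fun k _ => by simp [coeff_zero_eq_eval_zero]]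
  rw [← Finset.prod_Ico_id_eq_factorial, Nat.cast_prod]
  conv_rhs => rw [← hc, ← Finset.prod_const]
  rw [show Finset.Ico 1 ((Icc 1 (q / 2)).card + 1) = Icc 1 (q / 2) by
    rw [hc]; ext; simp, ← Finset.prod_mul_distrib]
  refine Finset.prod_congr rfl fun k hk => ?_
  have hk' : k ≤ q := by have := (Finset.mem_Icc.mp hk).2; omega
  rw [taylorAlgHom_apply, taylor_coeff_one]
  simp [derivative_X_pow, Nat.cast_sub hk']
  ring

/-- The expansion of the sum at one modulo `q`. -/
theorem taylor_sumPoly (hq2 : q % 2 = 1) :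
    ((q / 2)! : ZMod q) *
      (taylor 1 ((sumPoly q).map (Int.castRingHom (ZMod q)))).coeff (q / 2) = -1 := by
  classical
  have h3 : 3 ≤ q := by have := hqf.out.two_le; omega
  have h2 : ringChar (ZMod q) ≠ 2 := by rw [ZMod.ringChar_zmod_n]; omega
  rw [taylor_coeff, sumPoly, Polynomial.map_sum, map_sum, eval_finsetSum, Finset.mul_sum]
  have hterm : ∀ j ∈ range q, ((q / 2)! : ZMod q) * eval 1 (hasseDeriv (q / 2)
      (map (Int.castRingHom (ZMod q)) (C (quadraticChar (ZMod q) (j : ZMod q)) * X ^ j))) =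
      eval (j : ZMod q) (X ^ (q / 2) * descPochhammer (ZMod q) (q / 2)) := by
    intro j _
    rw [Polynomial.map_mul, map_C, Polynomial.map_pow, map_X, C_mul_X_pow_eq_monomial,
      hasseDeriv_monomial, eval_monomial, one_pow, mul_one, eval_mul, eval_pow, eval_X,
      descPochhammer_eval_eq_descFactorial, Nat.descFactorial_eq_factorial_mul_choose,
      eq_intCast]
    have hchi := quadraticChar_eq_pow_of_char_ne_two' h2 (j : ZMod q)
    rw [ZMod.card] at hchi
    rw [hchi]
    push_cast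
    ring
  rw [Finset.sum_congr rfl hterm]
  refine (Finset.sum_nbij' (t := (Finset.univ : Finset (ZMod q)))
    (g := fun x => eval x (X ^ (q / 2) * descPochhammer (ZMod q) (q / 2)))
    (fun j : ℕ => (j : ZMod q)) (fun x : ZMod q => x.val) (fun j _ => Finset.mem_univ _)
    (fun x _ => Finset.mem_range.mpr x.val_lt)
    (fun j hj => ZMod.val_natCast_of_lt (Finset.mem_range.mp hj))
    (fun x _ => ZMod.natCast_zmod_val x) fun j _ => rfl).trans ?_
  set P := descPochhammer (ZMod q) (q / 2) with hP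
  have hdeg : P.natDegree = q / 2 := descPochhammer_natDegree (ZMod q) _
  have hm : P.coeff (q / 2) = 1 := by
    conv_lhs => rw [← hdeg]
    exact (monic_descPochhammer (ZMod q) (q / 2)).coeff_natDegree
  simp only [eval_mul, eval_pow, eval_X]
  simp only [eval_eq_sum_range, hdeg, Finset.mul_sum]
  rw [Finset.sum_comm, Finset.sum_range_succ, Finset.sum_eq_zero fun i hi => ?_, zero_add]
  · rw [hm]
    simp only [one_mul, ← pow_add]
    rw [show q / 2 + q / 2 = Fintype.card (ZMod q) - 1 by rw [ZMod.card]; omega]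
    rw [← Finset.add_sum_erase Finset.univ _ (Finset.mem_univ (0 : ZMod q)),
      zero_pow (by rw [ZMod.card]; omega), zero_add, Finset.sum_congr rfl fun x hx =>
        FiniteField.pow_card_sub_one_eq_one x (Finset.mem_erase.mp hx).1,
      Finset.sum_const, Finset.card_erase_of_mem (Finset.mem_univ _), Finset.card_univ, ZMod.card,
      nsmul_eq_mul, mul_one, Nat.cast_sub hqf.out.pos, ZMod.natCast_self, Nat.cast_one, zero_sub]
  · rw [Finset.sum_congr rfl fun x _ => show x ^ (q / 2) * (P.coeff i * x ^ i) =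
      P.coeff i * x ^ (q / 2 + i) by ring, ← Finset.mul_sum,
      FiniteField.sum_pow_lt_card_sub_one _ _ (by
        rw [ZMod.card]; have := Finset.mem_range.mp hi; omega), mul_zero]

/-- **The sign of the Gauss sum**: it is the symbol of `-2` times `i ^ (q / 2) √q`. -/
theorem gauss_sum_sign (hq2 : q % 2 = 1) :
    ∑ x : ZMod q, (quadraticChar (ZMod q) x : ℂ) * ZMod.stdAddChar x =
      (quadraticChar (ZMod q) (-2) : ℂ) * (I ^ (q / 2) * (Real.sqrt q : ℝ)) := by
  classical
  have hq := hqf.out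
  have h3 : 3 ≤ q := by have := hq.two_le; omega
  have h2 : ringChar (ZMod q) ≠ 2 := by rw [ZMod.ringChar_zmod_n]; omega
  set G := ∑ x : ZMod q, (quadraticChar (ZMod q) x : ℂ) * ZMod.stdAddChar x with hG
  have hG2 : G ^ 2 = (-1) ^ (q / 2) * (q : ℂ) := by
    have h := gaussSum_sq (χ := (quadraticChar (ZMod q)).ringHomComp (Int.castRingHom ℂ)) ?_
      ((quadraticChar_isQuadratic (ZMod q)).comp _) (ZMod.isPrimitive_stdAddChar q)
    · have hm1 : quadraticChar (ZMod q) (-1) = (-1) ^ (q / 2) := by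
        rw [quadraticChar_neg_one h2, ZMod.card, ZMod.χ₄_eq_neg_one_pow hq2]
      simp only [gaussSum, MulChar.ringHomComp_apply, eq_intCast, hm1, ZMod.card] at h
      rw [hG, h]
      simp
    · exact (MulChar.ringHomComp_ne_one_iff Int.cast_injective).mpr
        (quadraticChar_ne_one h2)
  obtain ⟨r, hr, hP⟩ := halfProd_eq hq2
  have hr2 : (r : ℂ) ^ 2 = q := by
    have := halfProd_sq hq2
    rw [hP, mul_pow, ← pow_mul, mul_comm (q / 2), pow_mul, I_sq] at this
    exact mul_left_cancel₀ (pow_ne_zero _ (neg_ne_zero.mpr one_ne_zero)) this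
  have hrq : r = Real.sqrt q := by
    have : r ^ 2 = (q : ℝ) := by exact_mod_cast hr2
    rw [← this, Real.sqrt_sq hr.le]
  rw [← hrq, ← hP]
  obtain ⟨ε, hε, e⟩ : ∃ ε : ℤ, (ε = 1 ∨ ε = -1) ∧ G = (ε : ℂ) * halfProd q := by
    rcases sq_eq_sq_iff_eq_or_eq_neg.mp (hG2.trans (halfProd_sq hq2).symm) with e | e
    · exact ⟨1, Or.inl rfl, by simpa using e⟩
    · exact ⟨-1, Or.inr rfl, by simpa using e⟩
  set ζ := Complex.exp (2 * Real.pi * I / q)
  have hprim : IsPrimitiveRoot ζ q := Complex.isPrimitiveRoot_exp q hq.ne_zero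
  have hroot : aeval ζ (sumPoly q - C ε * prodPoly q) = 0 := by
    rw [map_sub, map_mul, aeval_C, aeval_sumPoly, aeval_prodPoly, ← hG, e]
    simp
  have hdvd : cyclotomic q ℤ ∣ sumPoly q - C ε * prodPoly q := by
    rw [cyclotomic_eq_minpoly hprim hq.pos]
    exact minpoly.isIntegrallyClosed_dvd (hprim.isIntegral hq.pos) hroot
  set F := taylor 1 ((sumPoly q - C ε * prodPoly q).map (Int.castRingHom (ZMod q))) with hF
  have hX : X ^ (q - 1) ∣ F := by
    have h1 : (X - 1 : (ZMod q)[X]) ^ (q - 1) ∣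
        (sumPoly q - C ε * prodPoly q).map (Int.castRingHom (ZMod q)) := by
      refine dvd_trans (Eq.dvd ?_) (Polynomial.map_dvd (Int.castRingHom (ZMod q)) hdvd)
      rw [map_cyclotomic]
      refine mul_left_cancel₀ (X_sub_C_ne_zero (1 : ZMod q)) ?_
      rw [map_one, ← pow_succ', Nat.sub_add_cancel hq.pos, sub_pow_char, one_pow,
        mul_comm, cyclotomic_prime_mul_X_sub_one]
    obtain ⟨c, hc⟩ := h1
    refine ⟨taylor 1 c, ?_⟩
    rw [hF, hc, ← taylorAlgHom_apply, map_mul, map_pow, taylorAlgHom_apply, taylorAlgHom_apply]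
    congr 2
    simp [taylor_X, taylor_one]
  have hcoef : F.coeff (q / 2) = 0 := by
    obtain ⟨c, hc⟩ := hX
    rw [hc, coeff_X_pow_mul', if_neg (by omega)]
  rw [hF, Polynomial.map_sub, Polynomial.map_mul, map_C, map_sub, coeff_sub, ← taylorAlgHom_apply,
    ← taylorAlgHom_apply, map_mul, taylorAlgHom_apply, taylorAlgHom_apply, taylorAlgHom_apply,
    taylor_C, coeff_C_mul, taylor_prodPoly hq2, eq_intCast] at hcoef
  have hS := taylor_sumPoly (q := q) hq2
  have hw : ((q / 2)! : ZMod q) ^ 2 * (-1) ^ (q / 2) = -1 := by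
    have hwil := ZMod.wilsons_lemma q
    have hsplit : ((q - 1)! : ℕ) = (q / 2)! * (q / 2 + 1).ascFactorial (q / 2) := by
      rw [Nat.factorial_mul_ascFactorial]; congr 1; omega
    rw [hsplit, Nat.cast_mul, Nat.ascFactorial_eq_prod_range, Nat.cast_prod] at hwil
    have key : ∏ i ∈ range (q / 2), ((q / 2 + 1 + i : ℕ) : ZMod q) =
        ((q / 2)! : ZMod q) * (-1) ^ (q / 2) := by
      rw [← Finset.prod_range_add_one_eq_factorial, Nat.cast_prod,
        show (-1 : ZMod q) ^ (q / 2) = ∏ _i ∈ range (q / 2), (-1 : ZMod q) by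
          rw [Finset.prod_const, Finset.card_range],
        ← Finset.prod_mul_distrib]
      conv_rhs => rw [← Finset.prod_range_reflect]
      refine Finset.prod_congr rfl fun i hi => ?_
      have hi' := Finset.mem_range.mp hi
      have h0 : ((q / 2 - 1 - i + 1 + (q / 2 + 1 + i) : ℕ) : ZMod q) = 0 := by
        rw [show q / 2 - 1 - i + 1 + (q / 2 + 1 + i) = q by omega, ZMod.natCast_self]
      push_cast at h0 ⊢
      linear_combination h0
    rw [key] at hwil
    linear_combination hwil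
  have hχ : ((quadraticChar (ZMod q) (-2) : ℤ) : ZMod q) = (-2 : ZMod q) ^ (q / 2) := by
    have h := quadraticChar_eq_pow_of_char_ne_two' h2 (-2 : ZMod q)
    rw [ZMod.card] at h
    exact h
  have hmm : ((-1 : ZMod q) ^ (q / 2)) * (-1) ^ (q / 2) = 1 := by
    rw [← mul_pow]; norm_num
  have hεq : (ε : ZMod q) * ((quadraticChar (ZMod q) (-2) : ℤ) : ZMod q) = 1 := by
    rw [hχ, show (-2 : ZMod q) = -1 * 2 by ring, mul_pow]
    linear_combination ((q / 2)! : ZMod q) * hcoef - hS +
      (ε : ZMod q) * (2 : ZMod q) ^ (q / 2) * (-1) ^ (q / 2) * hw -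
      (ε : ZMod q) * (2 : ZMod q) ^ (q / 2) * ((q / 2)! : ZMod q) ^ 2 * hmm
  suffices ε = quadraticChar (ZMod q) (-2) by rw [e, this]
  have : Fact (2 < q) := ⟨h3⟩
  have hn : (-2 : ZMod q) ≠ 0 := neg_ne_zero.mpr (Ring.two_ne_zero h2)
  rcases hε with rfl | rfl <;> rcases quadraticChar_dichotomy hn with h | h <;> rw [h] at hεq ⊢ <;>
    exact absurd (by simpa using hεq : (-1 : ZMod q) = 1) (ZMod.neg_one_ne_one (n := q))

/-- The case `q ≡ 3 (mod 8)`. -/
theorem quadratic_gauss_sum (hq8 : q % 8 = 3) :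
    ∑ x : ZMod q, (quadraticChar (ZMod q) x : ℂ) * ZMod.stdAddChar x =
      I * (Real.sqrt q : ℝ) := by
  have h2 : ringChar (ZMod q) ≠ 2 := by rw [ZMod.ringChar_zmod_n]; omega
  rw [gauss_sum_sign (by omega), quadraticChar_neg_two h2, ZMod.card,
    ZMod.χ₈'_nat_eq_if_mod_eight, if_neg (by omega), if_pos (Or.inr hq8),
    show q / 2 = 4 * (q / 8) + 1 by omega, pow_succ, pow_mul, I_pow_four]
  simp

end FA.CM.ClassOne.GaussSign

end
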