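import Fermat.Agent.CM.ClassOne.Modular

/-!
# The models with bad reduction only at `43`, `67`, `163`

`y² + y = x³ - 860 x + 9707`, `y² + y = x³ - 7370 x + 243528` and
`y² + y = x³ - 2174420 x + 1234136692` have discriminant `-q³` and `j = -960³`, `-5280³`,
`-640320³`. If they obey the law of the traces, every curve with that `j` is modular.
-/

set_option autoImplicit false

noncomputable section

open WeierstrassCurve CongruenceSubgroup

namespace FA.CM.ClassOne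

/-- The L-functions of the curves with the invariant of a model obeying the law of the traces. -/
theorem form_and_continuation {q : ℕ} [Fact q.Prime] (hq8 : q % 8 = 3) (hq3 : q ≠ 3) {a b : ℤ}
    {j c A' : ℤ} (hΔ : (⟨0, 0, 1, a, b⟩ : WeierstrassCurve ℤ).Δ = -(q : ℤ) ^ 3)
    (h4 : (⟨0, 0, 1, a, b⟩ : WeierstrassCurve ℤ).c₄ = (q : ℤ) * A') (hA : A' ≠ 0)
    (h6 : (⟨0, 0, 1, a, b⟩ : WeierstrassCurve ℤ).c₆ = c) (hc : c ≠ 0) (hj : j = -A' ^ 3)
    (hlaw : TraceLaw q ⟨0, 0, 1, a, b⟩) (E : WeierstrassCurve ℚ) [E.IsElliptic]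
    (hE : E.j = (j : ℚ)) :
    (∃ (N : ℕ) (f : CuspForm (Gamma0 N) 2), 0 < N ∧
      ∀ n : ℕ, (UpperHalfPlane.qExpansion 1 f).coeff n = (E.LFunction n : ℂ)) ∧
    ∃ g : ℂ → ℂ, Differentiable ℂ g ∧ ∀ s : ℂ, 3 / 2 < s.re → E.LSeries s = g s := by
  have hq0 : (q : ℤ) ≠ 0 := Int.natCast_ne_zero.mpr (Fact.out : q.Prime).ne_zero
  have h4' : (q : ℤ) ∣ (⟨0, 0, 1, a, b⟩ : WeierstrassCurve ℤ).c₄ := ⟨A', h4⟩
  have hjE : ((⟨0, 0, 1, a, b⟩ : WeierstrassCurve ℤ).c₄ : ℚ) ^ 3 =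
      E.j * ((⟨0, 0, 1, a, b⟩ : WeierstrassCurve ℤ).Δ : ℚ) := by
    rw [hE, hΔ, h4, hj]; push_cast; ring
  exact ⟨exists_form_of_traceLaw hq8 hq3 hΔ h4' (h4 ▸ mul_ne_zero hq0 hA) (h6 ▸ hc) hlaw E hjE,
    exists_entire_of_traceLaw hq8 hq3 hΔ h4' (h4 ▸ mul_ne_zero hq0 hA) (h6 ▸ hc) hlaw E hjE⟩

/-- The model with multiplication by the integers of `ℚ(√-43)`. -/
theorem forms_fortyThree [Fact (Nat.Prime 43)] (hlaw : TraceLaw 43 ⟨0, 0, 1, -860, 9707⟩)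
    (E : WeierstrassCurve ℚ) [E.IsElliptic] (hj : E.j = -884736000) :
    (∃ (N : ℕ) (f : CuspForm (Gamma0 N) 2), 0 < N ∧
      ∀ n : ℕ, (UpperHalfPlane.qExpansion 1 f).coeff n = (E.LFunction n : ℂ)) ∧
    ∃ g : ℂ → ℂ, Differentiable ℂ g ∧ ∀ s : ℂ, 3 / 2 < s.re → E.LSeries s = g s :=
  form_and_continuation (j := -884736000) (A' := 960) (c := -8387064) (by norm_num) (by norm_num)
    (by norm_num [WeierstrassCurve.Δ, b₂, b₄, b₆, b₈]) (by norm_num [c₄, b₂, b₄]) (by norm_num)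
    (by norm_num [c₆, b₂, b₄, b₆]) (by norm_num) (by norm_num) hlaw E (by rw [hj]; norm_num)

theorem forms_sixtySeven [Fact (Nat.Prime 67)] (hlaw : TraceLaw 67 ⟨0, 0, 1, -7370, 243528⟩)
    (E : WeierstrassCurve ℚ) [E.IsElliptic] (hj : E.j = -147197952000) :
    (∃ (N : ℕ) (f : CuspForm (Gamma0 N) 2), 0 < N ∧
      ∀ n : ℕ, (UpperHalfPlane.qExpansion 1 f).coeff n = (E.LFunction n : ℂ)) ∧
    ∃ g : ℂ → ℂ, Differentiable ℂ g ∧ ∀ s : ℂ, 3 / 2 < s.re → E.LSeries s = g s :=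
  form_and_continuation (j := -147197952000) (A' := 5280) (c := -210408408) (by norm_num)
    (by norm_num) (by norm_num [WeierstrassCurve.Δ, b₂, b₄, b₆, b₈]) (by norm_num [c₄, b₂, b₄])
    (by norm_num) (by norm_num [c₆, b₂, b₄, b₆]) (by norm_num) (by norm_num) hlaw E
    (by rw [hj]; norm_num)

theorem forms_oneSixtyThree [Fact (Nat.Prime 163)]
    (hlaw : TraceLaw 163 ⟨0, 0, 1, -2174420, 1234136692⟩)
    (E : WeierstrassCurve ℚ) [E.IsElliptic] (hj : E.j = -262537412640768000) :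
    (∃ (N : ℕ) (f : CuspForm (Gamma0 N) 2), 0 < N ∧
      ∀ n : ℕ, (UpperHalfPlane.qExpansion 1 f).coeff n = (E.LFunction n : ℂ)) ∧
    ∃ g : ℂ → ℂ, Differentiable ℂ g ∧ ∀ s : ℂ, 3 / 2 < s.re → E.LSeries s = g s :=
  form_and_continuation (j := -262537412640768000) (A' := 640320) (c := -1066294102104)
    (by norm_num) (by norm_num) (by norm_num [WeierstrassCurve.Δ, b₂, b₄, b₆, b₈])
    (by norm_num [c₄, b₂, b₄]) (by norm_num) (by norm_num [c₆, b₂, b₄, b₆]) (by norm_num)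
    (by norm_num) hlaw E (by rw [hj]; norm_num)

end FA.CM.ClassOne

end
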