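import Fermat.Agent.CM.ClassOne.Galois
import Fermat.Agent.CM.ClassOne.Hom
import Fermat.Agent.CM.ClassOne.Models

/-!
# The law of the traces from a square root of `-q`

A model of discriminant `-q³` of a short equation on whose points there is a square root of `-q`,
with Galois acting on it through `√-q`, obeys the law of the traces.
-/

set_option autoImplicit false

noncomputable section

open WeierstrassCurve
open scoped WeierstrassCurve.Affine

namespace FA.CM.ClassOne

/-- A short equation with the invariants of a nonsingular one is nonsingular. -/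
theorem isElliptic_of_invariants {W : WeierstrassCurve ℤ} (hΔ : W.Δ ≠ 0) {E : WeierstrassCurve ℚ}
    {w : ℚ} (h4 : (W.c₄ : ℚ) = w ^ 4 * E.c₄) (h6 : (W.c₆ : ℚ) = w ^ 6 * E.c₆) : E.IsElliptic := by
  refine ⟨isUnit_iff_ne_zero.mpr fun h0 => hΔ ?_⟩
  have h := E.c_relation
  rw [h0, mul_zero] at h
  have hW := congrArg (Int.cast : ℤ → ℚ) W.c_relation
  push_cast at hW
  rw [h4, h6] at hW
  have : (W.Δ : ℚ) = 0 := by linear_combination (hW - w ^ 12 * h) / 1728
  exact_mod_cast this

/-- The law of the traces from a square root of `-q` on a short equation. -/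
theorem traceLaw_of_short {q : ℕ} [Fact q.Prime] (hq8 : q % 8 = 3) {W : WeierstrassCurve ℤ}
    (hΔ : W.Δ = -(q : ℤ) ^ 3) {a b w : ℚ} (hw : w ≠ 0)
    (h4 : (W.c₄ : ℚ) = w ^ 4 * (shortCurve a b).c₄) (h6 : (W.c₆ : ℚ) = w ^ 6 * (shortCurve a b).c₆)
    {s : AlgebraicClosure ℚ} (hs : s ^ 2 = -(q : AlgebraicClosure ℚ))
    (hM : ∃ M : ((shortCurve a b).toAffine⁄(AlgebraicClosure ℚ)).Point →+
        ((shortCurve a b).toAffine⁄(AlgebraicClosure ℚ)).Point,
      (∀ P, M (M P) = -(q : ℤ) • P) ∧ ∀ σ : AlgebraicClosure ℚ ≃ₐ[ℚ] AlgebraicClosure ℚ,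
        (σ s = s → ∀ P, Affine.Point.map σ.toAlgHom (M P) = M (Affine.Point.map σ.toAlgHom P)) ∧
        (σ s = -s → ∀ P,
          Affine.Point.map σ.toAlgHom (M P) = -M (Affine.Point.map σ.toAlgHom P))) :
    TraceLaw q W := by
  have : (shortCurve a b).IsElliptic := isElliptic_of_invariants
    (by rw [hΔ]; exact neg_ne_zero.mpr (pow_ne_zero 3 (Int.natCast_ne_zero.mpr
      (Fact.out : q.Prime).ne_zero))) h4 h6
  obtain ⟨M, h1, h2⟩ := hM
  exact traceLaw_of_endo (FA.Twists.isIntegralModelOf_of_invariants hw h4 h6) hq8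
    (fun l hl hlq => good_of_ne hΔ hl hlq) hs h1 (fun σ => (h2 σ).1) (fun σ => (h2 σ).2)

end FA.CM.ClassOne

end
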