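import Fermat.Agent.CM.ClassOne.Derivation
import Fermat.Agent.CM.ClassOne.Law

/-!
# The generic setting of a short equation

The function field `k(X)[Y] / (Y² - X³ - a X - b)` with `d / dX` and `dx / y` provides what the
endomorphism of a certificate needs, so certificates give the law of the traces.
-/

set_option autoImplicit false

noncomputable section

open WeierstrassCurve
open scoped WeierstrassCurve.Affine

namespace FA.CM.ClassOne

universe u v

variable {K₀ : Type u} [Field K₀] {k : Type v} [Field k] [CharZero k] [IsAlgClosed k]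
  [DecidableEq k] [Algebra K₀ k] (a b : K₀)

variable (k) in
/-- **The function field setting** of `y² = x³ + a x + b`. -/
def genericSetting :
    GenericSetting a b k (FunField (algebraMap K₀ k a) (algebraMap K₀ k b)) where
  d := deriv _ _
  δ := delta (deriv _ _)
  δ_some _ _ h := delta_some _ h
  exists_const _ h := exists_map_eq_of_delta_eq_zero h
  G := gen a b
  δ_G := delta_gen_ne_zero
  exists_embed _ h := exists_algHom_of_delta_ne_zero h
  exists_lift σ := exists_algHom_of_aut σ

/-- **A certificate gives the square root of `-q`** on the points over an algebraically closed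
field of characteristic zero, with the action of Galois on it. -/
theorem exists_sqrt_endo_of_cert [(shortCurve a b).IsElliptic] {q n : ℤ} (hq : q + 1 = 4 * n)
    (hn : n ≠ 0) {s : k} (hs : s ^ 2 = -(q : k)) (c : CertOver a b ((1 + s) / 2)) :
    ∃ M : ((shortCurve a b).toAffine⁄k).Point →+ ((shortCurve a b).toAffine⁄k).Point,
      (∀ P, M (M P) = -q • P) ∧ ∀ σ : k ≃ₐ[K₀] k,
        (σ s = s → ∀ P, Affine.Point.map σ.toAlgHom (M P) = M (Affine.Point.map σ.toAlgHom P)) ∧
        (σ s = -s → ∀ P,
          Affine.Point.map σ.toAlgHom (M P) = -M (Affine.Point.map σ.toAlgHom P)) :=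
  exists_sqrt_endo (genericSetting k a b) hq (Int.cast_ne_zero.mpr hn) hs two_ne_zero c

/-- A certificate for `√-q` itself gives it on the points. -/
theorem exists_sqrt_endo_of_root_cert [(shortCurve a b).IsElliptic] {q : ℤ} (hq : q ≠ 0) {s : k}
    (hs : s ^ 2 = -(q : k)) (c : CertOver a b s) :
    ∃ M : ((shortCurve a b).toAffine⁄k).Point →+ ((shortCurve a b).toAffine⁄k).Point,
      (∀ P, M (M P) = -q • P) ∧ ∀ σ : k ≃ₐ[K₀] k,
        (σ s = s → ∀ P, Affine.Point.map σ.toAlgHom (M P) = M (Affine.Point.map σ.toAlgHom P)) ∧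
        (σ s = -s → ∀ P,
          Affine.Point.map σ.toAlgHom (M P) = -M (Affine.Point.map σ.toAlgHom P)) :=
  exists_sqrt_endo_of_root (genericSetting k a b) (Int.cast_ne_zero.mpr hq) hs c

/-- **Certificates give the law of the traces.** -/
theorem traceLaw_of_certificates {q n : ℕ} [Fact q.Prime] (hq8 : q % 8 = 3) (hqn : q + 1 = 4 * n)
    {W : WeierstrassCurve ℤ} (hΔ : W.Δ = -(q : ℤ) ^ 3) {a b w : ℚ} (hw : w ≠ 0)
    (h4 : (W.c₄ : ℚ) = w ^ 4 * (shortCurve a b).c₄) (h6 : (W.c₆ : ℚ) = w ^ 6 * (shortCurve a b).c₆)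
    (hc : ∀ α : AlgebraicClosure ℚ, α ^ 2 - α + (n : AlgebraicClosure ℚ) = 0 →
      Nonempty (CertOver a b α)) : TraceLaw q W := by
  have : (shortCurve a b).IsElliptic := isElliptic_of_invariants
    (by rw [hΔ]; exact neg_ne_zero.mpr (pow_ne_zero 3 (Int.natCast_ne_zero.mpr
      (Fact.out : q.Prime).ne_zero))) h4 h6
  obtain ⟨s, hs⟩ := IsAlgClosed.exists_pow_nat_eq (-(q : AlgebraicClosure ℚ)) two_pos
  have hn : (q : AlgebraicClosure ℚ) + 1 = 4 * (n : AlgebraicClosure ℚ) := by exact_mod_cast hqn
  obtain ⟨c⟩ := hc ((1 + s) / 2) (by field_simp; linear_combination hs - hn)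
  exact traceLaw_of_short hq8 hΔ hw h4 h6 hs (exists_sqrt_endo_of_cert a b (q := (q : ℤ))
    (n := (n : ℤ)) (by exact_mod_cast hqn) (by exact_mod_cast (show n ≠ 0 by omega))
    (by simpa using hs) c)

end FA.CM.ClassOne

end
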