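import Fermat.Agent.CM.ClassOne.Models
import Fermat.Agent.CM.ClassOne.Setting
import Fermat.Agent.CM.ClassOne.DataFortyThree
import Fermat.Agent.CM.ClassOne.DataSixtySeven
import Fermat.Agent.CM.ClassOne.DataOneSixtyThree

/-!
# Every curve with multiplication by the integers of `ℚ(√-43)`, `ℚ(√-67)`, `ℚ(√-163)` is modular

These are the curves with `j = -960³`, `-5280³`, `-640320³`; all coefficients of their L-functions
are those of twisted theta series of weight two, so their L-series are entire.
-/

set_option autoImplicit false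

noncomputable section

open WeierstrassCurve CongruenceSubgroup

namespace FA.CM.ClassOne

theorem prime_fortyThree : Nat.Prime 43 := by norm_num

theorem prime_sixtySeven : Nat.Prime 67 := by norm_num

theorem prime_oneSixtyThree : Nat.Prime 163 := by norm_num

/-- The law of the traces for `-43`. -/
theorem traceLaw_fortyThree [Fact (Nat.Prime 43)] : TraceLaw 43 ⟨0, 0, 1, -860, 9707⟩ :=
  traceLaw_of_certificates (n := 11) (by norm_num) (by norm_num)
    (by norm_num [WeierstrassCurve.Δ, b₂, b₄, b₆, b₈]) (w := 1 / 2) (by norm_num)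
    (by norm_num [shortCurve, c₄, b₂, b₄])
    (by norm_num [shortCurve, c₆, b₂, b₄, b₆]) certificates_fortyThree

/-- The law of the traces for `-67`. -/
theorem traceLaw_sixtySeven [Fact (Nat.Prime 67)] : TraceLaw 67 ⟨0, 0, 1, -7370, 243528⟩ :=
  traceLaw_of_certificates (n := 17) (by norm_num) (by norm_num)
    (by norm_num [WeierstrassCurve.Δ, b₂, b₄, b₆, b₈]) (w := 1 / 2) (by norm_num)
    (by norm_num [shortCurve, c₄, b₂, b₄])
    (by norm_num [shortCurve, c₆, b₂, b₄, b₆]) certificates_sixtySeven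

/-- The law of the traces for `-163`. -/
theorem traceLaw_oneSixtyThree [Fact (Nat.Prime 163)] :
    TraceLaw 163 ⟨0, 0, 1, -2174420, 1234136692⟩ :=
  traceLaw_of_certificates (n := 41) (by norm_num) (by norm_num)
    (by norm_num [WeierstrassCurve.Δ, b₂, b₄, b₆, b₈]) (w := 1 / 2) (by norm_num)
    (by norm_num [shortCurve, c₄, b₂, b₄])
    (by norm_num [shortCurve, c₆, b₂, b₄, b₆]) certificates_oneSixtyThree

/-- The curves with `j = -960³`. -/
theorem exists_form_fortyThree (E : WeierstrassCurve ℚ) [E.IsElliptic] (hj : E.j = -884736000) :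
    (∃ (N : ℕ) (f : CuspForm (Gamma0 N) 2), 0 < N ∧
      ∀ n : ℕ, (UpperHalfPlane.qExpansion 1 f).coeff n = (E.LFunction n : ℂ)) ∧
    ∃ g : ℂ → ℂ, Differentiable ℂ g ∧ ∀ s : ℂ, 3 / 2 < s.re → E.LSeries s = g s :=
  haveI := Fact.mk prime_fortyThree
  forms_fortyThree traceLaw_fortyThree E hj

/-- The curves with `j = -5280³`. -/
theorem exists_form_sixtySeven (E : WeierstrassCurve ℚ) [E.IsElliptic]
    (hj : E.j = -147197952000) :
    (∃ (N : ℕ) (f : CuspForm (Gamma0 N) 2), 0 < N ∧
      ∀ n : ℕ, (UpperHalfPlane.qExpansion 1 f).coeff n = (E.LFunction n : ℂ)) ∧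
    ∃ g : ℂ → ℂ, Differentiable ℂ g ∧ ∀ s : ℂ, 3 / 2 < s.re → E.LSeries s = g s :=
  haveI := Fact.mk prime_sixtySeven
  forms_sixtySeven traceLaw_sixtySeven E hj

/-- The curves with `j = -640320³`. -/
theorem exists_form_oneSixtyThree (E : WeierstrassCurve ℚ) [E.IsElliptic]
    (hj : E.j = -262537412640768000) :
    (∃ (N : ℕ) (f : CuspForm (Gamma0 N) 2), 0 < N ∧
      ∀ n : ℕ, (UpperHalfPlane.qExpansion 1 f).coeff n = (E.LFunction n : ℂ)) ∧
    ∃ g : ℂ → ℂ, Differentiable ℂ g ∧ ∀ s : ℂ, 3 / 2 < s.re → E.LSeries s = g s :=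
  haveI := Fact.mk prime_oneSixtyThree
  forms_oneSixtyThree traceLaw_oneSixtyThree E hj

end FA.CM.ClassOne

namespace FA.Summary

open FA.CM.ClassOne

/-- **Every curve with multiplication by the ring of integers of `ℚ(√-43)`** is modular: all
coefficients of its L-function are those of a cusp form of weight two. -/
theorem modularity_of_j_eq_neg_884736000 (E : WeierstrassCurve ℚ) [E.IsElliptic]
    (hj : E.j = -884736000) :
    ∃ (N : ℕ) (f : CuspForm (Gamma0 N) 2), 0 < N ∧
      ∀ n : ℕ, (UpperHalfPlane.qExpansion 1 f).coeff n = (E.LFunction n : ℂ) :=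
  (exists_form_fortyThree E hj).1

/-- Its L-series is entire. -/
theorem entire_continuation_of_j_eq_neg_884736000 (E : WeierstrassCurve ℚ) [E.IsElliptic]
    (hj : E.j = -884736000) :
    ∃ g : ℂ → ℂ, Differentiable ℂ g ∧ ∀ s : ℂ, 3 / 2 < s.re → E.LSeries s = g s :=
  (exists_form_fortyThree E hj).2

/-- **Every curve with multiplication by the ring of integers of `ℚ(√-67)`** is modular: all
coefficients of its L-function are those of a cusp form of weight two. -/
theorem modularity_of_j_eq_neg_147197952000 (E : WeierstrassCurve ℚ) [E.IsElliptic]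
    (hj : E.j = -147197952000) :
    ∃ (N : ℕ) (f : CuspForm (Gamma0 N) 2), 0 < N ∧
      ∀ n : ℕ, (UpperHalfPlane.qExpansion 1 f).coeff n = (E.LFunction n : ℂ) :=
  (exists_form_sixtySeven E hj).1

/-- Its L-series is entire. -/
theorem entire_continuation_of_j_eq_neg_147197952000 (E : WeierstrassCurve ℚ) [E.IsElliptic]
    (hj : E.j = -147197952000) :
    ∃ g : ℂ → ℂ, Differentiable ℂ g ∧ ∀ s : ℂ, 3 / 2 < s.re → E.LSeries s = g s :=
  (exists_form_sixtySeven E hj).2

/-- **Every curve with multiplication by the ring of integers of `ℚ(√-163)`** is modular: all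
coefficients of its L-function are those of a cusp form of weight two. -/
theorem modularity_of_j_eq_neg_262537412640768000 (E : WeierstrassCurve ℚ) [E.IsElliptic]
    (hj : E.j = -262537412640768000) :
    ∃ (N : ℕ) (f : CuspForm (Gamma0 N) 2), 0 < N ∧
      ∀ n : ℕ, (UpperHalfPlane.qExpansion 1 f).coeff n = (E.LFunction n : ℂ) :=
  (exists_form_oneSixtyThree E hj).1

/-- Its L-series is entire. -/
theorem entire_continuation_of_j_eq_neg_262537412640768000 (E : WeierstrassCurve ℚ)
    [E.IsElliptic] (hj : E.j = -262537412640768000) :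
    ∃ g : ℂ → ℂ, Differentiable ℂ g ∧ ∀ s : ℂ, 3 / 2 < s.re → E.LSeries s = g s :=
  (exists_form_oneSixtyThree E hj).2

end FA.Summary

end
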