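import Fermat.Agent.CM.ClassOne.Defs
import Fermat.Agent.CM.OddOrder.Weight
import Fermat.Agent.CM.Common

/-!
# Modularity from the law of the traces

For a prime `q ≡ 3 (mod 8)`, `q ≠ 3`, and an equation of discriminant `-q³` with `q ∣ c₄` obeying
the law of the traces, every curve with its `j`-invariant is a quadratic twist of it: the
coefficients of its L-function are those of a twisted theta series of weight two.
-/

set_option autoImplicit false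

noncomputable section

open WeierstrassCurve CongruenceSubgroup FA.Twists FA.CM.OddOrder

namespace FA.CM.ClassOne

variable {q : ℕ} [hq : Fact q.Prime] {n : ℕ} [hn : Fact (q + 1 = 4 * n)]
  {W : WeierstrassCurve ℤ}

theorem good_of_ne (hΔ : W.Δ = -(q : ℤ) ^ 3) {l : ℕ} (hl : l.Prime) (hlq : l ≠ q) :
    ¬ (l : ℤ) ∣ W.Δ := fun h => by
  rw [hΔ, Int.dvd_neg] at h
  have h' : l ∣ q ^ 3 := by exact_mod_cast h
  exact hlq ((Nat.prime_dvd_prime_iff_eq hl hq.out).mp (hl.dvd_of_dvd_pow h'))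

/-- The coefficients of the series satisfy the recursion of the traces. -/
theorem trace_recursion [NeZero n] (hodd : Odd n) (hlaw : TraceLaw q W) {l : ℕ} (hl : l.Prime)
    (hlq : l ≠ q) (k : ℕ) :
    oddCoeff q n (l * k) + (if l ∣ k then (l : ℂ) * oddCoeff q n (k / l) else 0) =
      (W.apOfModel l : ℂ) * oddCoeff q n k := by
  rcases eq_or_ne l 2 with rfl | hl2
  · rw [(hlaw 2 hl hlq).1 (Or.inl rfl), Int.cast_zero, zero_mul]
    exact oddCoeff_inert q hl hlq (Or.inr ⟨rfl, hodd⟩) k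
  by_cases h : IsSquare (-(q : ZMod l))
  · obtain ⟨⟨b, hb⟩, ha⟩ := (hlaw l hl hlq).2 hl2 h
    exact oddCoeff_split q hl hlq hb ha k
  · rw [(hlaw l hl hlq).1 (Or.inr h), Int.cast_zero, zero_mul]
    exact oddCoeff_inert q hl hlq (Or.inl h) k

/-- **The L-function of a twist.** -/
theorem LFunction_twist [NeZero n] (hodd : Odd n) (h2n : 2 ≤ n) (hΔ : W.Δ = -(q : ℤ) ^ 3)
    (hc4 : (q : ℤ) ∣ W.c₄) (hlaw : TraceLaw q W) (E : WeierstrassCurve ℚ) {x : ℚ} {D : ℤ}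
    (hD : Squarefree D) (hx : x ≠ 0) (h4 : E.c₄ = x ^ 4 * (D : ℚ) ^ 2 * (W.c₄ : ℚ))
    (h6 : E.c₆ = x ^ 6 * (D : ℚ) ^ 3 * (W.c₆ : ℚ)) {r : ℕ} (ψ : DirichletCharacter ℂ r)
    (hψ : ∀ l : ℕ, l.Prime → ψ (l : ZMod r) = (twistSign D l : ℂ)) (i : ℕ) :
    (E.LFunction i : ℂ) = ψ (i : ZMod r) * oddCoeff q n i := by
  have hq0 : (q : ℤ) ≠ 0 := Int.natCast_ne_zero.mpr hq.out.ne_zero
  have hA : W.c₄ = 0 ∨ ∃ (α : ℕ) (A' : ℤ),
      W.c₄ = (q : ℤ) ^ α * A' ∧ ¬ (q : ℤ) ∣ A' ∧ (3 < 3 * α ∨ ¬ 2 ∣ α) := by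
    refine or_iff_not_imp_left.mpr fun h0 => ?_
    obtain ⟨A', e, hA'⟩ := (Int.finiteMultiplicity_iff.mpr
      ⟨by simpa using hq.out.ne_one, h0⟩).exists_eq_pow_mul_and_not_dvd (a := (q : ℤ))
    refine ⟨_, A', e, hA', ?_⟩
    rcases Nat.lt_trichotomy (multiplicity (q : ℤ) W.c₄) 1 with h | h | h
    · rw [Nat.lt_one_iff.mp h, pow_zero, one_mul] at e
      exact absurd (e ▸ hc4) hA'
    · exact Or.inr (by omega)
    · exact Or.inl (by omega)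
  exact FA.CM.LFunction_twist_eq_of_recursion (P := q)
    (by rw [hΔ]; exact neg_ne_zero.mpr (pow_ne_zero 3 hq0))
    (oddCoeff_zero q) (oddCoeff_one q h2n) (oddCoeff_ramified q)
    (fun l hl hlq => good_of_ne hΔ hl hlq) (fun l hl hlq => trace_recursion hodd hlaw hl hlq)
    hD hx h4 h6
    (FA.CM.LFunction_prime_pow_of_exponents hq.out E (z := x ^ 2 * D)
      (mul_ne_zero (pow_ne_zero 2 hx) (Int.cast_ne_zero.mpr hD.ne_zero)) (A := W.c₄) (B := -1)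
      (β := 3) (by rw [Int.dvd_neg, Int.natCast_dvd]; exact hq.out.not_dvd_one) (by norm_num) hA
      (by rw [h4]; ring) (by rw [FA.CM.twist_Δ h4 h6, hΔ]; push_cast; ring)) ψ hψ i

/-- **Every curve with that `j`-invariant has the coefficients of a cusp form of weight two.** -/
theorem exists_form_of_traceLaw (hq8 : q % 8 = 3) (hq3 : q ≠ 3) (hΔ : W.Δ = -(q : ℤ) ^ 3)
    (hc4 : (q : ℤ) ∣ W.c₄) (h4W : W.c₄ ≠ 0) (h6W : W.c₆ ≠ 0) (hlaw : TraceLaw q W)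
    (E : WeierstrassCurve ℚ) [E.IsElliptic] (hj : (W.c₄ : ℚ) ^ 3 = E.j * (W.Δ : ℚ)) :
    ∃ (N : ℕ) (f : CuspForm (Gamma0 N) 2), 0 < N ∧
      ∀ i : ℕ, (UpperHalfPlane.qExpansion 1 f).coeff i = (E.LFunction i : ℂ) := by
  obtain ⟨n, hn, hodd, h2n⟩ : ∃ n, q + 1 = 4 * n ∧ Odd n ∧ 2 ≤ n :=
    ⟨(q + 1) / 4, by omega, Nat.odd_iff.mpr (by omega), by omega⟩
  have := Fact.mk hn
  have : NeZero n := ⟨by omega⟩
  obtain ⟨x, D, hD, hx, h4, h6⟩ := FA.CM.exists_twist_of_j E W h4W h6W hj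
  obtain ⟨r, ψ, -, hr, hsq, -, hval⟩ := exists_twistSign_char hD
  have : NeZero r := ⟨hr.ne'⟩
  obtain ⟨N, f, hN, hf⟩ := exists_oddForm q (m := n) ψ hsq
  exact ⟨N, f, hN, fun i => (hf i).trans
    (LFunction_twist hodd h2n hΔ hc4 hlaw E hD hx h4 h6 ψ hval i).symm⟩

/-- **Its L-series is entire.** -/
theorem exists_entire_of_traceLaw (hq8 : q % 8 = 3) (hq3 : q ≠ 3) (hΔ : W.Δ = -(q : ℤ) ^ 3)
    (hc4 : (q : ℤ) ∣ W.c₄) (h4W : W.c₄ ≠ 0) (h6W : W.c₆ ≠ 0) (hlaw : TraceLaw q W)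
    (E : WeierstrassCurve ℚ) [E.IsElliptic] (hj : (W.c₄ : ℚ) ^ 3 = E.j * (W.Δ : ℚ)) :
    ∃ g : ℂ → ℂ, Differentiable ℂ g ∧ ∀ s : ℂ, 3 / 2 < s.re → E.LSeries s = g s := by
  obtain ⟨N, f, hN, hf⟩ := exists_form_of_traceLaw hq8 hq3 hΔ hc4 h4W h6W hlaw E hj
  exact FA.CM.exists_entire_of_qCoeff E hN f hf

end FA.CM.ClassOne

end
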